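import Fermat.Agent.Lib.S24.Cusps

/-!
# The coset space `SL(2,ℤ) ⧸ Γ₀(N)` (P1 / S24-COMB2)

Cardinality and the orbit counts of `S`, `S * T` and `T` acting by left multiplication.
-/

set_option autoImplicit false

namespace Fermat.Agent.S24Lib

open Matrix MatrixGroups CongruenceSubgroup ModularCurve

variable (N : ℕ) [NeZero N]

instance finite_quotient_Gamma0 : Finite (SL(2, ℤ) ⧸ Gamma0 N) :=
  Finite.of_injective _ (cosetToP1_injective (N := N))

theorem card_quotient_Gamma0 : Nat.card (SL(2, ℤ) ⧸ Gamma0 N) = dedekindPsi N := by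
  rw [card_coset_eq, card_P1_zmod N (NeZero.ne N)]

/-- orbits of `S` (acting by left multiplication) -/
theorem card_orbits_S :
    2 * Nat.card (MulAction.orbitRel.Quotient (Subgroup.zpowers ModularGroup.S)
      (SL(2, ℤ) ⧸ Gamma0 N)) = dedekindPsi N + nuTwo N := by
  rw [card_orbits_coset_eq, card_orbits_S_P1, card_P1_zmod N (NeZero.ne N)]

/-- orbits of `S * T` (of order 3 in `PSL₂(ℤ)`) -/
theorem card_orbits_ST :
    3 * Nat.card (MulAction.orbitRel.Quotient (Subgroup.zpowers (ModularGroup.S * ModularGroup.T))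
      (SL(2, ℤ) ⧸ Gamma0 N)) = dedekindPsi N + 2 * nuThree N := by
  rw [card_orbits_coset_eq, card_orbits_ST_P1, card_P1_zmod N (NeZero.ne N)]

/-- orbits of `T` = cusps -/
theorem card_orbits_T :
    Nat.card (MulAction.orbitRel.Quotient (Subgroup.zpowers ModularGroup.T)
      (SL(2, ℤ) ⧸ Gamma0 N)) = cuspCount N := by
  rw [card_orbits_coset_eq, card_orbits_T_P1]

end Fermat.Agent.S24Lib
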