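/-
S24 (project P1a): `j` as an element of the Prelude's function field of `X₀(N)` over `ℚ̄`.
-/
import Mathlib
import Fermat.Prelude.Def_ModularCurve_ArithmeticGalois
import Fermat.Prelude.Def_ModularCurve_JqCoeff

set_option autoImplicit false

namespace Fermat.Agent.S24Lib

open ModularCurve

local notation "Kbar" => AlgebraicClosure ℚ

variable (N : ℕ) [NeZero N]

/-- `j` as an element of the Prelude's function field of `X₀(N)` over `ℚ̄`. -/
noncomputable def jBar : modularFunctionFieldBar N :=
  ⟨jqModC Kbar, by
    have h : coeffEmb Kbar jq = jqModC Kbar := map_jqModC (algebraMap ℚ Kbar)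
    rw [← h]
    refine coeffEmb_mem_laurentBaseChange Kbar ?_
    have := jqd_mem_full N (one_dvd N)
    rwa [qExpand_one_apply] at this⟩

theorem coe_jBar : ((jBar N : modularFunctionFieldBar N) : LaurentSeries Kbar) = jqModC Kbar := rfl

theorem coe_jBar' : ((jBar N : modularFunctionFieldBar N) : LaurentSeries Kbar)
    = coeffEmb Kbar jq := (map_jqModC (algebraMap ℚ Kbar)).symm

end Fermat.Agent.S24Lib
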