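/-
S24 (project P1a), part MOD: abstract Galois-theoretic setup.  A group `Γ` acts on a domain `R`
(over an algebraically closed field `K`) through a finite quotient, the invariants are `K[j]`;
consequences for the fraction field `L` of `R`: fixed fields, stabilisers of places.
-/
import Mathlib
import Fermat.Prelude.Def_AlgebraicCurve_CanonicalDivisor
import Fermat.Agent.Lib.Curve.PlaceOfValuation
import Fermat.Agent.Lib.Curve.GaloisPlaces

set_option autoImplicit false
set_option linter.unusedSectionVars false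
set_option linter.style.haveILetI false

namespace Fermat.Agent.S24Lib

open AlgebraicCurve IntermediateField Fermat.Agent.Curve

section Frac

variable {K : Type*} [Field K]
variable {R : Type*} [CommRing R] [IsDomain R] [Algebra K R]
variable {L : Type*} [Field L] [Algebra R L] [IsFractionRing R L] [Algebra K L]
  [IsScalarTower K R L]

/-- extension of an algebra automorphism of a domain to its fraction field -/
noncomputable def fracAlgEquiv (e : R ≃ₐ[K] R) : L ≃ₐ[K] L :=
  { IsFractionRing.ringEquivOfRingEquiv (K := L) (L := L) e.toRingEquiv with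
    commutes' := fun c => by
      show IsFractionRing.ringEquivOfRingEquiv (K := L) (L := L) e.toRingEquiv (algebraMap K L c)
        = algebraMap K L c
      rw [IsScalarTower.algebraMap_apply K R L, IsFractionRing.ringEquivOfRingEquiv_algebraMap]
      simp }

@[simp]
theorem fracAlgEquiv_algebraMap (e : R ≃ₐ[K] R) (r : R) :
    fracAlgEquiv (L := L) e (algebraMap R L r) = algebraMap R L (e r) :=
  IsFractionRing.ringEquivOfRingEquiv_algebraMap (K := L) (L := L) e.toRingEquiv r

theorem algEquiv_ext_of_algebraMap {σ τ : L ≃ₐ[K] L}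
    (h : ∀ r : R, σ (algebraMap R L r) = τ (algebraMap R L r)) : σ = τ := by
  ext x
  obtain ⟨a, b, hb, rfl⟩ := IsFractionRing.div_surjective (A := R) x
  rw [map_div₀, map_div₀, h a, h b]

/-- `fracAlgEquiv` as a group homomorphism -/
noncomputable def fracAlgEquivHom : (R ≃ₐ[K] R) →* (L ≃ₐ[K] L) where
  toFun := fracAlgEquiv
  map_one' := algEquiv_ext_of_algebraMap (R := R) fun r => by simp
  map_mul' e₁ e₂ := algEquiv_ext_of_algebraMap (R := R) fun r => by simp

@[simp]
theorem fracAlgEquivHom_algebraMap (e : R ≃ₐ[K] R) (r : R) :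
    fracAlgEquivHom (L := L) e (algebraMap R L r) = algebraMap R L (e r) :=
  fracAlgEquiv_algebraMap e r

end Frac

section FixedField

variable {K : Type*} [Field K]
variable {R : Type*} [CommRing R] [IsDomain R] [Algebra K R]
variable {L : Type*} [Field L] [Algebra R L] [IsFractionRing R L] [Algebra K L]
  [IsScalarTower K R L]
variable {Γ : Type*} [Group Γ] (act : Γ →* (R ≃ₐ[K] R))

/-- the induced action on the fraction field -/
noncomputable def fracRep : Γ →* (L ≃ₐ[K] L) := (fracAlgEquivHom (R := R) (L := L)).comp act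

@[simp]
theorem fracRep_algebraMap (γ : Γ) (r : R) :
    fracRep (L := L) act γ (algebraMap R L r) = algebraMap R L (act γ r) :=
  fracAlgEquivHom_algebraMap (act γ) r

theorem algebraMap_mem_adjoin_of_mem_adjoin (j : R) {h : R} (hh : h ∈ Algebra.adjoin K {j}) :
    algebraMap R L h ∈ IntermediateField.adjoin K {algebraMap R L j} := by
  induction hh using Algebra.adjoin_induction with
  | mem x hx =>
    rw [Set.mem_singleton_iff] at hx
    rw [hx]
    exact IntermediateField.mem_adjoin_simple_self K _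
  | algebraMap c =>
    rw [← IsScalarTower.algebraMap_apply K R L]
    exact IntermediateField.algebraMap_mem _ c
  | add x y _ _ hx hy => rw [map_add]; exact add_mem hx hy
  | mul x y _ _ hx hy => rw [map_mul]; exact mul_mem hx hy

/-- **Fixed elements of the fraction field** are rational functions of `j`. -/
theorem fixed_mem_adjoin (hfin : Finite act.range) (j : R)
    (hinv : ∀ h : R, (∀ γ, act γ h = h) → h ∈ Algebra.adjoin K {j})
    (f : L) (hf : ∀ γ, fracRep (L := L) act γ f = f) :
    f ∈ IntermediateField.adjoin K {algebraMap R L j} := by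
  classical
  haveI : Fintype act.range := Fintype.ofFinite _
  obtain ⟨p, q, hq, rfl⟩ := IsFractionRing.div_surjective (A := R) f
  have hq0 : q ≠ 0 := nonZeroDivisors.ne_zero hq
  set Nq : R := ∏ g : act.range, (g : R ≃ₐ[K] R) q with hNq
  set c : R := ∏ g ∈ (Finset.univ.erase (1 : act.range)), (g : R ≃ₐ[K] R) q with hc
  have hsplit : Nq = q * c := by
    rw [hNq, hc, ← Finset.mul_prod_erase Finset.univ (fun g : act.range => (g : R ≃ₐ[K] R) q)
      (Finset.mem_univ 1)]
    simp
  have hNq0 : Nq ≠ 0 := by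
    rw [hNq, Finset.prod_ne_zero_iff]
    intro g _
    exact (EmbeddingLike.map_ne_zero_iff (f := (g : R ≃ₐ[K] R))).mpr hq0
  have hNinv : ∀ γ, act γ Nq = Nq := by
    intro γ
    rw [hNq, map_prod]
    refine Fintype.prod_equiv (Equiv.mulLeft (⟨act γ, γ, rfl⟩ : act.range)) _ _ (fun g => ?_)
    simp [AlgEquiv.mul_apply]
  have hqL : algebraMap R L q ≠ 0 := by
    simpa using hq0
  have hpc : algebraMap R L (p * c)
      = (algebraMap R L p / algebraMap R L q) * algebraMap R L Nq := by
    rw [hsplit, map_mul, map_mul]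
    field_simp
  have hpcinv : ∀ γ, act γ (p * c) = p * c := by
    intro γ
    apply IsFractionRing.injective R L
    rw [← fracRep_algebraMap (L := L), hpc, map_mul, hf γ, fracRep_algebraMap, hNinv γ]
  have h1 := algebraMap_mem_adjoin_of_mem_adjoin (L := L) j (hinv _ hpcinv)
  have h2 := algebraMap_mem_adjoin_of_mem_adjoin (L := L) j (hinv _ hNinv)
  have hNL : algebraMap R L Nq ≠ 0 := by simpa using hNq0
  have : algebraMap R L p / algebraMap R L q = algebraMap R L (p * c) / algebraMap R L Nq := by
    rw [hpc]; field_simp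
  rw [this]
  exact div_mem h1 h2

theorem fixedField_fracRep_range (hfin : Finite act.range) (j : R) (hj : ∀ γ, act γ j = j)
    (hinv : ∀ h : R, (∀ γ, act γ h = h) → h ∈ Algebra.adjoin K {j}) :
    IntermediateField.fixedField (fracRep (L := L) act).range
      = IntermediateField.adjoin K {algebraMap R L j} := by
  apply le_antisymm
  · intro f hf
    rw [IntermediateField.mem_fixedField_iff] at hf
    exact fixed_mem_adjoin act hfin j hinv f (fun γ => hf _ ⟨γ, rfl⟩)
  · rw [IntermediateField.adjoin_le_iff, Set.singleton_subset_iff]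
    show algebraMap R L j ∈ IntermediateField.fixedField (fracRep (L := L) act).range
    rw [IntermediateField.mem_fixedField_iff]
    rintro _ ⟨γ, rfl⟩
    rw [fracRep_algebraMap, hj]

end FixedField

section Places

open WithZero

variable {K : Type*} [Field K]
variable {R : Type*} [CommRing R] [IsDomain R] [Algebra K R]
variable {L : Type*} [Field L] [Algebra R L] [IsFractionRing R L] [Algebra K L]
  [IsScalarTower K R L]

/-- extension of a valuation with trivial support to the fraction field -/
noncomputable def fracValuation (w : Valuation R ℤᵐ⁰) (hw : ∀ r, w r = 0 → r = 0) :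
    Valuation L ℤᵐ⁰ :=
  w.extendToLocalization (S := nonZeroDivisors R) (fun r hr => by
    show r ∉ w.supp
    rw [Valuation.mem_supp_iff]
    intro h0
    exact nonZeroDivisors.ne_zero hr (hw r h0)) L

@[simp]
theorem fracValuation_algebraMap (w : Valuation R ℤᵐ⁰) (hw : ∀ r, w r = 0 → r = 0) (r : R) :
    fracValuation (L := L) w hw (algebraMap R L r) = w r :=
  Valuation.extendToLocalization_apply_map_apply _ _ _ r

theorem fracValuation_invariant (w : Valuation R ℤᵐ⁰) (hw : ∀ r, w r = 0 → r = 0)
    (e : R ≃ₐ[K] R) (he : ∀ r, w (e r) = w r) (f : L) :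
    fracValuation (L := L) w hw (fracAlgEquiv (L := L) e f) = fracValuation (L := L) w hw f := by
  obtain ⟨a, b, hb, rfl⟩ := IsFractionRing.div_surjective (A := R) f
  rw [map_div₀, fracAlgEquiv_algebraMap, fracAlgEquiv_algebraMap, map_div₀, map_div₀,
    fracValuation_algebraMap, fracValuation_algebraMap, fracValuation_algebraMap,
    fracValuation_algebraMap, he, he]

theorem fracValuation_algebraMap_le_one (w : Valuation R ℤᵐ⁰) (hw : ∀ r, w r = 0 → r = 0)
    (hK : ∀ c : K, w (algebraMap K R c) ≤ 1) (c : K) :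
    fracValuation (L := L) w hw (algebraMap K L c) ≤ 1 := by
  rw [IsScalarTower.algebraMap_apply K R L, fracValuation_algebraMap]
  exact hK c

/-- the place of the fraction field attached to a valuation of `R` -/
noncomputable def fracPlace (w : Valuation R ℤᵐ⁰) (hw : ∀ r, w r = 0 → r = 0)
    (hK : ∀ c : K, w (algebraMap K R c) ≤ 1) (y : R) (hy0 : y ≠ 0) (hy : w y ≠ 1) :
    Place K L :=
  placeOfValuation (fracValuation (L := L) w hw) (fracValuation_algebraMap_le_one w hw hK)
    ⟨algebraMap R L y, by simpa using hy0, by rw [fracValuation_algebraMap]; exact hy⟩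

theorem mem_fracPlace_iff (w : Valuation R ℤᵐ⁰) (hw : ∀ r, w r = 0 → r = 0)
    (hK : ∀ c : K, w (algebraMap K R c) ≤ 1) (y : R) (hy0 : y ≠ 0) (hy : w y ≠ 1) (f : L) :
    f ∈ (fracPlace (L := L) w hw hK y hy0 hy).toValuationSubring
      ↔ fracValuation (L := L) w hw f ≤ 1 :=
  mem_placeOfValuation_iff _ _ _ f

/-- an automorphism preserving the valuation fixes the place -/
theorem smul_fracPlace_eq (w : Valuation R ℤᵐ⁰) (hw : ∀ r, w r = 0 → r = 0)
    (hK : ∀ c : K, w (algebraMap K R c) ≤ 1) (y : R) (hy0 : y ≠ 0) (hy : w y ≠ 1)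
    (σ : L ≃ₐ[K] L) (hσ : ∀ f : L, fracValuation (L := L) w hw (σ f) = fracValuation w hw f) :
    σ • fracPlace (L := L) w hw hK y hy0 hy = fracPlace w hw hK y hy0 hy := by
  apply Place.ext
  ext x
  rw [Place.smul_toValuationSubring, ValuationSubring.mem_pointwise_smul_iff_inv_smul_mem,
    mem_fracPlace_iff, mem_fracPlace_iff]
  have h1 := hσ (σ⁻¹ • x)
  have h2 : σ (σ⁻¹ • x) = x := by
    rw [AlgEquiv.smul_def]
    exact σ.apply_symm_apply x
  rw [h2] at h1
  rw [h1]

/-- positivity and an upper bound for the order at `fracPlace` -/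
theorem fracPlace_ord_pos (w : Valuation R ℤᵐ⁰) (hw : ∀ r, w r = 0 → r = 0)
    (hK : ∀ c : K, w (algebraMap K R c) ≤ 1) (y : R) (hy0 : y ≠ 0) (hy : w y ≠ 1)
    {z : R} (hz0 : z ≠ 0) (hz : w z < 1) :
    0 < (fracPlace (L := L) w hw hK y hy0 hy).ord (algebraMap R L z) := by
  have hzL : algebraMap R L z ≠ 0 := by simpa using hz0
  rw [fracPlace, placeOfValuation_ord_pos_iff _ _ _ _ hzL, fracValuation_algebraMap]
  exact hz

theorem fracPlace_ord_le (w : Valuation R ℤᵐ⁰) (hw : ∀ r, w r = 0 → r = 0)
    (hK : ∀ c : K, w (algebraMap K R c) ≤ 1) (y : R) (hy0 : y ≠ 0) (hy : w y ≠ 1)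
    {z : R} (hz0 : z ≠ 0) {n : ℤ} (hn : w z = exp (-n)) (hpos : 0 ≤ n) :
    (fracPlace (L := L) w hw hK y hy0 hy).ord (algebraMap R L z) ≤ n := by
  have hzL : algebraMap R L z ≠ 0 := by simpa using hz0
  refine placeOfValuation_ord_le _ _ _ _ hzL ?_ hpos
  rw [fracValuation_algebraMap]
  exact hn

end Places

section Stabilizer

variable {K : Type*} [Field K] [IsAlgClosed K] [CharZero K]
variable {L : Type*} [Field L] [Algebra K L]
variable {Γ : Type*} [Group Γ]

/-- If a subgroup `Δ` stabilises a place and its image is at least as large as the ramification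
index, then its image is the whole stabiliser. -/
theorem stabilizer_iff (ρ : Γ →* (L ≃ₐ[K] L)) (hfin : Finite ρ.range)
    (y : L) (hy : Transcendental K y)
    (hfix : IntermediateField.fixedField ρ.range = IntermediateField.adjoin K {y})
    (v₀ : Place K L) (hv₀ : 0 < v₀.ord y)
    (Δ : Subgroup Γ) (hΔ : ∀ δ ∈ Δ, ρ δ • v₀ = v₀)
    (hcard : v₀.ord y ≤ Nat.card (Δ.map ρ)) (γ : Γ) :
    ρ γ • v₀ = v₀ ↔ ∃ δ ∈ Δ, ρ γ = ρ δ := by
  constructor
  · intro hγ
    have hstab := card_stabilizer_eq_ord ρ.range y hy hfix v₀ hv₀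
    let ι : (Δ.map ρ) → {g : ρ.range // (g : L ≃ₐ[K] L) • v₀ = v₀} := fun x =>
      ⟨⟨x.1, Subgroup.map_le_range ρ Δ x.2⟩, by
        obtain ⟨δ, hδ, hx⟩ := x.2
        show (x.1 : L ≃ₐ[K] L) • v₀ = v₀
        rw [← hx]
        exact hΔ δ hδ⟩
    have hinj : Function.Injective ι := by
      intro a b hab
      apply Subtype.ext
      have := congrArg (fun z : {g : ρ.range // (g : L ≃ₐ[K] L) • v₀ = v₀} =>
        ((z.1 : ρ.range) : L ≃ₐ[K] L)) hab
      exact this
    haveI : Finite {g : ρ.range // (g : L ≃ₐ[K] L) • v₀ = v₀} := Subtype.finite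
    have hle : Nat.card {g : ρ.range // (g : L ≃ₐ[K] L) • v₀ = v₀} ≤ Nat.card (Δ.map ρ) := by
      have : (Nat.card {g : ρ.range // (g : L ≃ₐ[K] L) • v₀ = v₀} : ℤ)
          ≤ (Nat.card (Δ.map ρ) : ℤ) := by rw [hstab]; exact hcard
      exact_mod_cast this
    have hbij := Function.Injective.bijective_of_nat_card_le hinj hle
    obtain ⟨x, hx⟩ := hbij.2 ⟨⟨ρ γ, γ, rfl⟩, hγ⟩
    obtain ⟨δ, hδ, hxδ⟩ := x.2
    refine ⟨δ, hδ, ?_⟩
    have := congrArg (fun z : {g : ρ.range // (g : L ≃ₐ[K] L) • v₀ = v₀} =>
      ((z.1 : ρ.range) : L ≃ₐ[K] L)) hx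
    simp only [ι] at this
    rw [hxδ]
    exact this.symm
  · rintro ⟨δ, hδ, h⟩
    rw [h]
    exact hΔ δ hδ

end Stabilizer

end Fermat.Agent.S24Lib
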