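import Mathlib

/-!
# The analytic `j`-function (S24, analytic part AN1 + AN2)

`jFun = E₄³ / Δ` is holomorphic on `ℍ`, `SL(2, ℤ)`-invariant and surjective.
-/

set_option autoImplicit false

namespace Fermat.Agent.S24Lib

open UpperHalfPlane ModularForm Matrix MatrixGroups Filter Topology
open scoped ModularForm Manifold

local notation "Δ" => ModularForm.discriminant

/-- the analytic `j`-function `E₄³/Δ` -/
noncomputable def jFun (τ : ℍ) : ℂ := ModularForm.E₄ τ ^ 3 / Δ τ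

theorem mdiff_E₄ : MDiff (ModularForm.E₄ : ℍ → ℂ) := ModularFormClass.holo ModularForm.E₄

theorem mdiff_E₆ : MDiff (ModularForm.E₆ : ℍ → ℂ) := ModularFormClass.holo ModularForm.E₆

theorem mdiff_discriminant : MDiff (Δ : ℍ → ℂ) := CuspForm.discriminant.holo'

theorem mdiff_jFun : MDiff jFun := by
  have h3 : MDiff (fun τ : ℍ => ModularForm.E₄ τ ^ 3) := mdiff_E₄.pow 3
  exact h3.div mdiff_discriminant discriminant_ne_zero

theorem mem_SL (γ : SL(2, ℤ)) : (γ : GL (Fin 2) ℝ) ∈ 𝒮ℒ := ⟨γ, rfl⟩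

/-- transformation law for level one forms -/
theorem levelOne_smul_eq {F : Type*} [FunLike F ℍ ℂ] {k : ℤ} [SlashInvariantFormClass F 𝒮ℒ k]
    (f : F) (γ : SL(2, ℤ)) (τ : ℍ) : f (γ • τ) = denom γ τ ^ k * f τ :=
  SlashInvariantForm.slash_action_eqn'' f (mem_SL γ) τ

theorem E₄_smul (γ : SL(2, ℤ)) (τ : ℍ) :
    ModularForm.E₄ (γ • τ) = denom γ τ ^ (4 : ℤ) * ModularForm.E₄ τ :=
  levelOne_smul_eq ModularForm.E₄ γ τ

theorem E₆_smul (γ : SL(2, ℤ)) (τ : ℍ) :
    ModularForm.E₆ (γ • τ) = denom γ τ ^ (6 : ℤ) * ModularForm.E₆ τ :=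
  levelOne_smul_eq ModularForm.E₆ γ τ

theorem discriminant_smul (γ : SL(2, ℤ)) (τ : ℍ) :
    Δ (γ • τ) = denom γ τ ^ (12 : ℤ) * Δ τ :=
  levelOne_smul_eq CuspForm.discriminant γ τ

theorem jFun_smul (γ : SL(2, ℤ)) (τ : ℍ) : jFun (γ • τ) = jFun τ := by
  have hd : denom γ τ ≠ 0 := denom_ne_zero γ τ
  have hΔ := discriminant_ne_zero τ
  rw [jFun, jFun, E₄_smul, discriminant_smul]
  have h12 : denom γ τ ^ (12 : ℤ) = (denom γ τ ^ (4 : ℤ)) ^ 3 := by
    rw [← zpow_natCast, ← _root_.zpow_mul]; norm_num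
  rw [h12, mul_pow]
  have h4 : (denom γ τ ^ (4 : ℤ)) ^ 3 ≠ 0 := pow_ne_zero _ (zpow_ne_zero _ hd)
  field_simp

theorem jFun_mul_discriminant (τ : ℍ) : jFun τ * Δ τ = ModularForm.E₄ τ ^ 3 := by
  rw [jFun, div_mul_cancel₀ _ (discriminant_ne_zero τ)]

theorem jFun_eq_zero_iff (τ : ℍ) : jFun τ = 0 ↔ ModularForm.E₄ τ = 0 := by
  rw [jFun, div_eq_zero_iff]
  constructor
  · rintro (h | h)
    · exact pow_eq_zero_iff (by norm_num) |>.mp h
    · exact absurd h (discriminant_ne_zero τ)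
  · intro h
    left
    rw [h]; norm_num

theorem jFun_sub_1728 (τ : ℍ) : jFun τ - 1728 = ModularForm.E₆ τ ^ 2 / Δ τ := by
  have hΔ := discriminant_ne_zero τ
  have h := discriminant_eq_E₄_cube_sub_E₆_sq τ
  rw [jFun, eq_div_iff hΔ, sub_mul, div_mul_cancel₀ _ hΔ]
  rw [h]
  ring

theorem jFun_eq_1728_iff (τ : ℍ) : jFun τ = 1728 ↔ ModularForm.E₆ τ = 0 := by
  rw [← sub_eq_zero, jFun_sub_1728, div_eq_zero_iff]
  constructor
  · rintro (h | h)
    · exact pow_eq_zero_iff (by norm_num) |>.mp h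
    · exact absurd h (discriminant_ne_zero τ)
  · intro h
    left
    rw [h]; norm_num

/-! ### values at infinity -/

/-- a level one modular form tends to its constant `q`-coefficient at `i∞` -/
theorem tendsto_levelOne_atImInfty {F : Type*} [FunLike F ℍ ℂ] {k : ℤ} [ModularFormClass F 𝒮ℒ k]
    (f : F) : Tendsto (f : ℍ → ℂ) atImInfty (𝓝 ((qExpansion 1 f).coeff 0)) := by
  have hper := SlashInvariantFormClass.periodic_comp_ofComplex f one_mem_strictPeriods_SL
  have han := ModularFormClass.analyticAt_cuspFunction_zero f one_pos one_mem_strictPeriods_SL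
  have h0 : (qExpansion 1 f).coeff 0 = cuspFunction 1 f 0 := by
    simp [qExpansion_coeff]
  rw [h0]
  have : (cuspFunction 1 f ∘ fun τ : ℍ => Function.Periodic.qParam 1 τ : ℍ → ℂ) = f := by
    funext τ
    simpa using eq_cuspFunction τ one_ne_zero hper
  have h1 := han.continuousAt.tendsto.comp (qParam_tendsto_atImInfty one_pos)
  rwa [this] at h1

theorem tendsto_E₄_atImInfty : Tendsto (ModularForm.E₄ : ℍ → ℂ) atImInfty (𝓝 1) := by
  have := tendsto_levelOne_atImInfty ModularForm.E₄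
  rwa [EisensteinSeries.E_qExpansion_coeff_zero _ ⟨2, rfl⟩] at this

theorem tendsto_E₆_atImInfty : Tendsto (ModularForm.E₆ : ℍ → ℂ) atImInfty (𝓝 1) := by
  have := tendsto_levelOne_atImInfty ModularForm.E₆
  rwa [EisensteinSeries.E_qExpansion_coeff_zero _ ⟨3, rfl⟩] at this

theorem tendsto_discriminant_atImInfty : Tendsto (Δ : ℍ → ℂ) atImInfty (𝓝 0) :=
  discriminant_isZeroAtImInfty

end Fermat.Agent.S24Lib
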