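import Mathlib
import Fermat.Prelude.Def_ModularCurve_JqCoeff
import Fermat.Agent.Lib.S24.JFun

/-!
# `q`-expansions of `E₄`, `Δ` agree with the Prelude's formal series (S24, AN4)
-/

set_option autoImplicit false

namespace Fermat.Agent.S24Lib

open UpperHalfPlane ModularForm Matrix MatrixGroups Filter Topology
open scoped ModularForm Manifold ArithmeticFunction.sigma PowerSeries.WithPiTopology

local notation "Δ" => ModularForm.discriminant

theorem bernoulli_four_eq : _root_.bernoulli 4 = -1 / 30 := by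
  rw [bernoulli_eq_bernoulli'_of_ne_one (by norm_num), bernoulli'_four]

/-- **AN4**: the `q`-expansion of `E₄` is the Prelude's formal series. -/
theorem qExpansion_E₄ :
    qExpansion 1 ModularForm.E₄ = PowerSeries.map (Int.castRingHom ℂ) ModularCurve.eisenstein4 := by
  ext m
  rw [EisensteinSeries.E_qExpansion_coeff _ ⟨2, rfl⟩, PowerSeries.coeff_map,
    ModularCurve.eisenstein4, PowerSeries.coeff_mk]
  split_ifs with h
  · simp
  · rw [bernoulli_four_eq, ArithmeticFunction.sigma_apply]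
    push_cast
    norm_num

/-- iterated derivative of a polynomial function -/
theorem iteratedDeriv_polynomial_eval (p : Polynomial ℂ) (k : ℕ) :
    iteratedDeriv k (fun x => p.eval x) = fun x => (Polynomial.derivative^[k] p).eval x := by
  induction k with
  | zero => simp
  | succ k ih =>
    rw [iteratedDeriv_succ, ih]
    funext x
    rw [Polynomial.deriv, Function.iterate_succ_apply']

theorem iteratedDeriv_polynomial_eval_zero (p : Polynomial ℂ) (k : ℕ) :
    iteratedDeriv k (fun x => p.eval x) 0 = k.factorial * p.coeff k := by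
  rw [iteratedDeriv_polynomial_eval]
  show Polynomial.eval 0 _ = _
  rw [← Polynomial.coeff_zero_eq_eval_zero, Polynomial.coeff_iterate_derivative]
  simp [Nat.descFactorial_self]

/-- locally uniform limits of holomorphic functions: all iterated derivatives converge. -/
theorem tendstoLocallyUniformlyOn_iteratedDeriv {ι : Type*} {φ : Filter ι} [φ.NeBot]
    {F : ι → ℂ → ℂ} {f : ℂ → ℂ} {U : Set ℂ} (hU : IsOpen U)
    (hf : TendstoLocallyUniformlyOn F f φ U) (hF : ∀ᶠ i in φ, DifferentiableOn ℂ (F i) U)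
    (k : ℕ) :
    TendstoLocallyUniformlyOn (fun i => iteratedDeriv k (F i)) (iteratedDeriv k f) φ U ∧
      ∀ᶠ i in φ, DifferentiableOn ℂ (iteratedDeriv k (F i)) U := by
  induction k with
  | zero => simpa using ⟨hf, hF⟩
  | succ k ih =>
    simp only [iteratedDeriv_succ]
    exact ⟨ih.1.deriv ih.2 hU, ih.2.mono fun i hi => hi.deriv hU⟩

theorem tendstoLocallyUniformlyOn_const_family {ι : Type*} (φ : Filter ι)
    (f : ℂ → ℂ) (U : Set ℂ) : TendstoLocallyUniformlyOn (fun _ : ι => f) f φ U := by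
  intro u hu x _
  exact ⟨U, self_mem_nhdsWithin, Eventually.of_forall fun _ y _ => refl_mem_uniformity hu⟩

theorem tendstoLocallyUniformlyOn_pow {ι : Type*} {φ : Filter ι}
    {F : ι → ℂ → ℂ} {f : ℂ → ℂ} {U : Set ℂ}
    (hf : TendstoLocallyUniformlyOn F f φ U) (hc : ContinuousOn f U) (k : ℕ) :
    TendstoLocallyUniformlyOn (fun i q => F i q ^ k) (fun q => f q ^ k) φ U := by
  induction k with
  | zero =>
    simp only [pow_zero]
    exact tendstoLocallyUniformlyOn_const_family φ (fun _ => (1:ℂ)) U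
  | succ k ih =>
    simp only [pow_succ]
    exact ih.fun_mul₀ hf (hc.pow k) hc

/-- the integer polynomial `X ∏_{n∈s}(1 - X^{n+1})^24` -/
noncomputable def etaPolyZ (s : Finset ℕ) : Polynomial ℤ :=
  Polynomial.X * (∏ n ∈ s, (1 - Polynomial.X ^ (n + 1))) ^ 24

theorem etaPolyZ_coe (s : Finset ℕ) :
    ((etaPolyZ s : Polynomial ℤ) : PowerSeries ℤ) =
      PowerSeries.X * (∏ n ∈ s, (1 - PowerSeries.X ^ (n + 1))) ^ 24 := by
  have : ∀ p : Polynomial ℤ, (p : PowerSeries ℤ) = Polynomial.coeToPowerSeries.ringHom p :=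
    fun p => rfl
  rw [this, etaPolyZ, map_mul, map_pow, map_prod]
  simp

theorem tendsto_coeff_etaPolyZ (m : ℕ) :
    Tendsto (fun s => (((etaPolyZ s).coeff m : ℤ) : ℂ)) atTop
      (𝓝 ((PowerSeries.coeff m (PowerSeries.X * ModularCurve.dedekindEtaUnit) : ℤ) : ℂ)) := by
  have h1 : Tendsto (fun s : Finset ℕ => ∏ n ∈ s, ((1 : PowerSeries ℤ) - PowerSeries.X ^ (n + 1)))
      atTop (𝓝 ModularCurve.etaProd) :=
    (PowerSeries.WithPiTopology.multipliable_one_sub_X_pow ℤ).hasProd
  have h2 : Tendsto (fun s : Finset ℕ =>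
      PowerSeries.X * (∏ n ∈ s, ((1 : PowerSeries ℤ) - PowerSeries.X ^ (n + 1))) ^ 24) atTop
      (𝓝 (PowerSeries.X * ModularCurve.etaProd ^ 24)) := (h1.pow 24).const_mul _
  have h3 := ((PowerSeries.WithPiTopology.continuous_coeff ℤ m).tendsto _).comp h2
  have h4 := ((continuous_of_discreteTopology (f := (Int.cast : ℤ → ℂ))).tendsto _).comp h3
  refine h4.congr fun s => ?_
  simp only [Function.comp_apply]
  rw [← etaPolyZ_coe, Polynomial.coeff_coe]

theorem etaPolyZ_eval (s : Finset ℕ) (q : ℂ) :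
    ((etaPolyZ s).map (Int.castRingHom ℂ)).eval q = q * (∏ n ∈ s, (1 - q ^ (n + 1))) ^ 24 := by
  simp [etaPolyZ, Polynomial.eval_prod, Polynomial.map_prod]


theorem tendstoLocallyUniformlyOn_etaPolyZ :
    TendstoLocallyUniformlyOn (fun s q => ((etaPolyZ s).map (Int.castRingHom ℂ)).eval q)
      (fun q => q * ∏' i, (1 - q ^ (i + 1)) ^ 24) atTop (Metric.ball (0 : ℂ) 1) := by
  have h1 : TendstoLocallyUniformlyOn (fun (s : Finset ℕ) (q : ℂ) => ∏ n ∈ s, (1 - q ^ (n + 1)))
      (fun q => ∏' n, (1 - q ^ (n + 1))) atTop (Metric.ball (0 : ℂ) 1) := by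
    have := multipliableLocallyUniformlyOn_one_sub_pow.hasProdLocallyUniformlyOn
    rw [hasProdLocallyUniformlyOn_iff_tendstoLocallyUniformlyOn] at this
    exact this
  have hc : ContinuousOn (fun q : ℂ => ∏' n, (1 - q ^ (n + 1))) (Metric.ball (0 : ℂ) 1) :=
    differentiableOn_tprod_one_sub_pow.continuousOn
  have h2 := tendstoLocallyUniformlyOn_pow h1 hc 24
  have h3 := (tendstoLocallyUniformlyOn_const_family (atTop : Filter (Finset ℕ))
    (fun q : ℂ => q) (Metric.ball (0 : ℂ) 1)).fun_mul₀ h2 continuousOn_id (hc.pow 24)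
  refine (h3.congr fun s q _ => ?_).congr_right fun q hq => ?_
  · simp only [etaPolyZ_eval]
  · simp only
    rw [(multipliable_one_sub_pow (by simpa using hq)).tprod_pow 24]

/-- **AN4**: the `q`-expansion of `Δ` is `q ∏ (1 - qⁿ)²⁴`, as a formal power series. -/
theorem qExpansion_discriminant :
    qExpansion 1 Δ =
      PowerSeries.X * PowerSeries.map (Int.castRingHom ℂ) ModularCurve.dedekindEtaUnit := by
  ext m
  have hX : (PowerSeries.X : PowerSeries ℂ) = PowerSeries.map (Int.castRingHom ℂ) PowerSeries.X := by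
    simp
  rw [hX, ← map_mul, PowerSeries.coeff_map, qExpansion_coeff]
  set f : ℂ → ℂ := fun q => q * ∏' i, (1 - q ^ (i + 1)) ^ 24 with hf
  have hball : Metric.ball (0 : ℂ) 1 ∈ 𝓝 (0 : ℂ) := Metric.ball_mem_nhds _ one_pos
  have heq : cuspFunction 1 Δ =ᶠ[𝓝 0] f :=
    Filter.eventuallyEq_of_mem hball discriminant_cuspFunction_eqOn
  rw [heq.iteratedDeriv_eq m]
  have hdiff : ∀ᶠ s : Finset ℕ in atTop, DifferentiableOn ℂ
      (fun q => ((etaPolyZ s).map (Int.castRingHom ℂ)).eval q) (Metric.ball (0 : ℂ) 1) :=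
    Eventually.of_forall fun s => Polynomial.differentiableOn _
  have h1 := (tendstoLocallyUniformlyOn_iteratedDeriv Metric.isOpen_ball
    tendstoLocallyUniformlyOn_etaPolyZ hdiff m).1.tendsto_at (Metric.mem_ball_self one_pos)
  simp only [iteratedDeriv_polynomial_eval_zero, Polynomial.coeff_map] at h1
  have h2 := (tendsto_coeff_etaPolyZ m).const_mul (m.factorial : ℂ)
  have h3 := tendsto_nhds_unique h1 h2
  rw [h3]
  have : (m.factorial : ℂ) ≠ 0 := by exact_mod_cast m.factorial_ne_zero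
  simp only [eq_intCast]
  field_simp


/-- `j(τ) q → 1` at `i∞` -/
theorem tendsto_jFun_mul_qParam :
    Tendsto (fun τ : ℍ => jFun τ * Function.Periodic.qParam 1 τ) atImInfty (𝓝 1) := by
  have h1 : Tendsto (fun τ : ℍ => ModularForm.E₄ τ ^ 3 / ∏' n, (1 - eta_q n τ) ^ 24)
      atImInfty (𝓝 (1 ^ 3 / 1)) :=
    (tendsto_E₄_atImInfty.pow 3).div tendsto_atImInfty_tprod_one_sub_eta_q_pow one_ne_zero
  rw [one_pow, div_one] at h1
  refine h1.congr fun τ => ?_
  have hΔ := discriminant_ne_zero τ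
  have hq : Function.Periodic.qParam 1 (τ : ℂ) ≠ 0 := by
    simp [Function.Periodic.qParam]
  rw [jFun]
  rw [discriminant_eq_q_prod] at hΔ ⊢
  have hp : ∏' n, (1 - eta_q n (τ : ℂ)) ^ 24 ≠ 0 := right_ne_zero_of_mul hΔ
  field_simp


end Fermat.Agent.S24Lib
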