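import Mathlib
import Fermat.Agent.Lib.S24.JFun

/-!
# Level one modular functions holomorphic on `ℍ` are polynomials in `j` (S24, AN5)
-/

set_option autoImplicit false

namespace Fermat.Agent.S24Lib

open UpperHalfPlane ModularForm Matrix MatrixGroups Filter Topology OnePoint Polynomial
open scoped ModularForm Manifold

local notation "Δ" => ModularForm.discriminant

/-! ### power series with coefficients in a subfield -/

/-- all coefficients lie in the subfield `k₀` -/
def RatPS (k₀ : Subfield ℂ) (p : PowerSeries ℂ) : Prop := ∀ n, p.coeff n ∈ k₀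

theorem RatPS.sub {k₀ : Subfield ℂ} {p q : PowerSeries ℂ} (hp : RatPS k₀ p) (hq : RatPS k₀ q) :
    RatPS k₀ (p - q) := fun n => by
  rw [map_sub]; exact sub_mem (hp n) (hq n)

theorem RatPS.mul {k₀ : Subfield ℂ} {p q : PowerSeries ℂ} (hp : RatPS k₀ p) (hq : RatPS k₀ q) :
    RatPS k₀ (p * q) := fun n => by
  rw [PowerSeries.coeff_mul]
  exact sum_mem fun x _ => mul_mem (hp _) (hq _)

theorem RatPS.one (k₀ : Subfield ℂ) : RatPS k₀ 1 := fun n => by
  rw [PowerSeries.coeff_one]
  split_ifs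
  · exact one_mem _
  · exact zero_mem _

theorem RatPS.pow {k₀ : Subfield ℂ} {p : PowerSeries ℂ} (hp : RatPS k₀ p) (n : ℕ) :
    RatPS k₀ (p ^ n) := by
  induction n with
  | zero => rw [pow_zero]; exact RatPS.one k₀
  | succ n ih => rw [pow_succ]; exact ih.mul hp

theorem RatPS.smul {k₀ : Subfield ℂ} {p : PowerSeries ℂ} (hp : RatPS k₀ p) {c : ℂ}
    (hc : c ∈ k₀) : RatPS k₀ (c • p) := fun n => by
  rw [PowerSeries.coeff_smul]; exact mul_mem hc (hp n)

/-- division: if `a * b = c` with `a ≠ 0` and `a`, `c` rational then `b` is rational -/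
theorem RatPS.of_mul_eq {k₀ : Subfield ℂ} {a b c : PowerSeries ℂ} (ha : RatPS k₀ a)
    (hc : RatPS k₀ c) (ha0 : a ≠ 0) (h : a * b = c) : RatPS k₀ b := by
  obtain ⟨d, hd⟩ : ∃ d : ℕ, a.order = d := by
    have := PowerSeries.order_finite_iff_ne_zero.mpr ha0
    exact ⟨a.order.toNat, (ENat.natCast_toNat (ne_of_lt this)).symm⟩
  have had : a.coeff d ≠ 0 := by
    have := PowerSeries.coeff_order ha0
    rwa [hd, ENat.toNat_natCast] at this
  have hlow : ∀ i < d, a.coeff i = 0 := fun i hi =>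
    PowerSeries.coeff_of_lt_order i (by rw [hd]; exact_mod_cast hi)
  intro n
  induction n using Nat.strong_induction_on with
  | _ n ih =>
    have hcn := hc (n + d)
    rw [← h, PowerSeries.coeff_mul] at hcn
    -- isolate the term `(d, n)`
    have hmem : (d, n) ∈ Finset.HasAntidiagonal.antidiagonal (n + d) := by
      rw [Finset.HasAntidiagonal.mem_antidiagonal]; omega
    rw [← Finset.add_sum_erase _ _ hmem] at hcn
    have hrest : ∑ x ∈ (Finset.HasAntidiagonal.antidiagonal (n + d)).erase (d, n), a.coeff x.1 * b.coeff x.2 ∈ k₀ := by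
      refine sum_mem fun x hx => ?_
      rw [Finset.mem_erase, Finset.HasAntidiagonal.mem_antidiagonal] at hx
      by_cases hx1 : x.1 < d
      · rw [hlow _ hx1, zero_mul]; exact zero_mem _
      · have hx2 : x.2 < n := by
          have h1 : x.1 ≠ d ∨ x.2 ≠ n := by
            by_contra hcon
            push Not at hcon
            exact hx.1 (Prod.ext hcon.1 hcon.2)
          omega
        exact mul_mem (ha _) (ih _ hx2)
    have h1 : a.coeff d * b.coeff n ∈ k₀ := by
      have := sub_mem hcn hrest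
      simpa using this
    have h2 : b.coeff n = (a.coeff d)⁻¹ * (a.coeff d * b.coeff n) := by
      field_simp
    rw [h2]
    exact mul_mem (inv_mem (ha d)) h1

/-! ### rationality of the basic `q`-expansions -/

theorem ratPS_E (k₀ : Subfield ℂ) {k : ℕ} (hk : 3 ≤ k) (hk2 : Even k) :
    RatPS k₀ (qExpansion 1 (ModularForm.E hk)) := by
  intro n
  rw [EisensteinSeries.E_qExpansion_coeff hk hk2]
  split_ifs
  · exact one_mem _
  · have h1 : (-(2 * (k : ℂ) / (_root_.bernoulli k : ℂ)) : ℂ) = ((-(2 * (k : ℚ) / _root_.bernoulli k) : ℚ) : ℂ) := by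
      push_cast; ring
    rw [h1]
    exact mul_mem (SubfieldClass.ratCast_mem k₀ _) (natCast_mem k₀ _)

theorem ratPS_E₄ (k₀ : Subfield ℂ) : RatPS k₀ (qExpansion 1 ModularForm.E₄) :=
  ratPS_E k₀ _ ⟨2, rfl⟩

theorem ratPS_E₆ (k₀ : Subfield ℂ) : RatPS k₀ (qExpansion 1 ModularForm.E₆) :=
  ratPS_E k₀ _ ⟨3, rfl⟩

theorem qExpansion_discriminant_eq :
    qExpansion 1 Δ = (1728 : ℂ)⁻¹ • (qExpansion 1 ModularForm.E₄ ^ 3 - qExpansion 1 ModularForm.E₆ ^ 2) := by
  set A : ModularForm 𝒮ℒ 12 := ModularForm.mcast (by decide : ((3 : ℕ) : ℤ) * 4 = 12)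
      (ModularForm.E₄.pow 3) with hA
  set B : ModularForm 𝒮ℒ 12 := ModularForm.mcast (by decide : ((2 : ℕ) : ℤ) * 6 = 12)
      (ModularForm.E₆.pow 2) with hB
  have hfun : (Δ : ℍ → ℂ) = (1728 : ℂ)⁻¹ • ⇑(A - B) := by
    ext τ
    rw [discriminant_eq_E₄_cube_sub_E₆_sq τ, FunLike.coe_sub, hA, hB, coe_mcast, coe_mcast,
      ModularForm.coe_pow, ModularForm.coe_pow]
    simp only [Pi.smul_apply, Pi.sub_apply, Pi.pow_apply, smul_eq_mul]
    ring
  rw [hfun, ModularForm.qExpansion_smul one_pos one_mem_strictPeriods_SL,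
    FunLike.coe_sub, ModularForm.qExpansion_sub one_pos one_mem_strictPeriods_SL, hA, hB,
    ModularForm.qExpansion_mcast, ModularForm.qExpansion_mcast,
    ModularForm.qExpansion_pow one_pos one_mem_strictPeriods_SL,
    ModularForm.qExpansion_pow one_pos one_mem_strictPeriods_SL]

theorem ratPS_discriminant (k₀ : Subfield ℂ) : RatPS k₀ (qExpansion 1 Δ) := by
  rw [qExpansion_discriminant_eq]
  refine RatPS.smul (((ratPS_E₄ k₀).pow 3).sub ((ratPS_E₆ k₀).pow 2)) ?_
  exact inv_mem (by exact_mod_cast natCast_mem k₀ 1728)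

theorem qExpansion_discriminant_ne_zero : qExpansion 1 Δ ≠ 0 := by
  intro h
  have := discriminant_qExpansion_coeff_one
  rw [h] at this
  simp at this

/-! ### the structure of `M_{12m}(SL(2, ℤ))` -/

/-- every level one modular form of weight `12m` is `P(j) Δ^m` with `deg P ≤ m`, and the
coefficients of `P` lie in any subfield containing the `q`-coefficients -/
theorem exists_poly_of_modularForm (k₀ : Subfield ℂ) :
    ∀ (m : ℕ) (k : ℤ) (_ : k = 12 * (m : ℤ)) (G : ModularForm 𝒮ℒ k),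
      RatPS k₀ (qExpansion 1 G) →
      ∃ P : Polynomial ℂ, P.natDegree ≤ m ∧ (∀ i, P.coeff i ∈ k₀) ∧
        ∀ τ, G τ = P.eval (jFun τ) * Δ τ ^ m := by
  intro m
  induction m with
  | zero =>
    intro k hk G hG
    obtain rfl : k = 0 := by simpa using hk
    obtain ⟨c, hc⟩ := ModularFormClass.levelOne_weight_zero_const G
    have hc0 : c = (qExpansion 1 G).coeff 0 := by
      have h1 := tendsto_levelOne_atImInfty G
      have h2 : Tendsto (G : ℍ → ℂ) atImInfty (𝓝 c) := by
        rw [hc]; exact tendsto_const_nhds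
      exact tendsto_nhds_unique h2 h1
    refine ⟨C c, by simp, ?_, fun τ => ?_⟩
    · intro i
      rw [coeff_C]
      split_ifs
      · rw [hc0]; exact hG 0
      · exact zero_mem _
    · have := congrFun hc τ
      simpa using this
  | succ m ih =>
    intro k hk G hG
    set c := (qExpansion 1 G).coeff 0 with hc
    have hkE : ((3 * (m + 1) : ℕ) : ℤ) * 4 = k := by rw [hk]; push_cast; ring
    set E : ModularForm 𝒮ℒ k := ModularForm.mcast hkE (ModularForm.E₄.pow (3 * (m + 1))) with hE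
    have hEq : qExpansion 1 E = qExpansion 1 ModularForm.E₄ ^ (3 * (m + 1)) := by
      rw [hE, ModularForm.qExpansion_mcast,
        ModularForm.qExpansion_pow one_pos one_mem_strictPeriods_SL]
    have hEfun : ∀ τ, E τ = ModularForm.E₄ τ ^ (3 * (m + 1)) := by
      intro τ
      rw [hE, coe_mcast, ModularForm.coe_pow]
      rfl
    have hE0 : (qExpansion 1 E).coeff 0 = 1 := by
      rw [hEq, PowerSeries.coeff_zero_eq_constantCoeff_apply, map_pow,
        ← PowerSeries.coeff_zero_eq_constantCoeff_apply,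
        EisensteinSeries.E_qExpansion_coeff_zero _ ⟨2, rfl⟩, one_pow]
    set G₁ : ModularForm 𝒮ℒ k := G - c • E with hG₁
    have hG₁q : qExpansion 1 G₁ = qExpansion 1 G - c • qExpansion 1 E := by
      rw [hG₁, FunLike.coe_sub, ModularForm.qExpansion_sub one_pos one_mem_strictPeriods_SL,
        FunLike.coe_smul, ModularForm.qExpansion_smul one_pos one_mem_strictPeriods_SL]
    have hcusp : (qExpansion 1 G₁).coeff 0 = 0 := by
      rw [hG₁q, map_sub, PowerSeries.coeff_smul, hE0, smul_eq_mul, mul_one, hc, sub_self]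
    have hG₁rat : RatPS k₀ (qExpansion 1 G₁) := by
      rw [hG₁q, hEq]
      exact hG.sub (((ratPS_E₄ k₀).pow _).smul (hG 0))
    set H := CuspForm.discriminantEquiv (ModularForm.toCuspForm G₁ hcusp) with hH
    have hmul := ModularForm.qExpansion_eq_qExpansion_discriminant_mul G₁ hcusp
    have hHrat : RatPS k₀ (qExpansion 1 H) :=
      RatPS.of_mul_eq (ratPS_discriminant k₀) hG₁rat qExpansion_discriminant_ne_zero hmul.symm
    obtain ⟨P', hdeg, hcoef, hval⟩ := ih (k - 12) (by rw [hk]; push_cast; ring) H hHrat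
    refine ⟨C c * X ^ (m + 1) + P', ?_, ?_, fun τ => ?_⟩
    · refine (natDegree_add_le _ _).trans (max_le (natDegree_C_mul_X_pow_le _ _) (by omega))
    · intro i
      rw [coeff_add, coeff_C_mul_X_pow]
      refine add_mem ?_ (hcoef i)
      split_ifs
      · exact hG 0
      · exact zero_mem _
    · have h1 : G τ = G₁ τ + c * E τ := by
        rw [hG₁]
        simp only [FunLike.coe_sub, FunLike.coe_smul, Pi.sub_apply, Pi.smul_apply, smul_eq_mul]
        ring
      have h2 : G₁ τ = Δ τ * H τ := by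
        rw [hH, ModularForm.discriminant_mul_discriminantEquiv_apply, ModularForm.toCuspForm_apply]
      rw [h1, h2, hval τ, hEfun τ, eval_add, eval_mul, eval_C, eval_pow, eval_X, pow_mul,
        ← jFun_mul_discriminant τ]
      ring

/-- a holomorphic `SL(2, ℤ)`-invariant function with `f Δ^m` bounded at `i∞` gives a modular
form of weight `12 m` -/
noncomputable def invariantMulDiscriminant (f : ℍ → ℂ) (hf : MDiff f)
    (hinv : ∀ (γ : SL(2, ℤ)) (τ : ℍ), f (γ • τ) = f τ) (m : ℕ)
    (hbd : IsBoundedAtImInfty (fun τ => f τ * Δ τ ^ m)) : ModularForm 𝒮ℒ (12 * (m : ℤ)) where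
  toFun τ := f τ * Δ τ ^ m
  slash_action_eq' := by
    rintro _ ⟨γ, rfl⟩
    ext τ
    have hd : denom γ τ ≠ 0 := denom_ne_zero γ τ
    change ((fun τ => f τ * Δ τ ^ m) ∣[12 * (m : ℤ)] γ) τ = _
    rw [SL_slash_apply, hinv, discriminant_smul, mul_pow, ← zpow_natCast (denom γ τ ^ (12 : ℤ)),
      ← _root_.zpow_mul, _root_.zpow_neg]
    field_simp
  holo' := hf.mul (mdiff_discriminant.pow m)
  bdd_at_cusps' {x} hx := by
    rw [Subgroup.IsArithmetic.isCusp_iff_isCusp_SL2Z] at hx
    rw [isBoundedAt_iff_forall_SL2Z hx]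
    intro γ _
    have : (fun τ => f τ * Δ τ ^ m) ∣[12 * (m : ℤ)] γ = fun τ => f τ * Δ τ ^ m := by
      ext τ
      have hd : denom γ τ ≠ 0 := denom_ne_zero γ τ
      rw [SL_slash_apply, hinv, discriminant_smul, mul_pow,
        ← zpow_natCast (denom γ τ ^ (12 : ℤ)), ← _root_.zpow_mul, _root_.zpow_neg]
      field_simp
    rw [this]
    exact hbd

/-- **AN5**: invariant holomorphic functions with a pole at `∞` are polynomials in `j`. -/
theorem exists_polynomial_jFun (f : ℍ → ℂ) (hf : MDiff f)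
    (hinv : ∀ (γ : SL(2, ℤ)) (τ : ℍ), f (γ • τ) = f τ) (m : ℕ)
    (hbd : IsBoundedAtImInfty (fun τ => f τ * Δ τ ^ m))
    (k₀ : Subfield ℂ) (hk : ∀ n, (qExpansion 1 (fun τ => f τ * Δ τ ^ m)).coeff n ∈ k₀) :
    ∃ P : Polynomial ℂ, P.natDegree ≤ m ∧ (∀ i, P.coeff i ∈ k₀) ∧
      ∀ τ, f τ = P.eval (jFun τ) := by
  obtain ⟨P, h1, h2, h3⟩ := exists_poly_of_modularForm k₀ m (12 * (m : ℤ)) rfl
    (invariantMulDiscriminant f hf hinv m hbd) hk
  refine ⟨P, h1, h2, fun τ => ?_⟩
  have := h3 τ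
  have hΔ : Δ τ ^ m ≠ 0 := pow_ne_zero _ (discriminant_ne_zero τ)
  exact mul_right_cancel₀ hΔ this

end Fermat.Agent.S24Lib
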