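import Mathlib
import Fermat.Agent.Lib.S22.UpperTriangular

/-!
# `q^{1/N}`-expansion of `τ ↦ f((aτ+b)/d)` (S24, AN4b)
-/

set_option autoImplicit false

namespace Fermat.Agent.S24Lib

open UpperHalfPlane ModularForm Matrix MatrixGroups Filter Topology
open scoped ModularForm Manifold
open Fermat.Agent.S22Lib (intGL)

theorem intGL_upper_one_zero (a b d : ℤ)
    (hdet : 0 < (!![a, b; 0, d] : Matrix (Fin 2) (Fin 2) ℤ).det) :
    (intGL !![a, b; 0, d] hdet) 1 0 = 0 := by
  rw [Fermat.Agent.S22Lib.intGL_val]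
  simp

/-- `q₁((aτ+b)/d) = ζ · q_N(τ)^e` where `ζ = exp(2πi b/d)` and `e d = N a`. -/
theorem qParam_intGL_upper_smul (a b d : ℤ) (hd : 0 < d)
    (hdet : 0 < (!![a, b; 0, d] : Matrix (Fin 2) (Fin 2) ℤ).det)
    (N : ℕ) (hN : 0 < N) (e : ℕ) (he : (e : ℤ) * d = N * a) (τ : ℍ) :
    Function.Periodic.qParam 1 ((intGL !![a, b; 0, d] hdet • τ : ℍ) : ℂ) =
      Complex.exp (2 * Real.pi * Complex.I * b / d) *
        Function.Periodic.qParam (N : ℝ) (τ : ℂ) ^ e := by
  have hdC : (d : ℂ) ≠ 0 := by exact_mod_cast hd.ne'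
  have hNC : (N : ℂ) ≠ 0 := by exact_mod_cast hN.ne'
  have heC : (e : ℂ) * (d : ℂ) = (N : ℂ) * (a : ℂ) := by exact_mod_cast congrArg (fun x : ℤ => (x : ℂ)) he
  rw [Fermat.Agent.S22Lib.coe_intGL_upper_smul, Function.Periodic.qParam, Function.Periodic.qParam,
    ← Complex.exp_nat_mul, ← Complex.exp_add]
  congr 1
  have : (a : ℂ) = (e : ℂ) * (d : ℂ) / (N : ℂ) := by
    rw [heC]; field_simp
  rw [this]
  push_cast
  field_simp
  ring

/-- the function `τ ↦ f((aτ+b)/d)` is again holomorphic, `N`-periodic and bounded at `i∞`. -/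
theorem comp_upper_props (f : ℍ → ℂ) (hf : MDiff f)
    (hper : Function.Periodic (f ∘ ofComplex) 1) (hbd : IsBoundedAtImInfty f)
    (a b d : ℤ) (ha : 0 < a) (hd : 0 < d)
    (hdet : 0 < (!![a, b; 0, d] : Matrix (Fin 2) (Fin 2) ℤ).det)
    (N : ℕ) (hN : 0 < N) (e : ℕ) (he : (e : ℤ) * d = N * a) :
    MDiff (fun τ => f (intGL !![a, b; 0, d] hdet • τ)) ∧
    Function.Periodic ((fun τ => f (intGL !![a, b; 0, d] hdet • τ)) ∘ ofComplex) N ∧
    IsBoundedAtImInfty (fun τ => f (intGL !![a, b; 0, d] hdet • τ)) := by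
  have hdC : (d : ℂ) ≠ 0 := by exact_mod_cast hd.ne'
  have hNC : (N : ℂ) ≠ 0 := by exact_mod_cast hN.ne'
  have heC : (e : ℂ) * (d : ℂ) = (N : ℂ) * (a : ℂ) := by exact_mod_cast congrArg (fun x : ℤ => (x : ℂ)) he
  refine ⟨?_, ?_, ?_⟩
  · exact hf.comp (mdifferentiable_smul (Fermat.Agent.S22Lib.intGL_det_pos _ hdet))
  · intro z
    have him : (z + (N : ℂ)).im = z.im := by
      rw [Complex.add_im, Complex.natCast_im, add_zero]
    rcases lt_or_ge 0 z.im with hz | hz
    · have hz' : 0 < (z + (N : ℂ)).im := by rw [him]; exact hz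
      simp only [Function.comp_apply]
      rw [ofComplex_apply_of_im_pos hz, ofComplex_apply_of_im_pos hz']
      set τ : ℍ := ⟨z, hz⟩
      set τ' : ℍ := ⟨z + (N : ℂ), hz'⟩
      have hcoe : ((intGL !![a, b; 0, d] hdet • τ' : ℍ) : ℂ) =
          ((intGL !![a, b; 0, d] hdet • τ : ℍ) : ℂ) + (e : ℂ) := by
        rw [Fermat.Agent.S22Lib.coe_intGL_upper_smul, Fermat.Agent.S22Lib.coe_intGL_upper_smul]
        change ((a : ℂ) * (z + (N : ℂ)) + (b : ℂ)) / (d : ℂ) =
          ((a : ℂ) * z + (b : ℂ)) / (d : ℂ) + (e : ℂ)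
        have : (e : ℂ) = (N : ℂ) * (a : ℂ) / (d : ℂ) := by
          rw [← heC]; field_simp
        rw [this]
        push_cast
        field_simp
        ring
      have h1 : f (intGL !![a, b; 0, d] hdet • τ') =
          (f ∘ ofComplex) ((intGL !![a, b; 0, d] hdet • τ' : ℍ) : ℂ) := by
        simp
      have h2 : f (intGL !![a, b; 0, d] hdet • τ) =
          (f ∘ ofComplex) ((intGL !![a, b; 0, d] hdet • τ : ℍ) : ℂ) := by
        simp
      rw [h1, h2, hcoe]
      have := hper.nat_mul e ((intGL !![a, b; 0, d] hdet • τ : ℍ) : ℂ)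
      simpa using this
    · have hz' : (z + (N : ℂ)).im ≤ 0 := by rw [him]; exact hz
      simp only [Function.comp_apply]
      rw [ofComplex_apply_of_im_nonpos hz, ofComplex_apply_of_im_nonpos hz']
  · exact hbd.comp_tendsto (tendsto_smul_atImInfty (intGL_upper_one_zero a b d hdet))

/-- uniqueness of `q`-expansion coefficients, for plain functions on `ℍ` -/
theorem qExpansion_coeff_unique_fun {h : ℝ} {f : ℍ → ℂ} {c : ℕ → ℂ} (hh : 0 < h)
    (hfanalytic : AnalyticAt ℂ (cuspFunction h f) 0)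
    (hf : ∀ τ : ℍ, HasSum (fun m ↦ c m • Function.Periodic.qParam h (τ : ℂ) ^ m) (f τ)) (m : ℕ) :
    c m = (qExpansion h f).coeff m := by
  have h1 := (hasFPowerSeriesOnBall_cuspFunction hh hfanalytic hf).hasFPowerSeriesAt
  have h2 := hfanalytic.hasFPowerSeriesAt
  have h3 := congr_arg (FormalMultilinearSeries.coeff · m) (h1.eq_formalMultilinearSeries h2)
  simp only [FormalMultilinearSeries.coeff_ofScalars] at h3
  rw [h3, qExpansion_coeff, div_eq_inv_mul]

theorem hasSum_comp_upper (f : ℍ → ℂ) (hf : MDiff f)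
    (hper : Function.Periodic (f ∘ ofComplex) 1) (hbd : IsBoundedAtImInfty f)
    (a b d : ℤ) (ha : 0 < a) (hd : 0 < d)
    (hdet : 0 < (!![a, b; 0, d] : Matrix (Fin 2) (Fin 2) ℤ).det)
    (N : ℕ) (hN : 0 < N) (e : ℕ) (he : (e : ℤ) * d = N * a) (τ : ℍ) :
    HasSum (fun m : ℕ => (if e ∣ m then Complex.exp (2 * Real.pi * Complex.I * b / d) ^ (m / e) *
        (qExpansion 1 f).coeff (m / e) else 0) • Function.Periodic.qParam (N : ℝ) (τ : ℂ) ^ m)
      (f (intGL !![a, b; 0, d] hdet • τ)) := by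
  have hper' : Function.Periodic (f ∘ ofComplex) ((1 : ℝ) : ℂ) := by
    rw [Complex.ofReal_one]; exact hper
  have hepos : 0 < e := by
    rcases Nat.eq_zero_or_pos e with h0 | h0
    · exfalso
      rw [h0] at he
      have : (0 : ℤ) < (N : ℤ) * a := mul_pos (by exact_mod_cast hN) ha
      rw [← he] at this
      simp at this
    · exact h0
  have h1 := hasSum_qExpansion (h := (1 : ℝ)) one_pos hper' hf hbd
    (intGL !![a, b; 0, d] hdet • τ)
  rw [qParam_intGL_upper_smul a b d hd hdet N hN e he τ] at h1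
  have hinj : Function.Injective (fun k : ℕ => e * k) :=
    fun x y hxy => Nat.eq_of_mul_eq_mul_left hepos hxy
  rw [← hinj.hasSum_iff]
  · refine h1.congr_fun fun k => ?_
    simp only [Function.comp_apply, dvd_mul_right, if_true, Nat.mul_div_cancel_left k hepos,
      smul_eq_mul]
    rw [mul_pow, ← pow_mul]
    ring
  · intro x hx
    have : ¬ e ∣ x := by
      rintro ⟨k, rfl⟩
      exact hx ⟨k, rfl⟩
    simp [this]

/-- Expansion of `f((aτ+b)/d)` in `q^{1/N}` from the `q`-expansion of `f`.  Here `a d > 0`,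
`d ∣ N * a`, `e := N * a / d`. -/
theorem qExpansion_comp_upper (f : ℍ → ℂ) (hf : MDiff f)
    (hper : Function.Periodic (f ∘ ofComplex) 1) (hbd : IsBoundedAtImInfty f)
    (a b d : ℤ) (ha : 0 < a) (hd : 0 < d)
    (hdet : 0 < (!![a, b; 0, d] : Matrix (Fin 2) (Fin 2) ℤ).det)
    (N : ℕ) (hN : 0 < N) (e : ℕ) (he : (e : ℤ) * d = N * a) (m : ℕ) :
    (qExpansion N (fun τ => f (intGL !![a, b; 0, d] hdet • τ))).coeff m =
      if e ∣ m then Complex.exp (2 * Real.pi * Complex.I * b / d) ^ (m / e) *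
        (qExpansion 1 f).coeff (m / e) else 0 := by
  obtain ⟨hg1, hg2, hg3⟩ := comp_upper_props f hf hper hbd a b d ha hd hdet N hN e he
  have hNR : (0 : ℝ) < (N : ℝ) := by exact_mod_cast hN
  rw [← Complex.ofReal_natCast] at hg2
  have han := analyticAt_cuspFunction_zero hNR hg2 hg1 hg3
  have hsum := hasSum_comp_upper f hf hper hbd a b d ha hd hdet N hN e he
  have key := qExpansion_coeff_unique_fun (h := (N : ℝ))
    (f := fun τ => f (intGL !![a, b; 0, d] hdet • τ))
    (c := fun m : ℕ => if e ∣ m then Complex.exp (2 * Real.pi * Complex.I * b / d) ^ (m / e) *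
        (qExpansion 1 f).coeff (m / e) else 0) hNR han hsum m
  exact key.symm

end Fermat.Agent.S24Lib
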