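import Mathlib
import Fermat.Prelude.Def_ModularCurve_JqCoeff
import Fermat.Agent.Lib.ES.QLaurent
import Fermat.Agent.Lib.S24.JExpansion
import Fermat.Agent.Lib.S24.JUpper
import Fermat.Agent.Lib.S24.JPolynomial

/-!
# Laurent `q`-expansions of `j` and of `j ∘ U` for upper triangular `U` (S24, items (c), (d))
-/

set_option autoImplicit false

namespace Fermat.Agent.S24Lib

open ModularForm Matrix MatrixGroups Filter Topology
open UpperHalfPlane hiding I
open scoped ModularForm Manifold
open Fermat.Agent.S22Lib (intGL)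
open Fermat.Agent.ES

local notation "Δ" => ModularForm.discriminant

/-- `E₄` is nice (holomorphic, `1`-periodic, bounded). -/
theorem isNice_E₄ : IsNice ((1 : ℕ) : ℝ) (ModularForm.E₄ : ℍ → ℂ) where
  mdiff := mdiff_E₄
  periodic z := by
    have hmem : (((1 : ℕ) : ℝ)) ∈ (𝒮ℒ).strictPeriods := by
      simp only [Subgroup.strictPeriods_SL2Z, AddSubgroup.mem_zmultiples_iff]
      exact ⟨1, by simp⟩
    exact SlashInvariantForm.vAdd_apply_of_mem_strictPeriods ModularForm.E₄ z hmem
  bdd := ModularFormClass.bdd_at_infty ModularForm.E₄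

theorem jFun_vadd_one (z : ℍ) : jFun (((1 : ℕ) : ℝ) +ᵥ z) = jFun z := by
  rw [jFun, jFun, isNice_E₄.periodic, discriminant_vadd_nat]

theorem isQLaurentable_jFun : IsQLaurentable 1 jFun where
  mdiff := mdiff_jFun
  periodic := jFun_vadd_one
  mero := by
    refine ⟨1, ?_⟩
    refine isBoundedAtImInfty_congr (isNice_E₄.pow 3).bdd (fun z => ?_)
    rw [pow_one, jFun_mul_discriminant]

/-- **(c)** the Laurent expansion of the analytic `j` is the formal `j`. -/
theorem qLaurent_jFun : qLaurent 1 jFun = ModularCurve.jqModC ℂ := by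
  have hΔ := isNice_discriminant 1
  have h1 : qLaurent 1 (fun z => jFun z * Δ z) = qLaurent 1 jFun * qLaurent 1 Δ :=
    qLaurent_mul isQLaurentable_jFun hΔ.isQLaurentable
  have hfun : (fun z => jFun z * Δ z) = fun z => ModularForm.E₄ z ^ 3 := by
    ext z
    exact jFun_mul_discriminant z
  rw [hfun, qLaurent_of_nice (isNice_E₄.pow 3), isNice_E₄.qExpansion_pow (by norm_num),
    qLaurent_of_nice hΔ] at h1
  have hc1 : (((1 : ℕ) : ℝ)) = 1 := Nat.cast_one
  rw [hc1, qExpansion_E₄, qExpansion_discriminant] at h1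
  -- the formal side
  have hD : HahnSeries.ofPowerSeries ℤ ℂ
      (PowerSeries.X * PowerSeries.map (Int.castRingHom ℂ) ModularCurve.dedekindEtaUnit) ≠ 0 := by
    rw [← qExpansion_discriminant]
    intro h0
    exact qExpansion_discriminant_ne_zero (HahnSeries.ofPowerSeries_injective (by rw [h0, map_zero]))
  have h2 : ModularCurve.jqModC ℂ * HahnSeries.ofPowerSeries ℤ ℂ
      (PowerSeries.X * PowerSeries.map (Int.castRingHom ℂ) ModularCurve.dedekindEtaUnit) =
      HahnSeries.ofPowerSeries ℤ ℂ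
        (PowerSeries.map (Int.castRingHom ℂ) ModularCurve.eisenstein4 ^ 3) := by
    have hunit : PowerSeries.map (Int.castRingHom ℂ) ModularCurve.dedekindEtaUnitInv *
        PowerSeries.map (Int.castRingHom ℂ) ModularCurve.dedekindEtaUnit = 1 := by
      rw [← map_mul, mul_comm, ModularCurve.dedekindEtaUnit_mul_inv, map_one]
    have e1 : HahnSeries.ofPowerSeries ℤ ℂ (PowerSeries.X *
        PowerSeries.map (Int.castRingHom ℂ) ModularCurve.dedekindEtaUnit) =
        HahnSeries.single (1 : ℤ) (1 : ℂ) * HahnSeries.ofPowerSeries ℤ ℂ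
          (PowerSeries.map (Int.castRingHom ℂ) ModularCurve.dedekindEtaUnit) := by
      rw [map_mul, HahnSeries.ofPowerSeries_X]
    have e2 : HahnSeries.ofPowerSeries ℤ ℂ (PowerSeries.map (Int.castRingHom ℂ)
        (ModularCurve.eisenstein4 ^ 3 * ModularCurve.dedekindEtaUnitInv)) =
        HahnSeries.ofPowerSeries ℤ ℂ (PowerSeries.map (Int.castRingHom ℂ)
            ModularCurve.eisenstein4 ^ 3) *
          HahnSeries.ofPowerSeries ℤ ℂ (PowerSeries.map (Int.castRingHom ℂ)
            ModularCurve.dedekindEtaUnitInv) := by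
      rw [map_mul, map_mul, map_pow]
    rw [ModularCurve.jqModC, ModularCurve.jNum, e1, e2]
    calc HahnSeries.single (-1 : ℤ) (1 : ℂ) *
          (HahnSeries.ofPowerSeries ℤ ℂ (PowerSeries.map (Int.castRingHom ℂ)
            ModularCurve.eisenstein4 ^ 3) *
          HahnSeries.ofPowerSeries ℤ ℂ (PowerSeries.map (Int.castRingHom ℂ)
            ModularCurve.dedekindEtaUnitInv)) *
          (HahnSeries.single (1 : ℤ) (1 : ℂ) *
            HahnSeries.ofPowerSeries ℤ ℂ (PowerSeries.map (Int.castRingHom ℂ)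
              ModularCurve.dedekindEtaUnit))
        = (HahnSeries.single (-1 : ℤ) (1 : ℂ) * HahnSeries.single (1 : ℤ) (1 : ℂ)) *
          HahnSeries.ofPowerSeries ℤ ℂ (PowerSeries.map (Int.castRingHom ℂ)
            ModularCurve.eisenstein4 ^ 3) *
          (HahnSeries.ofPowerSeries ℤ ℂ (PowerSeries.map (Int.castRingHom ℂ)
            ModularCurve.dedekindEtaUnitInv) *
            HahnSeries.ofPowerSeries ℤ ℂ (PowerSeries.map (Int.castRingHom ℂ)
              ModularCurve.dedekindEtaUnit)) := by ring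
      _ = _ := by
        have e3 : HahnSeries.ofPowerSeries ℤ ℂ (PowerSeries.map (Int.castRingHom ℂ)
            ModularCurve.dedekindEtaUnitInv) *
            HahnSeries.ofPowerSeries ℤ ℂ (PowerSeries.map (Int.castRingHom ℂ)
              ModularCurve.dedekindEtaUnit) = 1 := by
          rw [← map_mul, hunit, map_one]
        have e4 : HahnSeries.single (-1 : ℤ) (1 : ℂ) * HahnSeries.single (1 : ℤ) (1 : ℂ) = 1 := by
          rw [HahnSeries.single_mul_single]
          simp
        rw [e3, e4, one_mul, mul_one]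
  exact mul_right_cancel₀ hD (h1.symm.trans h2.symm)

/-- the coefficients of the formal `j` over `ℂ` are integers -/
theorem jqModC_coeff_mem (k₀ : Subfield ℂ) (n : ℤ) : (ModularCurve.jqModC ℂ).coeff n ∈ k₀ := by
  rw [ModularCurve.jqModC_eq_map_intCast, HahnSeries.map_coeff]
  exact intCast_mem k₀ _

theorem qLaurent_jFun_coeff_mem (k₀ : Subfield ℂ) (n : ℤ) : (qLaurent 1 jFun).coeff n ∈ k₀ := by
  rw [qLaurent_jFun]
  exact jqModC_coeff_mem k₀ n

/-- **(d)** `j ∘ U` for `U = (a b; 0 d)` has a Laurent expansion in `q_N` (`e d = N a`) obtained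
from that of `j` by `q ↦ ζ q_N^e`, `ζ = exp(2πi b/d)`. -/
theorem qLaurent_jFun_comp_upper (a b d : ℤ) (ha : 0 < a) (hd : 0 < d)
    (hdet : 0 < (!![a, b; 0, d] : Matrix (Fin 2) (Fin 2) ℤ).det)
    (N : ℕ) [NeZero N] (e : ℕ) (he : (e : ℤ) * d = N * a) :
    IsQLaurentable N (fun τ => jFun (intGL !![a, b; 0, d] hdet • τ)) ∧
    ∀ m : ℤ, (qLaurent N (fun τ => jFun (intGL !![a, b; 0, d] hdet • τ))).coeff m =
      if (e : ℤ) ∣ m then Complex.exp (2 * Real.pi * Complex.I * b / d) ^ (m / e) *
        (ModularCurve.jqModC ℂ).coeff (m / e) else 0 := by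
  have hN : 0 < N := Nat.pos_of_ne_zero (NeZero.ne N)
  have hepos : 0 < e := by
    have h1 : (0 : ℤ) < (e : ℤ) * d := by
      rw [he]
      have : (0 : ℤ) < N := by exact_mod_cast hN
      positivity
    have h2 : (0 : ℤ) < e := pos_of_mul_pos_left h1 hd.le
    exact_mod_cast h2
  have hmd : MDiff (fun τ => jFun (intGL !![a, b; 0, d] hdet • τ)) :=
    mdiff_comp_of_coe mdiff_jFun (fun τ => intGL !![a, b; 0, d] hdet • τ)
      (fun w => ((a : ℂ) * w + b) / d)
      ((((differentiable_const _).mul differentiable_id).add (differentiable_const _)).div_const _)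
      (fun z => Fermat.Agent.S22Lib.coe_intGL_upper_smul a b d hdet z)
  have hs : ∀ z : ℍ, qH ((1 : ℕ) : ℝ) (intGL !![a, b; 0, d] hdet • z) =
      Complex.exp (2 * Real.pi * Complex.I * b / d) * qH (N : ℝ) z ^ e := by
    intro z
    have := qParam_intGL_upper_smul a b d hd hdet N hN e he z
    simpa [qH] using this
  have := qLaurent_comp (h₁ := 1) (h₂ := N) isQLaurentable_jFun
    (fun τ => intGL !![a, b; 0, d] hdet • τ) hmd (Complex.exp_ne_zero _) hepos hs
  rw [qLaurent_jFun] at this
  exact this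

/-- all Laurent coefficients of `j ∘ U` lie in any subfield containing `exp(2πi b/d)` -/
theorem qLaurent_jFun_comp_upper_coeff_mem (k₀ : Subfield ℂ) (a b d : ℤ) (ha : 0 < a) (hd : 0 < d)
    (hdet : 0 < (!![a, b; 0, d] : Matrix (Fin 2) (Fin 2) ℤ).det)
    (N : ℕ) [NeZero N] (e : ℕ) (he : (e : ℤ) * d = N * a)
    (hζ : Complex.exp (2 * Real.pi * Complex.I * b / d) ∈ k₀) (m : ℤ) :
    (qLaurent N (fun τ => jFun (intGL !![a, b; 0, d] hdet • τ))).coeff m ∈ k₀ := by
  rw [(qLaurent_jFun_comp_upper a b d ha hd hdet N e he).2 m]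
  split_ifs
  · exact mul_mem (zpow_mem hζ _) (jqModC_coeff_mem k₀ _)
  · exact zero_mem k₀

end Fermat.Agent.S24Lib
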