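import Mathlib

/-!
# Order of vanishing on `ℍ` and the elliptic point `ρ` (S24, AN3 definitions)
-/

set_option autoImplicit false

namespace Fermat.Agent.S24Lib

open UpperHalfPlane ModularForm Matrix MatrixGroups Filter Topology
open scoped ModularForm Manifold

/-- order of vanishing of a function on `ℍ` at a point -/
noncomputable def ordAt (f : ℍ → ℂ) (τ : ℍ) : ℕ∞ := analyticOrderAt (f ∘ ofComplex) (τ : ℂ)

/-- the elliptic point of order 3 -/
noncomputable def ellRho : ℍ := ⟨⟨-1/2, Real.sqrt 3 / 2⟩, by
  show 0 < Real.sqrt 3 / 2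
  positivity⟩

end Fermat.Agent.S24Lib
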