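/-
S24 (project P1a), part MOD: the ring of holomorphic functions on the upper half plane and the
order-of-vanishing valuations.
-/
import Mathlib
import Fermat.Agent.Lib.S24.JOrdDef

set_option autoImplicit false
set_option linter.unusedSectionVars false

namespace Fermat.Agent.S24Lib

open UpperHalfPlane Filter Topology WithZero
open scoped Manifold MatrixGroups

/-- the ring of holomorphic functions on `ℍ` -/
def holH : Subring (ℍ → ℂ) where
  carrier := {f | MDiff f}
  mul_mem' := fun {f g} hf hg => by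
    have hf' : MDiff f := hf
    have hg' : MDiff g := hg
    exact hf'.mul hg'
  one_mem' := mdifferentiable_const
  add_mem' := fun {f g} hf hg => by
    have hf' : MDiff f := hf
    have hg' : MDiff g := hg
    exact hf'.add hg'
  zero_mem' := mdifferentiable_const
  neg_mem' := fun {f} hf => by
    have hf' : MDiff f := hf
    exact hf'.neg

theorem mem_holH {f : ℍ → ℂ} : f ∈ holH ↔ MDiff f := Iff.rfl

theorem analyticAt_comp_ofComplex_of_mdiff {f : ℍ → ℂ} (hf : MDiff f) (τ : ℍ) :
    AnalyticAt ℂ (f ∘ ofComplex) (τ : ℂ) :=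
  DifferentiableOn.analyticAt (UpperHalfPlane.mdifferentiable_iff.mp hf)
    (isOpen_upperHalfPlaneSet.mem_nhds τ.im_pos)

theorem ordAt_eq_top_iff {f : ℍ → ℂ} (hf : MDiff f) (τ : ℍ) : ordAt f τ = ⊤ ↔ f = 0 := by
  constructor
  · intro h
    rw [ordAt, analyticOrderAt_eq_top] at h
    have han := (UpperHalfPlane.mdifferentiable_iff.mp hf).analyticOnNhd isOpen_upperHalfPlaneSet
    have hpre : IsPreconnected {z : ℂ | 0 < z.im} :=
      (Complex.isConnected_of_upperHalfPlane subset_rfl (by grind)).isPreconnected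
    have := han.eqOn_zero_of_preconnected_of_eventuallyEq_zero hpre τ.im_pos h
    ext w
    have h2 := this w.im_pos
    simpa [Function.comp_apply, ofComplex_apply] using h2
  · rintro rfl
    rw [ordAt, analyticOrderAt_eq_top]
    exact Eventually.of_forall fun z => rfl

theorem ordAt_mul {f g : ℍ → ℂ} (hf : MDiff f) (hg : MDiff g) (τ : ℍ) :
    ordAt (f * g) τ = ordAt f τ + ordAt g τ :=
  analyticOrderAt_mul (analyticAt_comp_ofComplex_of_mdiff hf τ) (analyticAt_comp_ofComplex_of_mdiff hg τ)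

theorem le_ordAt_add (f g : ℍ → ℂ) (τ : ℍ) :
    min (ordAt f τ) (ordAt g τ) ≤ ordAt (f + g) τ :=
  le_analyticOrderAt_add

theorem ordAt_const {c : ℂ} (hc : c ≠ 0) (τ : ℍ) : ordAt (fun _ => c) τ = 0 := by
  rw [ordAt, analyticOrderAt_eq_zero]
  right
  simpa using hc

theorem ordAt_eq_zero_iff {f : ℍ → ℂ} (hf : MDiff f) (τ : ℍ) : ordAt f τ = 0 ↔ f τ ≠ 0 := by
  rw [ordAt, analyticOrderAt_eq_zero]
  constructor
  · rintro (h | h)
    · exact absurd (analyticAt_comp_ofComplex_of_mdiff hf τ) h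
    · simpa [Function.comp_apply, ofComplex_apply] using h
  · intro h
    right
    simpa [Function.comp_apply, ofComplex_apply] using h

/-- the order of vanishing is compatible with the action of `SL(2, ℤ)` -/
theorem ordAt_comp_smul (f : ℍ → ℂ) (γ : SL(2, ℤ)) (τ : ℍ) :
    ordAt (fun z => f (γ • z)) τ = ordAt f (γ • τ) := by
  have hg : 0 < ((γ : GL (Fin 2) ℝ)).val.det := by
    have h1 : ((γ : GL (Fin 2) ℝ)).val.det = 1 := by
      have := Matrix.SpecialLinearGroup.det_coe (Matrix.SpecialLinearGroup.map (Int.castRingHom ℝ) γ)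
      simpa using this
    rw [h1]; exact one_pos
  let G : ℂ → ℂ := fun z => ↑((γ : GL (Fin 2) ℝ) • ofComplex z)
  have h1 : (fun z => f (γ • z)) ∘ ofComplex =ᶠ[𝓝 (τ : ℂ)] (f ∘ ofComplex) ∘ G := by
    refine Eventually.of_forall fun z => ?_
    simp only [Function.comp_apply, G]
    congr 1
    rw [ofComplex_apply]
    rfl
  rw [ordAt, analyticOrderAt_congr h1,
    analyticOrderAt_comp_of_deriv_ne_zero (τ.analyticAt_smul hg) (τ.deriv_smul_ne_zero hg)]
  simp only [ofComplex_apply]
  rfl

/-! ### The valuation on `holH` attached to a point -/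

theorem holH_coe_eq_zero_iff (f : holH) : (f : ℍ → ℂ) = 0 ↔ f = 0 := by
  constructor
  · intro h; exact Subtype.ext h
  · rintro rfl; rfl

theorem ordAt_ne_top {f : holH} (hf : f ≠ 0) (τ : ℍ) : ordAt (f : ℍ → ℂ) τ ≠ ⊤ := by
  intro h
  exact hf ((holH_coe_eq_zero_iff f).mp ((ordAt_eq_top_iff f.2 τ).mp h))

instance : IsDomain holH := by
  have : NoZeroDivisors holH := ⟨by
    intro f g hfg
    have h : (f : ℍ → ℂ) * (g : ℍ → ℂ) = 0 := congrArg Subtype.val hfg
    rcases (UpperHalfPlane.mul_eq_zero_iff f.2 g.2).mp h with h | h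
    · exact Or.inl ((holH_coe_eq_zero_iff f).mp h)
    · exact Or.inr ((holH_coe_eq_zero_iff g).mp h)⟩
  exact NoZeroDivisors.to_isDomain _

open Classical in
/-- the order of vanishing at `τ` as a valuation on `holH` -/
noncomputable def ordValuation (τ : ℍ) : Valuation holH ℤᵐ⁰ where
  toFun f := if f = 0 then 0 else exp (-((ordAt (f : ℍ → ℂ) τ).toNat : ℤ))
  map_zero' := if_pos rfl
  map_one' := by
    rw [if_neg one_ne_zero]
    have : ordAt ((1 : holH) : ℍ → ℂ) τ = 0 := ordAt_const one_ne_zero τ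
    rw [this]
    simp
  map_mul' f g := by
    by_cases hf : f = 0
    · simp [hf]
    by_cases hg : g = 0
    · simp [hg]
    rw [if_neg hf, if_neg hg, if_neg (mul_ne_zero hf hg), ← exp_add]
    congr 1
    have h1 : ordAt ((f * g : holH) : ℍ → ℂ) τ = ordAt (f : ℍ → ℂ) τ + ordAt (g : ℍ → ℂ) τ :=
      ordAt_mul f.2 g.2 τ
    rw [h1, ENat.toNat_add (ordAt_ne_top hf τ) (ordAt_ne_top hg τ)]
    push_cast
    ring
  map_add_le_max' f g := by
    by_cases hf : f = 0
    · simp [hf]
    by_cases hg : g = 0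
    · simp [hg]
    by_cases hfg : f + g = 0
    · rw [if_pos hfg]; exact zero_le
    rw [if_neg hf, if_neg hg, if_neg hfg, le_max_iff, exp_le_exp, exp_le_exp]
    have h1 : min (ordAt (f : ℍ → ℂ) τ) (ordAt (g : ℍ → ℂ) τ) ≤ ordAt ((f + g : holH) : ℍ → ℂ) τ :=
      le_ordAt_add _ _ τ
    have hf' := ordAt_ne_top hf τ
    have hg' := ordAt_ne_top hg τ
    have hfg' := ordAt_ne_top hfg τ
    obtain ⟨a, ha⟩ := ENat.ne_top_iff_exists.mp hf'
    obtain ⟨b, hb⟩ := ENat.ne_top_iff_exists.mp hg'
    obtain ⟨c, hc⟩ := ENat.ne_top_iff_exists.mp hfg'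
    rw [← ha, ← hb, ← hc] at h1 ⊢
    simp only [ENat.toNat_natCast]
    have h2 : min a b ≤ c := by
      rcases min_le_iff.mp h1 with h | h
      · exact min_le_iff.mpr (Or.inl (by exact_mod_cast h))
      · exact min_le_iff.mpr (Or.inr (by exact_mod_cast h))
    rcases min_le_iff.mp h2 with h | h
    · left; omega
    · right; omega

theorem ordValuation_apply {τ : ℍ} {f : holH} (hf : f ≠ 0) :
    ordValuation τ f = exp (-((ordAt (f : ℍ → ℂ) τ).toNat : ℤ)) := by
  classical
  show (if f = 0 then 0 else exp (-((ordAt (f : ℍ → ℂ) τ).toNat : ℤ))) = _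
  rw [if_neg hf]

theorem ordValuation_eq_zero_iff {τ : ℍ} {f : holH} : ordValuation τ f = 0 ↔ f = 0 := by
  constructor
  · intro h
    by_contra hf
    rw [ordValuation_apply hf] at h
    exact exp_ne_zero h
  · rintro rfl
    exact map_zero _

end Fermat.Agent.S24Lib
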