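/-
S24 (project P1a), part MOD: the ring generated by the functions `τ ↦ j(d · γτ)`, its
`SL(2, ℤ)`-action and its `q`-expansions.
-/
import Mathlib
import Fermat.Agent.Lib.S22.Hermite
import Fermat.Agent.Lib.S22.UpperTriangular
import Fermat.Agent.Lib.ES.QLaurent
import Fermat.Agent.Lib.S24.JFun
import Fermat.Agent.Lib.S24.JLaurent
import Fermat.Agent.Lib.S24.JPolynomial
import Fermat.Agent.Lib.S24.OrdAt

set_option autoImplicit false
set_option linter.unusedSectionVars false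
set_option linter.style.haveILetI false

namespace Fermat.Agent.S24Lib

open UpperHalfPlane Filter Topology Matrix MatrixGroups
open scoped Manifold
open Fermat.Agent.S22Lib (intGL)
open Fermat.Agent.ES (IsQLaurentable qLaurent)

local notation "Kbar" => AlgebraicClosure ℚ

/-! ### The embedding `ℚ̄ → ℂ` -/

/-- a fixed embedding of `ℚ̄` into `ℂ` -/
noncomputable def iotaC : Kbar →+* ℂ :=
  haveI : Algebra.IsAlgebraic ℚ Kbar := AlgebraicClosure.isAlgebraic ℚ
  ((IsAlgClosed.lift : Kbar →ₐ[ℚ] ℂ) : Kbar →+* ℂ)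

theorem iotaC_algebraMap (c : ℚ) : iotaC (algebraMap ℚ Kbar c) = algebraMap ℚ ℂ c := by
  rw [eq_ratCast, eq_ratCast, map_ratCast]

/-- the image of `ℚ̄` in `ℂ` -/
noncomputable def kZero : Subfield ℂ := iotaC.fieldRange

theorem mem_kZero_iff {z : ℂ} : z ∈ kZero ↔ ∃ a : Kbar, iotaC a = z := Iff.rfl

/-- every complex number which is algebraic over `ℚ` lies in the image of `ℚ̄` -/
theorem mem_kZero_of_isAlgebraic {z : ℂ} (hz : IsAlgebraic ℚ z) : z ∈ kZero := by
  classical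
  have hint : IsIntegral ℚ z := hz.isIntegral
  set p := minpoly ℚ z with hp
  have hp0 : p ≠ 0 := minpoly.ne_zero hint
  set P := p.map (algebraMap ℚ Kbar) with hP
  have hP0 : P ≠ 0 := (Polynomial.map_ne_zero_iff (algebraMap ℚ Kbar).injective).mpr hp0
  have hsplit := (IsAlgClosed.splits P).eq_prod_roots
  have heval : (P.map iotaC).eval z = 0 := by
    rw [hP, Polynomial.map_map]
    have hcomp : iotaC.comp (algebraMap ℚ Kbar) = algebraMap ℚ ℂ := by
      ext c; exact iotaC_algebraMap c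
    rw [hcomp, Polynomial.eval_map, ← Polynomial.aeval_def]
    exact minpoly.aeval ℚ z
  rw [hsplit, Polynomial.map_mul, Polynomial.map_C, Polynomial.map_multiset_prod,
    Polynomial.eval_mul, Polynomial.eval_C, Polynomial.eval_multiset_prod] at heval
  rcases mul_eq_zero.mp heval with h | h
  · exfalso
    have : P.leadingCoeff = 0 := by
      have := iotaC.injective (h.trans (map_zero iotaC).symm)
      exact this
    exact hP0 (Polynomial.leadingCoeff_eq_zero.mp this)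
  · rw [Multiset.prod_eq_zero_iff] at h
    simp only [Multiset.map_map, Multiset.mem_map, Function.comp_apply] at h
    obtain ⟨a, -, ha⟩ := h
    rw [Polynomial.map_sub, Polynomial.map_X, Polynomial.map_C, Polynomial.eval_sub,
      Polynomial.eval_X, Polynomial.eval_C, sub_eq_zero] at ha
    exact ⟨a, ha.symm⟩

theorem exp_two_pi_mul_div_mem_kZero (b d : ℤ) (hd : 0 < d) :
    Complex.exp (2 * Real.pi * Complex.I * b / d) ∈ kZero := by
  apply mem_kZero_of_isAlgebraic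
  have hd' : (d.toNat : ℤ) = d := Int.toNat_of_nonneg hd.le
  have hdpos : 0 < d.toNat := by omega
  refine ⟨Polynomial.X ^ d.toNat - 1, ?_, ?_⟩
  · exact Polynomial.X_pow_sub_C_ne_zero hdpos 1
  · have hdc : (d : ℂ) ≠ 0 := by exact_mod_cast hd.ne'
    have hcast : ((d.toNat : ℕ) : ℂ) = (d : ℂ) := by exact_mod_cast congrArg (Int.cast : ℤ → ℂ) hd'
    simp only [map_sub, map_pow, Polynomial.aeval_X, map_one]
    rw [← Complex.exp_nat_mul, hcast]
    have : (d : ℂ) * (2 * Real.pi * Complex.I * b / d) = b * (2 * Real.pi * Complex.I) := by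
      field_simp
    rw [this, Complex.exp_int_mul_two_pi_mul_I, sub_self]

/-! ### The functions `τ ↦ j(Aτ)` -/

/-- `τ ↦ j(A τ)` for an integer matrix of positive determinant -/
noncomputable def jMat (A : Matrix (Fin 2) (Fin 2) ℤ) (hA : 0 < A.det) : ℍ → ℂ :=
  fun τ => jFun (intGL A hA • τ)

theorem jMat_apply (A : Matrix (Fin 2) (Fin 2) ℤ) (hA : 0 < A.det) (τ : ℍ) :
    jMat A hA τ = jFun (intGL A hA • τ) := rfl

theorem jMat_congr {A B : Matrix (Fin 2) (Fin 2) ℤ} (h : A = B) (hA : 0 < A.det)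
    (hB : 0 < B.det) : jMat A hA = jMat B hB := by
  subst h; rfl

theorem mdiff_jMat (A : Matrix (Fin 2) (Fin 2) ℤ) (hA : 0 < A.det) : MDiff (jMat A hA) :=
  mdiff_jFun.comp (mdifferentiable_smul (Fermat.Agent.S22Lib.intGL_det_pos A hA))

theorem det_SL_pos (γ : SL(2, ℤ)) : 0 < (γ : Matrix (Fin 2) (Fin 2) ℤ).det := by
  rw [γ.det_coe]; exact one_pos

theorem intGL_SL_smul (γ : SL(2, ℤ)) (τ : ℍ) :
    intGL (γ : Matrix (Fin 2) (Fin 2) ℤ) (det_SL_pos γ) • τ = γ • τ := by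
  rw [Fermat.Agent.S22Lib.intGL_coe_SL]
  rfl

theorem det_SL_mul_pos (γ : SL(2, ℤ)) {A : Matrix (Fin 2) (Fin 2) ℤ} (hA : 0 < A.det) :
    0 < ((γ : Matrix (Fin 2) (Fin 2) ℤ) * A).det := by
  rw [Matrix.det_mul, γ.det_coe, one_mul]; exact hA

theorem det_mul_SL_pos {A : Matrix (Fin 2) (Fin 2) ℤ} (hA : 0 < A.det) (γ : SL(2, ℤ)) :
    0 < (A * (γ : Matrix (Fin 2) (Fin 2) ℤ)).det := by
  rw [Matrix.det_mul, γ.det_coe, mul_one]; exact hA

theorem jMat_SL_mul (γ : SL(2, ℤ)) (A : Matrix (Fin 2) (Fin 2) ℤ) (hA : 0 < A.det) :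
    jMat ((γ : Matrix (Fin 2) (Fin 2) ℤ) * A) (det_SL_mul_pos γ hA) = jMat A hA := by
  funext τ
  rw [jMat_apply, jMat_apply,
    Fermat.Agent.S22Lib.intGL_mul _ _ (det_SL_pos γ) hA, mul_smul, intGL_SL_smul, jFun_smul]

theorem jMat_mul_SL (A : Matrix (Fin 2) (Fin 2) ℤ) (hA : 0 < A.det) (γ : SL(2, ℤ)) (τ : ℍ) :
    jMat (A * (γ : Matrix (Fin 2) (Fin 2) ℤ)) (det_mul_SL_pos hA γ) τ = jMat A hA (γ • τ) := by
  rw [jMat_apply, jMat_apply,
    Fermat.Agent.S22Lib.intGL_mul _ _ hA (det_SL_pos γ), mul_smul, intGL_SL_smul]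

/-- Hermite normal form: every `jMat A` is `jMat` of an upper triangular matrix. -/
theorem jMat_eq_upper (A : Matrix (Fin 2) (Fin 2) ℤ) (hA : 0 < A.det) :
    ∃ (a b d : ℤ) (_ : 0 < a) (_ : 0 < d)
      (hU : 0 < (!![a, b; 0, d] : Matrix (Fin 2) (Fin 2) ℤ).det),
      A.det = a * d ∧ jMat A hA = jMat !![a, b; 0, d] hU := by
  obtain ⟨g, a, b, d, ha, hd, hAeq⟩ := Fermat.Agent.S22Lib.exists_SL2Z_mul_eq_upper A hA
  have hU : 0 < (!![a, b; 0, d] : Matrix (Fin 2) (Fin 2) ℤ).det := by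
    rw [Fermat.Agent.S22Lib.upper_det]; exact mul_pos ha hd
  refine ⟨a, b, d, ha, hd, hU, ?_, ?_⟩
  · rw [hAeq, Matrix.det_mul, g.det_coe, one_mul, Fermat.Agent.S22Lib.upper_det]
  · rw [jMat_congr hAeq hA (det_SL_mul_pos g hU), jMat_SL_mul]

/-- `jMat A` has a Laurent expansion in `q_N` with coefficients in `ℚ̄`, when `det A ∣ N`. -/
theorem isQLaurentable_jMat (N : ℕ) [NeZero N] (A : Matrix (Fin 2) (Fin 2) ℤ) (hA : 0 < A.det)
    (hdvd : A.det ∣ (N : ℤ)) :
    IsQLaurentable N (jMat A hA) ∧ ∀ m : ℤ, (qLaurent N (jMat A hA)).coeff m ∈ kZero := by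
  obtain ⟨a, b, d, ha, hd, hU, hdet, heq⟩ := jMat_eq_upper A hA
  have hdN : d ∣ (N : ℤ) := Dvd.dvd.trans ⟨a, by rw [hdet]; ring⟩ hdvd
  obtain ⟨k, hk⟩ := hdN
  have hkpos : 0 < k := by
    have hN : (0 : ℤ) < N := by exact_mod_cast Nat.pos_of_ne_zero (NeZero.ne N)
    rw [hk] at hN
    exact (pos_iff_pos_of_mul_pos hN).mp hd
  have he : (((k * a).toNat : ℕ) : ℤ) * d = N * a := by
    rw [Int.toNat_of_nonneg (mul_pos hkpos ha).le, hk]; ring
  rw [heq]
  exact ⟨(qLaurent_jFun_comp_upper a b d ha hd hU N _ he).1,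
    qLaurent_jFun_comp_upper_coeff_mem kZero a b d ha hd hU N _ he
      (exp_two_pi_mul_div_mem_kZero b d hd)⟩

/-! ### Laurent series with coefficients in a subfield -/

/-- Laurent series all of whose coefficients lie in a subfield -/
def ratLS (k₀ : Subfield ℂ) : Subring (LaurentSeries ℂ) where
  carrier := {x | ∀ m : ℤ, x.coeff m ∈ k₀}
  mul_mem' := fun {x y} hx hy m => by
    rw [HahnSeries.coeff_mul]
    exact Subfield.sum_mem _ fun ij _ => mul_mem (hx _) (hy _)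
  one_mem' := fun m => by
    rw [HahnSeries.coeff_one]
    split_ifs
    · exact one_mem _
    · exact zero_mem _
  add_mem' := fun {x y} hx hy m => by
    rw [HahnSeries.coeff_add]
    exact add_mem (hx m) (hy m)
  zero_mem' := fun m => by
    rw [HahnSeries.coeff_zero]
    exact zero_mem _
  neg_mem' := fun {x} hx m => by
    rw [HahnSeries.coeff_neg]
    exact neg_mem (hx m)

theorem mem_ratLS {k₀ : Subfield ℂ} {x : LaurentSeries ℂ} :
    x ∈ ratLS k₀ ↔ ∀ m : ℤ, x.coeff m ∈ k₀ := Iff.rfl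

theorem C_mem_ratLS {k₀ : Subfield ℂ} {c : ℂ} (hc : c ∈ k₀) : HahnSeries.C c ∈ ratLS k₀ := by
  intro m
  rw [HahnSeries.C_apply, HahnSeries.coeff_single]
  split_ifs
  · exact hc
  · exact zero_mem _

/-! ### The algebra structure and the action of `SL(2, ℤ)` -/

/-- `ℂ` as a `ℚ̄`-algebra via `iotaC` -/
noncomputable scoped instance instAlgebraKbarComplex : Algebra Kbar ℂ := iotaC.toAlgebra

theorem algebraMap_Kbar_complex (c : Kbar) : algebraMap Kbar ℂ c = iotaC c := rfl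

theorem algebraMap_Kbar_fun (c : Kbar) (τ : ℍ) : algebraMap Kbar (ℍ → ℂ) c τ = iotaC c := rfl

/-- the left action of `SL(2, ℤ)` on functions on `ℍ`: `(γ • f)(τ) = f(γ⁻¹ τ)` -/
noncomputable def slAct : SL(2, ℤ) →* ((ℍ → ℂ) ≃ₐ[Kbar] (ℍ → ℂ)) where
  toFun γ :=
    { toFun := fun f τ => f (γ⁻¹ • τ)
      invFun := fun f τ => f (γ • τ)
      left_inv := fun f => by funext τ; simp only [inv_smul_smul]
      right_inv := fun f => by funext τ; simp only [smul_inv_smul]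
      map_mul' := fun f g => rfl
      map_add' := fun f g => rfl
      commutes' := fun c => rfl }
  map_one' := by
    ext f τ
    show f ((1 : SL(2, ℤ))⁻¹ • τ) = f τ
    rw [inv_one, one_smul]
  map_mul' γ δ := by
    ext f τ
    show f ((γ * δ)⁻¹ • τ) = f (δ⁻¹ • (γ⁻¹ • τ))
    rw [_root_.mul_inv_rev, mul_smul]

theorem slAct_apply (γ : SL(2, ℤ)) (f : ℍ → ℂ) (τ : ℍ) : slAct γ f τ = f (γ⁻¹ • τ) := rfl

theorem slAct_jMat (γ : SL(2, ℤ)) (A : Matrix (Fin 2) (Fin 2) ℤ) (hA : 0 < A.det) :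
    slAct γ (jMat A hA)
      = jMat (A * ((γ⁻¹ : SL(2, ℤ)) : Matrix (Fin 2) (Fin 2) ℤ)) (det_mul_SL_pos hA γ⁻¹) := by
  funext τ
  rw [slAct_apply, jMat_mul_SL]

/-! ### The generators and the ring -/

/-- the matrix `diag(d, 1)` -/
def diagMat (d : ℕ) : Matrix (Fin 2) (Fin 2) ℤ := !![(d : ℤ), 0; 0, 1]

theorem diagMat_det (d : ℕ) : (diagMat d).det = d := by
  rw [diagMat, Fermat.Agent.S22Lib.upper_det, mul_one]

theorem det_diagMat_mul_pos (d : ℕ+) (γ : SL(2, ℤ)) :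
    0 < (diagMat d * (γ : Matrix (Fin 2) (Fin 2) ℤ)).det := by
  rw [Matrix.det_mul, γ.det_coe, mul_one, diagMat_det]
  exact_mod_cast d.pos

theorem det_diagMat_mul (d : ℕ+) (γ : SL(2, ℤ)) :
    (diagMat d * (γ : Matrix (Fin 2) (Fin 2) ℤ)).det = (d : ℕ) := by
  rw [Matrix.det_mul, γ.det_coe, mul_one, diagMat_det]

/-- the generators `τ ↦ j(d · γ τ)` -/
noncomputable def jGen (d : ℕ+) (γ : SL(2, ℤ)) : ℍ → ℂ :=
  jMat (diagMat d * (γ : Matrix (Fin 2) (Fin 2) ℤ)) (det_diagMat_mul_pos d γ)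

theorem slAct_jGen (δ : SL(2, ℤ)) (d : ℕ+) (γ : SL(2, ℤ)) :
    slAct δ (jGen d γ) = jGen d (γ * δ⁻¹) := by
  rw [jGen, slAct_jMat]
  refine jMat_congr ?_ _ _
  rw [Matrix.SpecialLinearGroup.coe_mul, Matrix.mul_assoc]

theorem jGen_one_one : jGen 1 1 = jFun := by
  funext τ
  rw [jGen, jMat_apply]
  congr 1
  have h : diagMat ((1 : ℕ+) : ℕ) * ((1 : SL(2, ℤ)) : Matrix (Fin 2) (Fin 2) ℤ)
      = ((1 : SL(2, ℤ)) : Matrix (Fin 2) (Fin 2) ℤ) := by
    rw [Matrix.SpecialLinearGroup.coe_one, mul_one]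
    ext i j
    fin_cases i <;> fin_cases j <;> simp [diagMat]
  have h2 : intGL (diagMat ((1 : ℕ+) : ℕ) * ((1 : SL(2, ℤ)) : Matrix (Fin 2) (Fin 2) ℤ))
      (det_diagMat_mul_pos 1 1) = intGL ((1 : SL(2, ℤ)) : Matrix (Fin 2) (Fin 2) ℤ)
        (det_SL_pos 1) := by
    apply Units.ext
    rw [Fermat.Agent.S22Lib.intGL_val, Fermat.Agent.S22Lib.intGL_val, h]
  rw [h2, intGL_SL_smul, one_smul]

variable (N : ℕ) [NeZero N]

/-- the set of generators of level `N` -/
def gens : Set (ℍ → ℂ) := {f | ∃ d : ℕ+, (d : ℕ) ∣ N ∧ ∃ γ : SL(2, ℤ), f = jGen d γ}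

/-- the `ℚ̄`-algebra generated by the functions `τ ↦ j(d γ τ)`, `d ∣ N` -/
noncomputable def modRing : Subalgebra Kbar (ℍ → ℂ) := Algebra.adjoin Kbar (gens N)

theorem jGen_mem_modRing {d : ℕ+} (hd : (d : ℕ) ∣ N) (γ : SL(2, ℤ)) : jGen d γ ∈ modRing N :=
  Algebra.subset_adjoin ⟨d, hd, γ, rfl⟩

theorem jFun_mem_modRing : jFun ∈ modRing N := by
  rw [← jGen_one_one]
  exact jGen_mem_modRing N (d := 1) (by simp) 1

/-- the basic properties of the elements of `modRing N` -/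
theorem modRing_props {f : ℍ → ℂ} (hf : f ∈ modRing N) :
    IsQLaurentable N f ∧ qLaurent N f ∈ ratLS kZero := by
  induction hf using Algebra.adjoin_induction with
  | mem f hf =>
    obtain ⟨d, hd, γ, rfl⟩ := hf
    have := isQLaurentable_jMat N _ (det_diagMat_mul_pos d γ)
      (by rw [det_diagMat_mul]; exact_mod_cast hd)
    exact ⟨this.1, this.2⟩
  | algebraMap c =>
    refine ⟨IsQLaurentable.const N (iotaC c), ?_⟩
    have : (algebraMap Kbar (ℍ → ℂ) c) = fun _ => iotaC c := rfl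
    rw [this, Fermat.Agent.ES.qLaurent_const]
    exact C_mem_ratLS ⟨c, rfl⟩
  | add f g _ _ hf hg =>
    refine ⟨hf.1.add hg.1, ?_⟩
    have : qLaurent N (f + g) = qLaurent N f + qLaurent N g :=
      Fermat.Agent.ES.qLaurent_add hf.1 hg.1
    rw [this]
    exact add_mem hf.2 hg.2
  | mul f g _ _ hf hg =>
    refine ⟨hf.1.mul hg.1, ?_⟩
    have : qLaurent N (f * g) = qLaurent N f * qLaurent N g :=
      Fermat.Agent.ES.qLaurent_mul hf.1 hg.1
    rw [this]
    exact mul_mem hf.2 hg.2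

theorem mdiff_of_mem_modRing {f : ℍ → ℂ} (hf : f ∈ modRing N) : MDiff f :=
  (modRing_props N hf).1.mdiff

theorem slAct_mem_modRing (γ : SL(2, ℤ)) {f : ℍ → ℂ} (hf : f ∈ modRing N) :
    slAct γ f ∈ modRing N := by
  induction hf using Algebra.adjoin_induction with
  | mem f hf =>
    obtain ⟨d, hd, δ, rfl⟩ := hf
    rw [slAct_jGen]
    exact jGen_mem_modRing N hd _
  | algebraMap c =>
    rw [AlgEquiv.commutes]
    exact Subalgebra.algebraMap_mem _ c
  | add f g _ _ hf hg => rw [map_add]; exact add_mem hf hg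
  | mul f g _ _ hf hg => rw [map_mul]; exact mul_mem hf hg

/-! ### Invariant elements are polynomials in `j` -/

local notation "Δ" => ModularForm.discriminant

open Fermat.Agent.ES in
/-- **Invariant elements of `modRing N` are polynomials in `j` with coefficients in `ℚ̄`.** -/
theorem modRing_invariant {f : ℍ → ℂ} (hf : f ∈ modRing N)
    (hinv : ∀ (γ : SL(2, ℤ)) (τ : ℍ), f (γ • τ) = f τ) :
    ∃ P : Polynomial Kbar, ∀ τ, f τ = (P.map iotaC).eval (jFun τ) := by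
  obtain ⟨hq, hrat⟩ := modRing_props N hf
  -- `f` is `1`-periodic
  have hper : ∀ z : ℍ, f (((1 : ℕ) : ℝ) +ᵥ z) = f z := by
    intro z
    rw [Nat.cast_one, ← UpperHalfPlane.modular_T_smul, hinv]
  have hq1 : IsQLaurentable 1 f := ⟨hq.mdiff, hper, hq.mero⟩
  obtain ⟨m, hm⟩ := hq.mero
  -- rationality of the `q`-expansion
  have hcp := (qLaurent_change_period N hq1).2
  have hrat1 : qLaurent 1 f ∈ ratLS kZero := by
    intro n
    have := hrat ((N : ℤ) * n)
    rwa [hcp, ModularCurve.qExpand_coeff_mul] at this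
  have hΔnice : IsNice ((1 : ℕ) : ℝ) (Δ : ℍ → ℂ) := isNice_discriminant 1
  have hΔrat : qLaurent 1 (Δ : ℍ → ℂ) ∈ ratLS kZero := by
    rw [qLaurent_of_nice hΔnice]
    intro n
    rcases lt_or_ge n 0 with hn | hn
    · rw [ModularCurve.ofPowerSeries_coeff_of_neg _ hn]
      exact zero_mem _
    · lift n to ℕ using hn
      rw [HahnSeries.ofPowerSeries_apply_coeff]
      have := ratPS_discriminant kZero n
      simpa using this
  have hFq : IsQLaurentable 1 (fun τ => f τ * Δ τ ^ m) :=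
    hq1.mul (hΔnice.isQLaurentable.pow m)
  have hFnice : IsNice ((1 : ℕ) : ℝ) (fun τ => f τ * Δ τ ^ m) :=
    ⟨hFq.mdiff, hFq.periodic, hm⟩
  have hFrat : qLaurent 1 (fun τ => f τ * Δ τ ^ m) ∈ ratLS kZero := by
    have h1 : qLaurent 1 (fun τ => f τ * Δ τ ^ m)
        = qLaurent 1 f * qLaurent 1 (fun τ => Δ τ ^ m) :=
      qLaurent_mul hq1 (hΔnice.isQLaurentable.pow m)
    have h2 : qLaurent 1 (fun τ => Δ τ ^ m) = qLaurent 1 (Δ : ℍ → ℂ) ^ m :=
      qLaurent_pow hΔnice.isQLaurentable m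
    rw [h1, h2]
    exact mul_mem hrat1 (pow_mem hΔrat m)
  have hk : ∀ n, (qExpansion 1 (fun τ => f τ * Δ τ ^ m)).coeff n ∈ kZero := by
    intro n
    have := hFrat (n : ℤ)
    rw [qLaurent_of_nice hFnice, HahnSeries.ofPowerSeries_apply_coeff] at this
    simpa using this
  obtain ⟨P, -, hPk, hPf⟩ := exists_polynomial_jFun f hq.mdiff hinv m hm kZero hk
  have hlift : P ∈ Polynomial.lifts iotaC := by
    rw [Polynomial.lifts_iff_coeff_lifts]
    intro n
    exact hPk n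
  obtain ⟨P', hP'⟩ := (Polynomial.mem_lifts P).mp hlift
  exact ⟨P', fun τ => by rw [hP']; exact hPf τ⟩

end Fermat.Agent.S24Lib
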