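/-
S24 (project P1a), part MOD: the field generated by the functions `τ ↦ j(d · γτ)` and the
action of `SL(2, ℤ)` on it.
-/
import Mathlib
import Fermat.Agent.Lib.S24.ModRing
import Fermat.Agent.Lib.S24.GaloisSetup

set_option autoImplicit false
set_option linter.unusedSectionVars false
set_option linter.style.haveILetI false

namespace Fermat.Agent.S24Lib

open UpperHalfPlane Filter Topology Matrix MatrixGroups CongruenceSubgroup
open scoped Manifold
open Fermat.Agent.S22Lib (intGL)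
open Fermat.Agent.ES (IsQLaurentable qLaurent)

local notation "Kbar" => AlgebraicClosure ℚ

/-! ### `Γ₀(d)`-invariance of `j(dτ)` -/

/-- for `γ ∈ Γ₀(d)`: `diag(d,1) γ = γ' diag(d,1)` with `γ' ∈ SL(2, ℤ)` -/
theorem exists_SL_diagMat_mul (d : ℕ+) {γ : SL(2, ℤ)} (hγ : γ ∈ Gamma0 d) :
    ∃ γ' : SL(2, ℤ), diagMat d * (γ : Matrix (Fin 2) (Fin 2) ℤ)
      = (γ' : Matrix (Fin 2) (Fin 2) ℤ) * diagMat d := by
  rw [Gamma0_mem, ZMod.intCast_zmod_eq_zero_iff_dvd] at hγ
  obtain ⟨k, hk⟩ := hγ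
  have hdet : γ 0 0 * γ 1 1 - γ 0 1 * γ 1 0 = 1 := by
    have := γ.det_coe
    rw [Matrix.det_fin_two] at this
    exact this
  refine ⟨⟨!![γ 0 0, (d : ℕ) * γ 0 1; k, γ 1 1], ?_⟩, ?_⟩
  · rw [Matrix.det_fin_two_of]
    rw [hk] at hdet
    linarith
  · ext i j
    fin_cases i <;> fin_cases j <;> simp [diagMat, Matrix.mul_apply, Fin.sum_univ_two, hk]
    · ring
    · ring

theorem jGen_Gamma0_mul (d : ℕ+) {γ : SL(2, ℤ)} (hγ : γ ∈ Gamma0 d) (δ : SL(2, ℤ)) :
    jGen d (γ * δ) = jGen d δ := by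
  obtain ⟨γ', hγ'⟩ := exists_SL_diagMat_mul d hγ
  rw [jGen, jGen]
  have h : diagMat d * ((γ * δ : SL(2, ℤ)) : Matrix (Fin 2) (Fin 2) ℤ)
      = (γ' : Matrix (Fin 2) (Fin 2) ℤ) * (diagMat d * (δ : Matrix (Fin 2) (Fin 2) ℤ)) := by
    rw [Matrix.SpecialLinearGroup.coe_mul, ← Matrix.mul_assoc, hγ', Matrix.mul_assoc]
  rw [jMat_congr h _ (det_SL_mul_pos γ' (det_diagMat_mul_pos d δ)), jMat_SL_mul]

theorem Gamma0_le_of_dvd {d N : ℕ} (h : d ∣ N) : Gamma0 N ≤ Gamma0 d := by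
  intro γ hγ
  rw [Gamma0_mem, ZMod.intCast_zmod_eq_zero_iff_dvd] at hγ ⊢
  exact Dvd.dvd.trans (by exact_mod_cast h) hγ

theorem Gamma_le_Gamma0' (N : ℕ) : Gamma N ≤ Gamma0 N := by
  intro γ hγ
  rw [Gamma_mem] at hγ
  rw [Gamma0_mem]
  exact hγ.2.2.1

/-! ### The ring `modRing N` is a domain; the action of `SL(2, ℤ)` -/

variable (N : ℕ) [NeZero N]

/-- the `q_N`-expansion on `modRing N` -/
noncomputable def modRingQL : modRing N →+* LaurentSeries ℂ where
  toFun f := qLaurent N (f : ℍ → ℂ)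
  map_one' := by
    show qLaurent N (fun _ => (1 : ℂ)) = 1
    rw [Fermat.Agent.ES.qLaurent_const]
    rfl
  map_mul' f g := Fermat.Agent.ES.qLaurent_mul (modRing_props N f.2).1 (modRing_props N g.2).1
  map_zero' := by
    show qLaurent N (fun _ => (0 : ℂ)) = 0
    rw [Fermat.Agent.ES.qLaurent_const, map_zero]
  map_add' f g := Fermat.Agent.ES.qLaurent_add (modRing_props N f.2).1 (modRing_props N g.2).1

theorem modRingQL_apply (f : modRing N) : modRingQL N f = qLaurent N (f : ℍ → ℂ) := rfl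

theorem modRingQL_injective : Function.Injective (modRingQL N) := by
  rw [injective_iff_map_eq_zero]
  intro f hf
  apply Subtype.ext
  exact (Fermat.Agent.ES.qLaurent_eq_zero_iff (modRing_props N f.2).1).mp hf

instance : IsDomain (modRing N) := (modRingQL_injective N).isDomain _

/-- the action of `γ ∈ SL(2, ℤ)` on `modRing N` as an algebra homomorphism -/
noncomputable def modActHom (γ : SL(2, ℤ)) : modRing N →ₐ[Kbar] modRing N :=
  ((slAct γ : (ℍ → ℂ) →ₐ[Kbar] (ℍ → ℂ)).comp (modRing N).val).codRestrict (modRing N)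
    (fun f => slAct_mem_modRing N γ f.2)

@[simp]
theorem coe_modActHom (γ : SL(2, ℤ)) (f : modRing N) :
    ((modActHom N γ f : modRing N) : ℍ → ℂ) = slAct γ (f : ℍ → ℂ) := rfl

/-- the action of `SL(2, ℤ)` on `modRing N` -/
noncomputable def modAct : SL(2, ℤ) →* (modRing N ≃ₐ[Kbar] modRing N) where
  toFun γ := AlgEquiv.ofAlgHom (modActHom N γ) (modActHom N γ⁻¹)
    (by ext f : 2; simp [map_inv])
    (by ext f : 2; simp [map_inv])
  map_one' := by
    ext f : 2
    simp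
  map_mul' γ δ := by
    ext f : 2
    simp

@[simp]
theorem coe_modAct (γ : SL(2, ℤ)) (f : modRing N) :
    ((modAct N γ f : modRing N) : ℍ → ℂ) = slAct γ (f : ℍ → ℂ) := rfl

theorem modAct_apply_apply (γ : SL(2, ℤ)) (f : modRing N) (τ : ℍ) :
    (modAct N γ f : ℍ → ℂ) τ = (f : ℍ → ℂ) (γ⁻¹ • τ) := rfl

/-- the element `j` of `modRing N` -/
noncomputable def jR : modRing N := ⟨jFun, jFun_mem_modRing N⟩

theorem modAct_jR (γ : SL(2, ℤ)) : modAct N γ (jR N) = jR N := by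
  apply Subtype.ext
  funext τ
  rw [modAct_apply_apply]
  exact jFun_smul γ⁻¹ τ

/-- the generators as elements of `modRing N` -/
noncomputable def jGenR {d : ℕ+} (hd : (d : ℕ) ∣ N) (γ : SL(2, ℤ)) : modRing N :=
  ⟨jGen d γ, jGen_mem_modRing N hd γ⟩

theorem modAct_jGenR (δ : SL(2, ℤ)) {d : ℕ+} (hd : (d : ℕ) ∣ N) (γ : SL(2, ℤ)) :
    modAct N δ (jGenR N hd γ) = jGenR N hd (γ * δ⁻¹) := by
  apply Subtype.ext
  exact slAct_jGen δ d γ

/-- an algebra endomorphism of `modRing N` fixing the generators is the identity -/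
theorem modAct_eq_one_of_gens (γ : SL(2, ℤ))
    (h : ∀ (d : ℕ+) (_ : (d : ℕ) ∣ N) (δ : SL(2, ℤ)), slAct γ (jGen d δ) = jGen d δ) :
    modAct N γ = 1 := by
  ext f : 2
  obtain ⟨f, hf⟩ := f
  show slAct γ f = f
  induction hf using Algebra.adjoin_induction with
  | mem f hf =>
    obtain ⟨d, hd, δ, rfl⟩ := hf
    exact h d hd δ
  | algebraMap c => exact AlgEquiv.commutes _ c
  | add f g _ _ hf hg => rw [map_add, hf, hg]
  | mul f g _ _ hf hg => rw [map_mul, hf, hg]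

theorem Gamma_le_ker_modAct : Gamma N ≤ (modAct N).ker := by
  intro γ hγ
  rw [MonoidHom.mem_ker]
  apply modAct_eq_one_of_gens
  intro d hd δ
  rw [slAct_jGen]
  have hconj : δ * γ⁻¹ * δ⁻¹ ∈ Gamma N :=
    (Gamma_normal N).conj_mem γ⁻¹ (inv_mem hγ) δ
  have h0 : δ * γ⁻¹ * δ⁻¹ ∈ Gamma0 d :=
    Gamma0_le_of_dvd hd (Gamma_le_Gamma0' N hconj)
  have := jGen_Gamma0_mul d h0 δ
  rwa [inv_mul_cancel_right] at this

theorem finite_range_modAct : Finite (modAct N).range := by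
  haveI : (Gamma N).Normal := Gamma_normal N
  have hsurj : Function.Surjective
      (QuotientGroup.lift (Gamma N) (modAct N).rangeRestrict (fun γ hγ => by
        apply Subtype.ext
        exact (Gamma_le_ker_modAct N hγ))) := by
    rintro ⟨_, γ, rfl⟩
    exact ⟨QuotientGroup.mk γ, rfl⟩
  haveI : Finite (SL(2, ℤ) ⧸ Gamma N) := Subgroup.finite_quotient_of_finiteIndex
  exact Finite.of_surjective _ hsurj

end Fermat.Agent.S24Lib
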