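/-
S24 (project P1a), part MOD: the field of modular functions of level `N` (fraction field of
`modRing N`), the Galois action of `SL(2, ℤ)` on it and the analytic model `anField N` of the
function field of `X₀(N)`.  Definitions only.
-/
import Mathlib
import Fermat.Agent.Lib.S24.ModField

set_option autoImplicit false
set_option linter.unusedSectionVars false
set_option linter.style.haveILetI false

namespace Fermat.Agent.S24Lib

open UpperHalfPlane Filter Topology Matrix MatrixGroups CongruenceSubgroup
open scoped Manifold
open Fermat.Agent.S22Lib (intGL)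
open Fermat.Agent.ES (IsQLaurentable qLaurent)

local notation "Kbar" => AlgebraicClosure ℚ

variable (N : ℕ) [NeZero N]

/-- the field of modular functions of level `N` with algebraic Fourier coefficients -/
abbrev ModField : Type := FractionRing (modRing N)

/-- the action of `SL(2, ℤ)` on `ModField N` -/
noncomputable def modRep : SL(2, ℤ) →* (ModField N ≃ₐ[Kbar] ModField N) :=
  fracRep (L := ModField N) (modAct N)

@[simp]
theorem modRep_algebraMap (γ : SL(2, ℤ)) (r : modRing N) :
    modRep N γ (algebraMap (modRing N) (ModField N) r)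
      = algebraMap (modRing N) (ModField N) (modAct N γ r) :=
  fracRep_algebraMap (modAct N) γ r

/-- `j` as an element of `ModField N` -/
noncomputable def jL : ModField N := algebraMap (modRing N) (ModField N) (jR N)

/-- the function `τ ↦ j(d · γ τ)` as an element of `ModField N` -/
noncomputable def jGenL {d : ℕ+} (hd : (d : ℕ) ∣ N) (γ : SL(2, ℤ)) : ModField N :=
  algebraMap (modRing N) (ModField N) (jGenR N hd γ)

theorem modRep_jL (γ : SL(2, ℤ)) : modRep N γ (jL N) = jL N := by
  rw [jL, modRep_algebraMap, modAct_jR]

theorem modRep_jGenL (δ : SL(2, ℤ)) {d : ℕ+} (hd : (d : ℕ) ∣ N) (γ : SL(2, ℤ)) :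
    modRep N δ (jGenL N hd γ) = jGenL N hd (γ * δ⁻¹) := by
  rw [jGenL, modRep_algebraMap, modAct_jGenR]
  rfl

/-- the generators `τ ↦ j(dτ)`, `d ∣ N`, of the function field of `X₀(N)` -/
def anGens : Set (ModField N) := {x | ∃ (d : ℕ+) (hd : (d : ℕ) ∣ N), x = jGenL N hd 1}

/-- the analytic model of the function field of `X₀(N)` over `Kbar` -/
noncomputable def anField : IntermediateField Kbar (ModField N) :=
  IntermediateField.adjoin Kbar (anGens N)

theorem jGenL_mem_anField {d : ℕ+} (hd : (d : ℕ) ∣ N) : jGenL N hd 1 ∈ anField N :=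
  IntermediateField.subset_adjoin _ _ ⟨d, hd, rfl⟩

theorem jGenL_one_one : jGenL N (d := 1) (one_dvd N) 1 = jL N := by
  unfold jGenL jL
  congr 1
  apply Subtype.ext
  exact jGen_one_one

theorem jL_mem_anField : jL N ∈ anField N := by
  rw [← jGenL_one_one]
  exact jGenL_mem_anField N _

end Fermat.Agent.S24Lib
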