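/-
S24 (project P1a), part MOD / INFTY: the valuation at the cusp `∞` on `modRing N`
(order of the `q_N`-expansion).  Statements as in helper3's stub `S24stubs/MOD/ModInfty.lean`.
-/
import Mathlib
import Fermat.Agent.Lib.S24.ModField
import Fermat.Prelude.Def_ModularCurve_X0ModL

set_option autoImplicit false

namespace Fermat.Agent.S24Lib

open UpperHalfPlane Matrix MatrixGroups CongruenceSubgroup WithZero
open Fermat.Agent.ES (IsQLaurentable qLaurent)

local notation "Kbar" => AlgebraicClosure ℚ

/-! ### orders of Laurent series -/

section Order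

variable {R : Type*} [CommRing R]

/-- a Laurent series with nonzero coefficient at `n` and vanishing coefficients below `n` has
order `n` -/
theorem order_eq_of_coeff {f : LaurentSeries R} {n : ℤ} (h1 : f.coeff n ≠ 0)
    (h2 : ∀ k < n, f.coeff k = 0) : f.order = n := by
  have hf : f ≠ 0 := by
    rintro rfl
    exact h1 rfl
  apply le_antisymm (HahnSeries.order_le_of_coeff_ne_zero h1)
  by_contra hlt
  exact hf (HahnSeries.coeff_order_eq_zero.mp (h2 _ (not_le.mp hlt)))

theorem order_jqModC [Nontrivial R] : (ModularCurve.jqModC R).order = -1 := by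
  apply order_eq_of_coeff
  · rw [ModularCurve.coeff_jqModC_neg_one]
    exact one_ne_zero
  · intro k hk
    exact ModularCurve.coeff_jqModC_of_lt R hk

theorem order_qExpand (N : ℕ) [NeZero N] {f : LaurentSeries R} (hf : f ≠ 0) :
    (ModularCurve.qExpand R N f).order = N * f.order := by
  have hN : (0 : ℤ) < N := by exact_mod_cast Nat.pos_of_ne_zero (NeZero.ne N)
  apply order_eq_of_coeff
  · rw [ModularCurve.qExpand_coeff_mul]
    exact fun h => hf (HahnSeries.coeff_order_eq_zero.mp h)
  · intro k hk
    by_cases hdvd : (N : ℤ) ∣ k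
    · obtain ⟨m, rfl⟩ := hdvd
      rw [ModularCurve.qExpand_coeff_mul]
      apply HahnSeries.coeff_eq_zero_of_lt_order
      exact lt_of_mul_lt_mul_left hk hN.le
    · exact ModularCurve.qExpand_coeff_of_not_dvd N f hdvd

end Order

variable (N : ℕ) [NeZero N]

theorem modRingQL_eq_zero_iff {f : modRing N} : modRingQL N f = 0 ↔ f = 0 := by
  constructor
  · intro h
    exact modRingQL_injective N (h.trans (map_zero _).symm)
  · rintro rfl
    exact map_zero _

open Classical in
/-- the valuation at the cusp `∞`: `f ↦ exp (-(order of the q_N-expansion of f))` -/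
noncomputable def inftyValuation : Valuation (modRing N) ℤᵐ⁰ where
  toFun f := if f = 0 then 0 else exp (-(modRingQL N f).order)
  map_zero' := if_pos rfl
  map_one' := by
    rw [if_neg one_ne_zero, map_one, HahnSeries.order_one, neg_zero, exp_zero]
  map_mul' f g := by
    by_cases hf : f = 0
    · simp [hf]
    by_cases hg : g = 0
    · simp [hg]
    rw [if_neg hf, if_neg hg, if_neg (mul_ne_zero hf hg), ← exp_add, map_mul,
      HahnSeries.order_mul ((modRingQL_eq_zero_iff N).not.mpr hf)
        ((modRingQL_eq_zero_iff N).not.mpr hg)]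
    congr 1
    ring
  map_add_le_max' f g := by
    by_cases hf : f = 0
    · simp [hf]
    by_cases hg : g = 0
    · simp [hg]
    by_cases hfg : f + g = 0
    · rw [if_pos hfg]; exact zero_le
    rw [if_neg hf, if_neg hg, if_neg hfg, le_max_iff, exp_le_exp, exp_le_exp, map_add]
    have h1 := HahnSeries.min_order_le_order_add (x := modRingQL N f) (y := modRingQL N g)
      (by rw [← map_add]; exact (modRingQL_eq_zero_iff N).not.mpr hfg)
    rcases min_le_iff.mp h1 with h | h
    · left; omega
    · right; omega

theorem inftyValuation_apply {f : modRing N} (hf : f ≠ 0) :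
    inftyValuation N f = exp (-(modRingQL N f).order) := by
  classical
  show (if f = 0 then 0 else exp (-(modRingQL N f).order)) = _
  rw [if_neg hf]

theorem inftyValuation_eq_zero_iff {f : modRing N} : inftyValuation N f = 0 ↔ f = 0 := by
  constructor
  · intro h
    by_contra hf
    rw [inftyValuation_apply N hf] at h
    exact exp_ne_zero h
  · rintro rfl
    exact map_zero _

theorem modRingQL_algebraMap (c : Kbar) :
    modRingQL N (algebraMap Kbar (modRing N) c) = HahnSeries.C (iotaC c) := by
  rw [modRingQL_apply]
  have : ((algebraMap Kbar (modRing N) c : modRing N) : ℍ → ℂ) = fun _ => iotaC c := rfl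
  rw [this, Fermat.Agent.ES.qLaurent_const]

theorem inftyValuation_algebraMap_le_one (c : Kbar) :
    inftyValuation N (algebraMap Kbar (modRing N) c) ≤ 1 := by
  by_cases hc : algebraMap Kbar (modRing N) c = 0
  · rw [hc, map_zero]; exact zero_le
  · rw [inftyValuation_apply N hc, modRingQL_algebraMap]
    have hc' : iotaC c ≠ 0 := by
      intro h0
      apply hc
      apply (modRingQL_eq_zero_iff N).mp
      rw [modRingQL_algebraMap, h0, map_zero]
    rw [HahnSeries.order_C, neg_zero, exp_zero]

/-- `T : τ ↦ τ + 1` preserves the order at `∞` -/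
theorem inftyValuation_modAct_T (f : modRing N) :
    inftyValuation N (modAct N ModularGroup.T f) = inftyValuation N f := by
  by_cases hf : f = 0
  · rw [hf, map_zero]
  have hf' : modAct N ModularGroup.T f ≠ 0 := by
    intro h
    exact hf ((modAct N ModularGroup.T).injective (h.trans (map_zero _).symm))
  rw [inftyValuation_apply N hf, inftyValuation_apply N hf', modRingQL_apply, modRingQL_apply]
  have hfun : ((modAct N ModularGroup.T f : modRing N) : ℍ → ℂ)
      = fun z => (f : ℍ → ℂ) ((-1 : ℝ) +ᵥ z) := by
    funext z
    rw [modAct_apply_apply]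
    have := UpperHalfPlane.modular_T_zpow_smul z (-1)
    rw [_root_.zpow_neg_one] at this
    rw [this]
    norm_num
  rw [hfun, Fermat.Agent.ES.qLaurent_vadd_order (modRing_props N f.2).1 (-1)]

theorem modRingQL_jR : modRingQL N (jR N) = ModularCurve.qExpand ℂ N (ModularCurve.jqModC ℂ) := by
  rw [modRingQL_apply]
  show qLaurent N jFun = _
  rw [(Fermat.Agent.ES.qLaurent_change_period N isQLaurentable_jFun).2, qLaurent_jFun]

/-- `j` has a pole of order `N` in the local parameter `q_N = exp(2πiτ/N)` -/
theorem inftyValuation_jR : inftyValuation N (jR N) = exp (N : ℤ) := by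
  have h0 : jR N ≠ 0 := by
    intro h
    have h1 := modRingQL_jR N
    rw [h, map_zero] at h1
    exact ModularCurve.jqModC_ne_zero_of_nontrivial ℂ
      (ModularCurve.qExpand_injective N (h1.symm.trans (map_zero _).symm))
  rw [inftyValuation_apply N h0, modRingQL_jR,
    order_qExpand N (ModularCurve.jqModC_ne_zero_of_nontrivial ℂ), order_jqModC]
  congr 1
  ring

end Fermat.Agent.S24Lib
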