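/-
S24 (project P1a), part MOD / ISO: the Prelude's function field of `X₀(N)` over `ℚ̄` (a subfield of
`LaurentSeries ℚ̄`) is isomorphic to the analytic model `anField N`, compatibly with
`q`-expansions.
-/
import Mathlib
import Fermat.Agent.Lib.S24.ModFieldDefs
import Fermat.Agent.Lib.S24.JBar
import Fermat.Agent.Lib.S24.ModInfty
import Fermat.Prelude.Thm_ModularCurve_coeffMap_qExpand
import Fermat.Prelude.Def_ModularCurve_X0ModL

set_option autoImplicit false
set_option linter.unusedSectionVars false
set_option linter.style.haveILetI false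

namespace Fermat.Agent.S24Lib

open UpperHalfPlane Matrix MatrixGroups CongruenceSubgroup ModularCurve
open Fermat.Agent.S22Lib (intGL)
open Fermat.Agent.ES (IsQLaurentable qLaurent)

local notation "Kbar" => AlgebraicClosure ℚ

variable (N : ℕ) [NeZero N]

/-! ### The `q_N`-expansion on `ModField N` -/

/-- the `q_N`-expansion on the field of modular functions of level `N` -/
noncomputable def modFieldQL : ModField N →+* LaurentSeries ℂ :=
  IsFractionRing.lift (modRingQL_injective N)

@[simp]
theorem modFieldQL_algebraMap (r : modRing N) :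
    modFieldQL N (algebraMap (modRing N) (ModField N) r) = modRingQL N r :=
  IsFractionRing.lift_algebraMap _ _

theorem modFieldQL_injective : Function.Injective (modFieldQL N) := RingHom.injective _

theorem modFieldQL_algebraMap_Kbar (c : Kbar) :
    modFieldQL N (algebraMap Kbar (ModField N) c) = HahnSeries.C (iotaC c) := by
  rw [IsScalarTower.algebraMap_apply Kbar (modRing N) (ModField N), modFieldQL_algebraMap,
    modRingQL_algebraMap]

theorem modRingQL_jGenR_one {d : ℕ+} (hd : (d : ℕ) ∣ N) :
    modRingQL N (jGenR N hd 1) = qExpand ℂ N (qExpand ℂ d (jqModC ℂ)) := by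
  rw [modRingQL_apply]
  show qLaurent N (jGen d 1) = _
  have hU : 0 < (!![(d : ℤ), 0; 0, 1] : Matrix (Fin 2) (Fin 2) ℤ).det := by
    rw [Fermat.Agent.S22Lib.upper_det, mul_one]
    exact_mod_cast d.pos
  have hmat : diagMat d * ((1 : SL(2, ℤ)) : Matrix (Fin 2) (Fin 2) ℤ)
      = !![((d : ℕ) : ℤ), 0; 0, 1] := by
    rw [Matrix.SpecialLinearGroup.coe_one, mul_one]
    rfl
  have h1 : jGen d 1 = fun τ => jFun (intGL !![((d : ℕ) : ℤ), 0; 0, 1] hU • τ) := by
    rw [jGen, jMat_congr hmat _ hU]
    rfl
  rw [h1]
  have he : (((N * d : ℕ)) : ℤ) * 1 = N * ((d : ℕ) : ℤ) := by push_cast; ring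
  obtain ⟨-, h2⟩ := qLaurent_jFun_comp_upper ((d : ℕ) : ℤ) 0 1 (by exact_mod_cast d.pos) one_pos hU
    N (N * d) he
  rw [qExpand_qExpand]
  ext m
  rw [h2 m]
  split_ifs with hdm
  · obtain ⟨k, rfl⟩ := hdm
    have hne : (((N * d : ℕ)) : ℤ) ≠ 0 := by
      exact_mod_cast (Nat.mul_pos (Nat.pos_of_ne_zero (NeZero.ne N)) d.pos).ne'
    rw [Int.mul_ediv_cancel_left k hne, qExpand_coeff_mul]
    simp
  · rw [qExpand_coeff_of_not_dvd _ _ hdm]

theorem modFieldQL_jGenL_one {d : ℕ+} (hd : (d : ℕ) ∣ N) :
    modFieldQL N (jGenL N hd 1) = qExpand ℂ N (qExpand ℂ d (jqModC ℂ)) := by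
  rw [jGenL, modFieldQL_algebraMap, modRingQL_jGenR_one]

/-! ### The `q_N`-expansion on the Prelude's function field -/

/-- base change of coefficients to `ℂ` followed by `q ↦ q^N` -/
noncomputable def barQLHom : LaurentSeries Kbar →+* LaurentSeries ℂ :=
  (qExpand ℂ N).comp (coeffMap iotaC)

theorem barQLHom_apply (x : LaurentSeries Kbar) :
    barQLHom N x = qExpand ℂ N (coeffMap iotaC x) := rfl

theorem barQLHom_injective : Function.Injective (barQLHom N) := RingHom.injective _

theorem barQLHom_algebraMap (c : Kbar) :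
    barQLHom N (algebraMap Kbar (LaurentSeries Kbar) c) = HahnSeries.C (iotaC c) := by
  rw [barQLHom_apply, algebraMap_laurentSeries_eq_single, coeffMap_single, qExpand_single,
    mul_zero]
  rfl

theorem barQLHom_coeffEmb_jqd (d : ℕ) [NeZero d] :
    barQLHom N (coeffEmb Kbar (qExpand ℚ d jq)) = qExpand ℂ N (qExpand ℂ d (jqModC ℂ)) := by
  rw [barQLHom_apply, coeffEmb, coeffMap_coeffMap, coeffMap_qExpand]
  have : jq = jqModC ℚ := rfl
  rw [this, coeffMap_jqModC]

/-- the `q_N`-expansion (with complex coefficients) on the Prelude's function field of `X₀(N)` -/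
noncomputable def barQL : modularFunctionFieldBar N →+* LaurentSeries ℂ :=
  (barQLHom N).comp (algebraMap (modularFunctionFieldBar N) (LaurentSeries Kbar))

theorem barQL_apply (h : modularFunctionFieldBar N) :
    barQL N h = qExpand ℂ N (coeffMap iotaC (h : LaurentSeries Kbar)) := rfl

theorem barQL_injective : Function.Injective (barQL N) := RingHom.injective _

/-! ### The two images agree -/

theorem barQLHom_mem_map_anField {x : LaurentSeries Kbar} (hx : x ∈ modularFunctionFieldBar N) :
    barQLHom N x ∈ (anField N).toSubfield.map (modFieldQL N) := by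
  set S2 : Subfield (LaurentSeries ℂ) := (anField N).toSubfield.map (modFieldQL N) with hS2
  have hconst : ∀ c : Kbar, HahnSeries.C (iotaC c) ∈ S2 := fun c =>
    ⟨algebraMap Kbar (ModField N) c, (anField N).algebraMap_mem c, modFieldQL_algebraMap_Kbar N c⟩
  rw [mem_laurentBaseChange_iff] at hx
  have hle : Subfield.closure (Set.range (algebraMap Kbar (LaurentSeries Kbar)) ∪
      (⇑(coeffEmb Kbar) '' (modularFunctionFieldFull N : Set (LaurentSeries ℚ))))
        ≤ S2.comap (barQLHom N) := by
    rw [Subfield.closure_le]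
    rintro y (⟨c, rfl⟩ | ⟨z, hz, rfl⟩)
    · show barQLHom N _ ∈ S2
      rw [barQLHom_algebraMap]
      exact hconst c
    · show barQLHom N (coeffEmb Kbar z) ∈ S2
      have hz' : z ∈ Subfield.closure (Set.range (algebraMap ℚ (LaurentSeries ℚ)) ∪
          divisorExpansions N) := hz
      have hle2 : Subfield.closure (Set.range (algebraMap ℚ (LaurentSeries ℚ)) ∪
          divisorExpansions N) ≤ S2.comap ((barQLHom N).comp (coeffEmb Kbar)) := by
        rw [Subfield.closure_le]
        rintro y (⟨c, rfl⟩ | ⟨d, hne, hd, rfl⟩)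
        · show (barQLHom N).comp (coeffEmb Kbar) (algebraMap ℚ _ c) ∈ S2
          rw [eq_ratCast, map_ratCast]
          exact SubfieldClass.ratCast_mem S2 c
        · haveI := hne
          show barQLHom N (coeffEmb Kbar (qExpand ℚ d jq)) ∈ S2
          rw [barQLHom_coeffEmb_jqd]
          have hd' : (((⟨d, Nat.pos_of_ne_zero (NeZero.ne d)⟩ : ℕ+) : ℕ)) ∣ N := hd
          exact ⟨jGenL N hd' 1, jGenL_mem_anField N hd', modFieldQL_jGenL_one N hd'⟩
      exact hle2 hz'
  exact hle hx

theorem modFieldQL_mem_map_bar {y : ModField N} (hy : y ∈ anField N) :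
    modFieldQL N y ∈ (modularFunctionFieldBar N).toSubfield.map (barQLHom N) := by
  set S1 : Subfield (LaurentSeries ℂ) := (modularFunctionFieldBar N).toSubfield.map (barQLHom N)
    with hS1
  have hy' : y ∈ Subfield.closure (Set.range (algebraMap Kbar (ModField N)) ∪ anGens N) := hy
  have hle : Subfield.closure (Set.range (algebraMap Kbar (ModField N)) ∪ anGens N)
      ≤ S1.comap (modFieldQL N) := by
    rw [Subfield.closure_le]
    rintro z (⟨c, rfl⟩ | ⟨d, hd, rfl⟩)
    · show modFieldQL N _ ∈ S1
      rw [modFieldQL_algebraMap_Kbar]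
      exact ⟨algebraMap Kbar (LaurentSeries Kbar) c, (modularFunctionFieldBar N).algebraMap_mem c,
        barQLHom_algebraMap N c⟩
    · show modFieldQL N (jGenL N hd 1) ∈ S1
      rw [modFieldQL_jGenL_one]
      refine ⟨coeffEmb Kbar (qExpand ℚ d jq), ?_, barQLHom_coeffEmb_jqd N d⟩
      exact coeffEmb_mem_laurentBaseChange Kbar (jqd_mem_full N hd)
  exact hle hy'

theorem exists_anField_eq (h : modularFunctionFieldBar N) :
    ∃ y : anField N, modFieldQL N (y : ModField N) = barQL N h := by
  obtain ⟨y, hy, hyh⟩ := barQLHom_mem_map_anField N h.2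
  exact ⟨⟨y, hy⟩, hyh⟩

theorem exists_bar_eq (y : anField N) :
    ∃ h : modularFunctionFieldBar N, barQL N h = modFieldQL N (y : ModField N) := by
  obtain ⟨x, hx, hxy⟩ := modFieldQL_mem_map_bar N y.2
  exact ⟨⟨x, hx⟩, hxy⟩

/-! ### The isomorphism -/

/-- the underlying function of the isomorphism -/
noncomputable def isoFun (h : modularFunctionFieldBar N) : anField N :=
  (exists_anField_eq N h).choose

theorem modFieldQL_isoFun (h : modularFunctionFieldBar N) :
    modFieldQL N ((isoFun N h : anField N) : ModField N) = barQL N h :=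
  (exists_anField_eq N h).choose_spec

theorem isoFun_eq_iff (h : modularFunctionFieldBar N) (y : anField N) :
    isoFun N h = y ↔ modFieldQL N (y : ModField N) = barQL N h := by
  constructor
  · rintro rfl
    exact modFieldQL_isoFun N h
  · intro hy
    apply Subtype.ext
    apply modFieldQL_injective N
    rw [modFieldQL_isoFun, hy]

/-- the isomorphism as an algebra homomorphism -/
noncomputable def isoHom : modularFunctionFieldBar N →ₐ[Kbar] anField N where
  toFun := isoFun N
  map_one' := by
    rw [isoFun_eq_iff]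
    simp
  map_mul' a b := by
    rw [isoFun_eq_iff]
    show modFieldQL N ((isoFun N a : ModField N) * (isoFun N b : ModField N)) = barQL N (a * b)
    rw [RingHom.map_mul, RingHom.map_mul, modFieldQL_isoFun, modFieldQL_isoFun]
  map_zero' := by
    rw [isoFun_eq_iff]
    simp
  map_add' a b := by
    rw [isoFun_eq_iff]
    show modFieldQL N ((isoFun N a : ModField N) + (isoFun N b : ModField N)) = barQL N (a + b)
    rw [RingHom.map_add, RingHom.map_add, modFieldQL_isoFun, modFieldQL_isoFun]
  commutes' c := by
    rw [isoFun_eq_iff]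
    show modFieldQL N (algebraMap Kbar (ModField N) c) = barQLHom N (algebraMap Kbar _ c)
    rw [modFieldQL_algebraMap_Kbar, barQLHom_algebraMap]

theorem isoHom_apply (h : modularFunctionFieldBar N) : isoHom N h = isoFun N h := rfl

theorem isoHom_bijective : Function.Bijective (isoHom N) := by
  refine ⟨(isoHom N).toRingHom.injective, fun y => ?_⟩
  obtain ⟨h, hh⟩ := exists_bar_eq N y
  exact ⟨h, (isoFun_eq_iff N h y).mpr hh.symm⟩

/-- **The Prelude's function field of `X₀(N)` over `ℚ̄` is the analytic model `anField N`.** -/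
noncomputable def modIso : modularFunctionFieldBar N ≃ₐ[Kbar] anField N :=
  AlgEquiv.ofBijective (isoHom N) (isoHom_bijective N)

/-- compatibility of the isomorphism with `q_N`-expansions -/
theorem modFieldQL_modIso (h : modularFunctionFieldBar N) :
    modFieldQL N ((modIso N h : anField N) : ModField N)
      = qExpand ℂ N (coeffMap iotaC (h : LaurentSeries Kbar)) :=
  modFieldQL_isoFun N h

theorem modIso_jBar : ((modIso N (jBar N) : anField N) : ModField N) = jL N := by
  apply modFieldQL_injective N
  rw [modFieldQL_modIso, coe_jBar, coeffMap_jqModC, jL, modFieldQL_algebraMap, modRingQL_jR]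

theorem exists_algEquiv_anField :
    ∃ Ψ : modularFunctionFieldBar N ≃ₐ[Kbar] anField N,
      ((Ψ (jBar N) : anField N) : ModField N) = jL N :=
  ⟨modIso N, modIso_jBar N⟩

end Fermat.Agent.S24Lib
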