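import Mathlib
import Fermat.Agent.Lib.S24.JFun

/-!
# Surjectivity of the `j`-function (S24, AN2)
-/

set_option autoImplicit false

namespace Fermat.Agent.S24Lib

open UpperHalfPlane ModularForm Matrix MatrixGroups Filter Topology OnePoint
open scoped ModularForm Manifold

local notation "Δ" => ModularForm.discriminant

/-- slash invariance of `1 / (E₄³ - cΔ)` in weight `-12` -/
theorem inv_E₄_cube_sub_slash (c : ℂ) (γ : SL(2, ℤ)) :
    (fun τ : ℍ => (ModularForm.E₄ τ ^ 3 - c * Δ τ)⁻¹) ∣[(-12 : ℤ)] γ =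
      fun τ : ℍ => (ModularForm.E₄ τ ^ 3 - c * Δ τ)⁻¹ := by
  ext τ
  rw [SL_slash_apply, E₄_smul, discriminant_smul]
  have hd : denom γ τ ≠ 0 := denom_ne_zero γ τ
  have h12 : denom γ τ ^ (12 : ℤ) = (denom γ τ ^ (4 : ℤ)) ^ 3 := by
    rw [← zpow_natCast, ← _root_.zpow_mul]; norm_num
  have h12' : denom γ τ ^ (12 : ℤ) ≠ 0 := zpow_ne_zero _ hd
  rw [mul_pow, ← h12, show (-(-12 : ℤ)) = 12 by norm_num]
  rw [show denom γ τ ^ (12 : ℤ) * ModularForm.E₄ τ ^ 3 - c * (denom γ τ ^ (12 : ℤ) * Δ τ) =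
    denom γ τ ^ (12 : ℤ) * (ModularForm.E₄ τ ^ 3 - c * Δ τ) by ring, mul_inv]
  field_simp

theorem tendsto_E₄_cube_sub (c : ℂ) :
    Tendsto (fun τ : ℍ => ModularForm.E₄ τ ^ 3 - c * Δ τ) atImInfty (𝓝 1) := by
  have h1 := (tendsto_E₄_atImInfty.pow 3).sub (tendsto_discriminant_atImInfty.const_mul c)
  simpa using h1

/-- the weight `-12` form `1 / (E₄³ - cΔ)` when the denominator has no zeros -/
noncomputable def invE₄CubeSub (c : ℂ) (h : ∀ τ : ℍ, ModularForm.E₄ τ ^ 3 - c * Δ τ ≠ 0) :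
    ModularForm 𝒮ℒ (-12) where
  toFun τ := (ModularForm.E₄ τ ^ 3 - c * Δ τ)⁻¹
  slash_action_eq' := fun _ ⟨γ, hγ⟩ ↦ hγ ▸ inv_E₄_cube_sub_slash c γ
  holo' := by
    have h1 : MDiff (fun τ : ℍ => ModularForm.E₄ τ ^ 3 - c * Δ τ) :=
      (mdiff_E₄.pow 3).sub (mdifferentiable_const.mul mdiff_discriminant)
    have h2 : MDiff (fun _ : ℍ => (1 : ℂ)) := mdifferentiable_const
    have := h2.div h1 h
    have e : ((fun _ : ℍ => (1 : ℂ)) / fun τ : ℍ => ModularForm.E₄ τ ^ 3 - c * Δ τ) =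
        fun τ : ℍ => (ModularForm.E₄ τ ^ 3 - c * Δ τ)⁻¹ := by
      ext τ; simp [one_div]
    rwa [e] at this
  bdd_at_cusps' {x} hx := by
    rw [Subgroup.IsArithmetic.isCusp_iff_isCusp_SL2Z] at hx
    rw [isBoundedAt_iff_forall_SL2Z hx]
    intro γ _
    rw [inv_E₄_cube_sub_slash c γ, IsBoundedAtImInfty, BoundedAtFilter]
    have := (tendsto_E₄_cube_sub c).inv₀ one_ne_zero
    exact this.isBigO_one ℝ

/-- **AN2**: the `j`-function is surjective. -/
theorem jFun_surjective : Function.Surjective jFun := by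
  intro c
  by_contra hne
  push Not at hne
  have h : ∀ τ : ℍ, ModularForm.E₄ τ ^ 3 - c * Δ τ ≠ 0 := by
    intro τ h0
    apply hne τ
    rw [jFun, div_eq_iff (discriminant_ne_zero τ)]
    exact sub_eq_zero.mp h0
  have hzero := ModularFormClass.levelOne_neg_weight_eq_zero (by norm_num : (-12 : ℤ) < 0)
    (invE₄CubeSub c h)
  have h1 := congrFun hzero UpperHalfPlane.I
  have h2 : (invE₄CubeSub c h) UpperHalfPlane.I =
      (ModularForm.E₄ UpperHalfPlane.I ^ 3 - c * Δ UpperHalfPlane.I)⁻¹ := rfl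
  rw [h2, Pi.zero_apply, inv_eq_zero] at h1
  exact h UpperHalfPlane.I h1

end Fermat.Agent.S24Lib
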