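import Mathlib
import Fermat.Agent.Lib.S24.JSurjective

/-!
# The derivative of `j` (S24, AN3 preparation)

`D j = c E₄² E₆ / Δ` with `c ≠ 0`, via the Serre derivative `∂₁₂ (E₄³) ∈ M₁₄ = ℂ E₄² E₆`
and `D Δ = E₂ Δ`.
-/

set_option autoImplicit false

namespace Fermat.Agent.S24Lib

open UpperHalfPlane ModularForm Matrix MatrixGroups Filter Topology Derivative
open scoped ModularForm Manifold

local notation "Δ" => ModularForm.discriminant

theorem hasDerivAt_qParam_one (z : ℂ) :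
    HasDerivAt (Function.Periodic.qParam 1) (2 * Real.pi * Complex.I * Function.Periodic.qParam 1 z) z := by
  unfold Function.Periodic.qParam
  have h1 : HasDerivAt (fun z : ℂ => 2 * Real.pi * Complex.I * z / ((1 : ℝ) : ℂ))
      (2 * Real.pi * Complex.I) z := by
    simpa using ((hasDerivAt_id z).const_mul (2 * Real.pi * Complex.I)).div_const (((1 : ℝ) : ℂ))
  exact h1.cexp.congr_deriv (mul_comm _ _)

/-- `D F = q · F̃'(q)` in terms of the cusp function. -/
theorem D_eq_qParam_mul_deriv_cuspFunction {F : ℍ → ℂ} (hF : MDiff F)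
    (hper : Function.Periodic (F ∘ ofComplex) ((1 : ℝ) : ℂ)) (hbd : IsBoundedAtImInfty F) (τ : ℍ) :
    D F τ = Function.Periodic.qParam 1 (τ : ℂ) *
      deriv (cuspFunction 1 F) (Function.Periodic.qParam 1 (τ : ℂ)) := by
  have hq : ‖Function.Periodic.qParam 1 (τ : ℂ)‖ < 1 :=
    Function.Periodic.norm_qParam_lt_one one_pos τ.im_pos
  have hd := (differentiableAt_cuspFunction one_pos hper hF hbd hq).hasDerivAt
  have hcomp := hd.comp (τ : ℂ) (hasDerivAt_qParam_one (τ : ℂ))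
  have heq : (cuspFunction 1 F ∘ Function.Periodic.qParam 1) = F ∘ ofComplex := by
    funext z
    exact Function.Periodic.eq_cuspFunction one_ne_zero hper z
  rw [heq] at hcomp
  rw [normalizedDerivOfComplex, hcomp.deriv]
  have hpi : (2 * Real.pi * Complex.I : ℂ) ≠ 0 := by
    simp [Real.pi_ne_zero]
  field_simp

theorem tendsto_D_atImInfty {F : ℍ → ℂ} (hF : MDiff F)
    (hper : Function.Periodic (F ∘ ofComplex) ((1 : ℝ) : ℂ)) (hbd : IsBoundedAtImInfty F) :
    Tendsto (D F) atImInfty (𝓝 0) := by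
  have han : AnalyticAt ℂ (cuspFunction 1 F) 0 := analyticAt_cuspFunction_zero one_pos hper hF hbd
  have hc : ContinuousAt (deriv (cuspFunction 1 F)) 0 := han.deriv.continuousAt
  have hq := qParam_tendsto_atImInfty (h := 1) one_pos
  have h1 := (hc.tendsto.comp hq)
  have h2 := hq.mul h1
  rw [zero_mul] at h2
  refine h2.congr fun τ => ?_
  rw [D_eq_qParam_mul_deriv_cuspFunction hF hper hbd τ]
  rfl

theorem isBoundedAtImInfty_D {F : ℍ → ℂ} (hF : MDiff F)
    (hper : Function.Periodic (F ∘ ofComplex) ((1 : ℝ) : ℂ)) (hbd : IsBoundedAtImInfty F) :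
    IsBoundedAtImInfty (D F) :=
  (tendsto_D_atImInfty hF hper hbd).isBigO_one ℝ


/-- `D Δ = E₂ Δ`. -/
theorem D_discriminant (τ : ℍ) : D Δ τ = EisensteinSeries.E2 τ * Δ τ := by
  have hτ : (τ : ℂ) ∈ upperHalfPlaneSet := τ.im_pos
  have hev : (Δ ∘ ofComplex) =ᶠ[𝓝 (τ : ℂ)] fun w => ModularForm.eta w ^ 24 := by
    filter_upwards [isOpen_upperHalfPlaneSet.mem_nhds hτ] with w hw
    simp only [Function.comp_apply, ModularForm.discriminant]
    rw [ofComplex_apply_of_im_pos hw]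
  have hdiff := differentiableAt_eta_of_mem_upperHalfPlaneSet hτ
  have hne := eta_ne_zero hτ
  have hlog := logDeriv_eta_eq_E2 τ
  rw [logDeriv_apply, div_eq_iff hne] at hlog
  rw [normalizedDerivOfComplex, hev.deriv_eq]
  have h24 : deriv (fun w => ModularForm.eta w ^ 24) (τ : ℂ) =
      24 * ModularForm.eta (τ : ℂ) ^ 23 * deriv ModularForm.eta (τ : ℂ) := by
    have := (hdiff.hasDerivAt.pow 24).deriv
    rw [show (fun w => ModularForm.eta w ^ 24) = ModularForm.eta ^ 24 from rfl, this]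
    norm_num
  rw [h24, hlog]
  have hpi : (2 * Real.pi * Complex.I : ℂ) ≠ 0 := by
    simp [Real.pi_ne_zero]
  simp only [ModularForm.discriminant]
  field_simp
  ring



theorem levelOne_slash_eq {k : ℤ} (f : ModularForm 𝒮ℒ k) (γ : SL(2, ℤ)) :
    (f : ℍ → ℂ) ∣[k] γ = f :=
  SlashInvariantFormClass.slash_action_eq f _ (mem_SL γ)

theorem isBoundedAtImInfty_serreDerivative {k : ℤ} (f : ModularForm 𝒮ℒ k) :
    IsBoundedAtImInfty (serreDerivative k f) := by
  have hper := SlashInvariantFormClass.periodic_comp_ofComplex f one_mem_strictPeriods_SL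
  have hbd : IsBoundedAtImInfty (f : ℍ → ℂ) := ModularFormClass.bdd_at_infty f
  have h1 := isBoundedAtImInfty_D (ModularFormClass.holo f) hper hbd
  have h2 : IsBoundedAtImInfty (fun z => (k : ℂ) * 12⁻¹ * EisensteinSeries.E2 z * f z) := by
    have h3 : IsBoundedAtImInfty (fun _ : ℍ => (k : ℂ) * 12⁻¹) :=
      Filter.const_boundedAtFilter _ _
    have := (h3.mul EisensteinSeries.isBoundedAtImInfty_E2).mul hbd
    exact this
  exact h1.sub h2

/-- Serre derivative of a level one modular form, as a modular form of weight `k + 2`. -/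
noncomputable def serreDerivativeForm {k : ℤ} (f : ModularForm 𝒮ℒ k) : ModularForm 𝒮ℒ (k + 2) where
  toFun := serreDerivative k f
  slash_action_eq' := by
    rintro _ ⟨γ, rfl⟩
    exact serreDerivative_slash_invariant (ModularFormClass.holo f) (levelOne_slash_eq f γ)
  holo' := serreDerivative_mdifferentiable k (ModularFormClass.holo f)
  bdd_at_cusps' {x} hx := by
    rw [Subgroup.IsArithmetic.isCusp_iff_isCusp_SL2Z] at hx
    rw [OnePoint.isBoundedAt_iff_forall_SL2Z hx]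
    intro γ _
    rw [serreDerivative_slash_invariant (ModularFormClass.holo f) (levelOne_slash_eq f γ)]
    exact isBoundedAtImInfty_serreDerivative f

theorem serreDerivativeForm_apply {k : ℤ} (f : ModularForm 𝒮ℒ k) (τ : ℍ) :
    serreDerivativeForm f τ = serreDerivative k f τ := rfl

/-- `E₄³` as a modular form of weight 12 -/
noncomputable def E₄Cube : ModularForm 𝒮ℒ 12 :=
  ModularForm.mcast (by norm_num) (ModularForm.E₄.pow 3)

theorem E₄Cube_apply (τ : ℍ) : E₄Cube τ = ModularForm.E₄ τ ^ 3 := by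
  rw [E₄Cube, ModularForm.mcast_apply, ModularForm.coe_pow]
  rfl

/-- `E₄² E₆` as a modular form of weight 14 -/
noncomputable def E₄SqE₆ : ModularForm 𝒮ℒ ((14 : ℕ) : ℤ) :=
  ModularForm.mcast (by norm_num) ((ModularForm.E₄.pow 2).mul ModularForm.E₆)

theorem E₄SqE₆_apply (τ : ℍ) : E₄SqE₆ τ = ModularForm.E₄ τ ^ 2 * ModularForm.E₆ τ := by
  rw [E₄SqE₆, ModularForm.mcast_apply, ModularForm.coe_mul, ModularForm.coe_pow]
  rfl

theorem E₄SqE₆_ne_zero : E₄SqE₆ ≠ 0 := by
  intro h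
  have h1 : Tendsto (fun τ : ℍ => ModularForm.E₄ τ ^ 2 * ModularForm.E₆ τ) atImInfty
      (𝓝 (1 ^ 2 * 1)) := (tendsto_E₄_atImInfty.pow 2).mul tendsto_E₆_atImInfty
  have h2 : (fun τ : ℍ => ModularForm.E₄ τ ^ 2 * ModularForm.E₆ τ) = fun _ => 0 := by
    funext τ
    rw [← E₄SqE₆_apply, h]
    rfl
  rw [h2] at h1
  have := tendsto_nhds_unique h1 tendsto_const_nhds
  norm_num at this

/-- `∂₁₂ (E₄³) = c E₄² E₆` -/
theorem exists_serreDerivative_E₄Cube :
    ∃ c : ℂ, ∀ τ : ℍ, serreDerivative 12 (E₄Cube : ℍ → ℂ) τ =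
      c * (ModularForm.E₄ τ ^ 2 * ModularForm.E₆ τ) := by
  have hrank : Module.rank ℂ (ModularForm 𝒮ℒ ((14 : ℕ) : ℤ)) = 1 := by
    rw [dimension_level_one 14 (by decide)]
    norm_num [Nat.ModEq]
  have hfin : Module.finrank ℂ (ModularForm 𝒮ℒ ((14 : ℕ) : ℤ)) = 1 :=
    Module.finrank_eq_of_rank_eq hrank
  set S : ModularForm 𝒮ℒ ((14 : ℕ) : ℤ) :=
    ModularForm.mcast (by norm_num) (serreDerivativeForm E₄Cube) with hS
  obtain ⟨c, hc⟩ := (finrank_eq_one_iff_of_nonzero' E₄SqE₆ E₄SqE₆_ne_zero).mp hfin S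
  refine ⟨c, fun τ => ?_⟩
  have := congrArg (fun f : ModularForm 𝒮ℒ ((14 : ℕ) : ℤ) => f τ) hc
  simp only [_root_.smul_apply, smul_eq_mul, E₄SqE₆_apply] at this
  rw [this, hS, ModularForm.mcast_apply, serreDerivativeForm_apply]
  norm_num

theorem serreDerivative_E₄Cube (τ : ℍ) :
    serreDerivative 12 (E₄Cube : ℍ → ℂ) τ = D jFun τ * Δ τ := by
  have hfun : (E₄Cube : ℍ → ℂ) = jFun * (Δ : ℍ → ℂ) := by
    funext τ
    rw [E₄Cube_apply, Pi.mul_apply, jFun_mul_discriminant]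
  rw [serreDerivative_apply, hfun, normalizedDerivOfComplex_mul _ _ mdiff_jFun mdiff_discriminant]
  simp only [Pi.add_apply, Pi.mul_apply, D_discriminant]
  ring

/-- **Key identity**: `D j = c E₄² E₆ / Δ`. -/
theorem exists_D_jFun :
    ∃ c : ℂ, c ≠ 0 ∧ ∀ τ : ℍ, D jFun τ =
      c * (ModularForm.E₄ τ ^ 2 * ModularForm.E₆ τ) / Δ τ := by
  obtain ⟨c, hc⟩ := exists_serreDerivative_E₄Cube
  have key : ∀ τ : ℍ, D jFun τ = c * (ModularForm.E₄ τ ^ 2 * ModularForm.E₆ τ) / Δ τ := by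
    intro τ
    rw [eq_div_iff (discriminant_ne_zero τ), ← serreDerivative_E₄Cube, hc]
  refine ⟨c, ?_, key⟩
  rintro rfl
  -- `D j = 0` so `j` is constant, contradicting surjectivity
  have hD : ∀ τ : ℍ, deriv (jFun ∘ ofComplex) (τ : ℂ) = 0 := by
    intro τ
    have := key τ
    rw [zero_mul, zero_div, normalizedDerivOfComplex] at this
    have hpi : ((2 * Real.pi * Complex.I : ℂ))⁻¹ ≠ 0 := by
      simp [Real.pi_ne_zero]
    exact (mul_eq_zero.mp this).resolve_left hpi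
  have hdiff : DifferentiableOn ℂ (jFun ∘ ofComplex) upperHalfPlaneSet :=
    UpperHalfPlane.mdifferentiable_iff.mp mdiff_jFun
  have hconst : ∀ x ∈ upperHalfPlaneSet, ∀ y ∈ upperHalfPlaneSet,
      (jFun ∘ ofComplex) x = (jFun ∘ ofComplex) y := fun x hx y hy =>
    isOpen_upperHalfPlaneSet.is_const_of_deriv_eq_zero
      (Convex.isPreconnected (convex_halfSpace_im_gt 0)) hdiff
      (fun z hz => hD ⟨z, hz⟩) hx hy
  obtain ⟨τ₀, h0⟩ := jFun_surjective 0
  obtain ⟨τ₁, h1⟩ := jFun_surjective 1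
  have := hconst τ₀ τ₀.im_pos τ₁ τ₁.im_pos
  simp only [Function.comp_apply, ofComplex_apply, h0, h1] at this
  exact zero_ne_one this

end Fermat.Agent.S24Lib
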