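import Mathlib
import Fermat.Agent.Lib.S24.JDeriv
import Fermat.Agent.Lib.S24.JOrdDef

/-!
# Orders of vanishing of `j` (S24, AN3)

`j - j(τ₀)` has order `1` at `τ₀` unless `j(τ₀) ∈ {0, 1728}`; `j` has order `3` at `ρ` and
`j - 1728` has order `2` at `i`.
-/

set_option autoImplicit false

namespace Fermat.Agent.S24Lib

open UpperHalfPlane ModularForm Matrix MatrixGroups Filter Topology Derivative
open scoped ModularForm Manifold

local notation "Δ" => ModularForm.discriminant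

theorem S_smul_I : ModularGroup.S • UpperHalfPlane.I = UpperHalfPlane.I := by
  rw [UpperHalfPlane.modular_S_smul]
  ext
  simp

theorem E₆_I : ModularForm.E₆ UpperHalfPlane.I = 0 := by
  have h := E₆_smul ModularGroup.S UpperHalfPlane.I
  rw [S_smul_I, ModularGroup.denom_S] at h
  have h6 : ((UpperHalfPlane.I : ℍ) : ℂ) ^ (6 : ℤ) = -1 := by
    rw [UpperHalfPlane.coe_I]
    have : (6 : ℤ) = ((6 : ℕ) : ℤ) := rfl
    rw [this, zpow_natCast]
    have : Complex.I ^ 6 = (Complex.I ^ 2) ^ 3 := by ring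
    rw [this, Complex.I_sq]; norm_num
  rw [h6] at h
  have : (2 : ℂ) * ModularForm.E₆ UpperHalfPlane.I = 0 := by linear_combination h
  simpa using this

theorem jFun_I : jFun UpperHalfPlane.I = 1728 := (jFun_eq_1728_iff _).mpr E₆_I

theorem coe_ellRho : (ellRho : ℂ) = ⟨-1/2, Real.sqrt 3 / 2⟩ := rfl

theorem ellRho_sq : (ellRho : ℂ) ^ 2 + (ellRho : ℂ) + 1 = 0 := by
  rw [coe_ellRho]
  have h3 : Real.sqrt 3 * Real.sqrt 3 = 3 := Real.mul_self_sqrt (by norm_num)
  apply Complex.ext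
  · simp only [pow_two, Complex.add_re, Complex.mul_re, Complex.one_re, Complex.zero_re]
    nlinarith
  · simp only [pow_two, Complex.add_im, Complex.mul_im, Complex.one_im, Complex.zero_im]
    nlinarith

theorem ST_smul_ellRho : (ModularGroup.S * ModularGroup.T) • ellRho = ellRho := by
  rw [mul_smul, UpperHalfPlane.modular_T_smul, UpperHalfPlane.modular_S_smul]
  ext
  simp only [UpperHalfPlane.coe_vadd]
  have h := ellRho_sq
  have hne : (-(((1 : ℝ) : ℂ) + (ellRho : ℂ))) ≠ 0 := by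
    intro h0
    have : (ellRho : ℂ) = -1 := by
      push_cast at h0
      linear_combination -h0
    rw [this] at h
    norm_num at h
  rw [inv_eq_iff_eq_inv]
  refine eq_inv_of_mul_eq_one_left ?_
  push_cast
  linear_combination -h

theorem denom_ST_ellRho :
    denom ((ModularGroup.S * ModularGroup.T : SL(2, ℤ)) : GL (Fin 2) ℝ) ellRho =
      (ellRho : ℂ) + 1 := by
  have h10 : (ModularGroup.S * ModularGroup.T : SL(2, ℤ)) 1 0 = 1 := by decide
  have h11 : (ModularGroup.S * ModularGroup.T : SL(2, ℤ)) 1 1 = 1 := by decide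
  rw [denom]
  simp only [Matrix.SpecialLinearGroup.coe_GL_coe_matrix, Matrix.SpecialLinearGroup.map_apply_coe,
    RingHom.mapMatrix_apply, Int.coe_castRingHom, Matrix.map_apply]
  rw [h10, h11]
  simp

theorem E₄_ellRho : ModularForm.E₄ ellRho = 0 := by
  have h := E₄_smul (ModularGroup.S * ModularGroup.T) ellRho
  rw [ST_smul_ellRho, denom_ST_ellRho] at h
  have hsq := ellRho_sq
  have h4 : ((ellRho : ℂ) + 1) ^ (4 : ℤ) = -(ellRho : ℂ) - 1 := by
    have : (4 : ℤ) = ((4 : ℕ) : ℤ) := rfl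
    rw [this, zpow_natCast]
    have e1 : ((ellRho : ℂ) + 1) ^ 2 = (ellRho : ℂ) := by linear_combination hsq
    have e2 : ((ellRho : ℂ) + 1) ^ 4 = (ellRho : ℂ) ^ 2 := by
      rw [show (4 : ℕ) = 2 * 2 from rfl, pow_mul, e1]
    rw [e2]
    linear_combination hsq
  rw [h4] at h
  have hne : (2 : ℂ) + (ellRho : ℂ) ≠ 0 := by
    intro h0
    have : (ellRho : ℂ) = -2 := by linear_combination h0
    rw [this] at hsq
    norm_num at hsq
  have : ((2 : ℂ) + (ellRho : ℂ)) * ModularForm.E₄ ellRho = 0 := by linear_combination h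
  exact (mul_eq_zero.mp this).resolve_left hne

theorem jFun_ellRho : jFun ellRho = 0 := (jFun_eq_zero_iff _).mpr E₄_ellRho

theorem E₄_I_ne_zero : ModularForm.E₄ UpperHalfPlane.I ≠ 0 := by
  intro h
  have := discriminant_eq_E₄_cube_sub_E₆_sq UpperHalfPlane.I
  rw [h, E₆_I] at this
  exact discriminant_ne_zero _ (by rw [this]; norm_num)

theorem E₆_ellRho_ne_zero : ModularForm.E₆ ellRho ≠ 0 := by
  intro h
  have := discriminant_eq_E₄_cube_sub_E₆_sq ellRho
  rw [h, E₄_ellRho] at this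
  exact discriminant_ne_zero _ (by rw [this]; norm_num)

/-- analyticity of `f ∘ ofComplex` at points of `ℍ` for holomorphic `f` -/
theorem analyticAt_comp_ofComplex {f : ℍ → ℂ} (hf : MDiff f) (τ : ℍ) :
    AnalyticAt ℂ (f ∘ ofComplex) (τ : ℂ) :=
  (UpperHalfPlane.mdifferentiable_iff.mp hf).analyticAt
    (isOpen_upperHalfPlaneSet.mem_nhds τ.im_pos)

theorem analyticOnNhd_comp_ofComplex {f : ℍ → ℂ} (hf : MDiff f) :
    AnalyticOnNhd ℂ (f ∘ ofComplex) upperHalfPlaneSet :=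
  (UpperHalfPlane.mdifferentiable_iff.mp hf).analyticOnNhd isOpen_upperHalfPlaneSet

/-- a holomorphic function on `ℍ` not vanishing at some point has finite order everywhere -/
theorem analyticOrderAt_comp_ofComplex_ne_top {f : ℍ → ℂ} (hf : MDiff f) {τ₁ : ℍ}
    (h1 : f τ₁ ≠ 0) (τ : ℍ) : analyticOrderAt (f ∘ ofComplex) (τ : ℂ) ≠ ⊤ := by
  refine AnalyticOnNhd.analyticOrderAt_ne_top_of_isPreconnected (analyticOnNhd_comp_ofComplex hf)
    (Convex.isPreconnected (convex_halfSpace_im_gt 0)) τ₁.im_pos τ.im_pos ?_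
  have : analyticOrderAt (f ∘ ofComplex) (τ₁ : ℂ) = 0 := by
    rw [analyticOrderAt_eq_zero]
    right
    simpa using h1
  rw [this]
  exact ENat.zero_ne_top

/-- the derivative of `j ∘ ofComplex` near a point of `ℍ` -/
theorem exists_deriv_jFun :
    ∃ κ : ℂ, κ ≠ 0 ∧ ∀ τ : ℍ, deriv (jFun ∘ ofComplex) =ᶠ[𝓝 (τ : ℂ)]
      fun z => κ * (((ModularForm.E₄ : ℍ → ℂ) ∘ ofComplex) z ^ 2 *
        ((ModularForm.E₆ : ℍ → ℂ) ∘ ofComplex) z) * (((Δ : ℍ → ℂ) ∘ ofComplex) z)⁻¹ := by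
  obtain ⟨c, hc, h⟩ := exists_D_jFun
  have hpi : (2 * Real.pi * Complex.I : ℂ) ≠ 0 := by
    simp [Real.pi_ne_zero]
  refine ⟨2 * Real.pi * Complex.I * c, mul_ne_zero hpi hc, fun τ => ?_⟩
  filter_upwards [isOpen_upperHalfPlaneSet.mem_nhds τ.im_pos] with z hz
  have := h ⟨z, hz⟩
  rw [normalizedDerivOfComplex] at this
  simp only [Function.comp_apply, ofComplex_apply_of_im_pos hz]
  have h2 : deriv (jFun ∘ ofComplex) z = (2 * Real.pi * Complex.I) *
      (c * (ModularForm.E₄ ⟨z, hz⟩ ^ 2 * ModularForm.E₆ ⟨z, hz⟩) / Δ ⟨z, hz⟩) := by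
    rw [← this]
    field_simp
  rw [h2]
  ring

/-- `j` is unramified away from the zeros of `E₄ E₆` -/
theorem ordAt_jFun_sub_of_ne (τ₀ : ℍ) (h0 : jFun τ₀ ≠ 0) (h1 : jFun τ₀ ≠ 1728) :
    ordAt (fun τ => jFun τ - jFun τ₀) τ₀ = 1 := by
  obtain ⟨κ, hκ, hd⟩ := exists_deriv_jFun
  have hfun : ((fun τ => jFun τ - jFun τ₀) ∘ ofComplex) =
      fun z => (jFun ∘ ofComplex) z - (jFun ∘ ofComplex) (τ₀ : ℂ) := by
    funext z
    simp
  rw [ordAt, hfun]
  refine (analyticAt_comp_ofComplex mdiff_jFun τ₀).analyticOrderAt_sub_eq_one_of_deriv_ne_zero ?_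
  rw [(hd τ₀).eq_of_nhds]
  simp only [Function.comp_apply, ofComplex_apply]
  have h4 : ModularForm.E₄ τ₀ ≠ 0 := fun h => h0 ((jFun_eq_zero_iff τ₀).mpr h)
  have h6 : ModularForm.E₆ τ₀ ≠ 0 := fun h => h1 ((jFun_eq_1728_iff τ₀).mpr h)
  exact mul_ne_zero (mul_ne_zero hκ (mul_ne_zero (pow_ne_zero 2 h4) h6))
    (inv_ne_zero (discriminant_ne_zero τ₀))

/-- order of a nonvanishing analytic function -/
theorem analyticOrderAt_eq_zero_of_ne {g : ℂ → ℂ} {z : ℂ} (h : g z ≠ 0) :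
    analyticOrderAt g z = 0 := analyticOrderAt_eq_zero.mpr (Or.inr h)

theorem ordAt_jFun_ellRho : ordAt jFun ellRho = 3 := by
  obtain ⟨κ, hκ, hd⟩ := exists_deriv_jFun
  set e4 : ℂ → ℂ := (ModularForm.E₄ : ℍ → ℂ) ∘ ofComplex with he4
  set e6 : ℂ → ℂ := (ModularForm.E₆ : ℍ → ℂ) ∘ ofComplex with he6
  set dl : ℂ → ℂ := (Δ : ℍ → ℂ) ∘ ofComplex with hdl
  set ρ : ℂ := (ellRho : ℂ) with hρ
  have a4 : AnalyticAt ℂ e4 ρ := analyticAt_comp_ofComplex mdiff_E₄ ellRho
  have a6 : AnalyticAt ℂ e6 ρ := analyticAt_comp_ofComplex mdiff_E₆ ellRho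
  have ad : AnalyticAt ℂ dl ρ := analyticAt_comp_ofComplex mdiff_discriminant ellRho
  have aJ : AnalyticAt ℂ (jFun ∘ ofComplex) ρ := analyticAt_comp_ofComplex mdiff_jFun ellRho
  have hdl0 : dl ρ ≠ 0 := by
    simp only [hdl, Function.comp_apply, hρ, ofComplex_apply]
    exact discriminant_ne_zero _
  have he60 : e6 ρ ≠ 0 := by
    simp only [he6, Function.comp_apply, hρ, ofComplex_apply]
    exact E₆_ellRho_ne_zero
  have adi : AnalyticAt ℂ (dl⁻¹) ρ := ad.inv hdl0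
  have odi : analyticOrderAt (dl⁻¹) ρ = 0 :=
    analyticOrderAt_eq_zero_of_ne (by simpa using hdl0)
  have o6 : analyticOrderAt e6 ρ = 0 := analyticOrderAt_eq_zero_of_ne he60
  have hn : analyticOrderAt e4 ρ ≠ ⊤ :=
    analyticOrderAt_comp_ofComplex_ne_top mdiff_E₄ E₄_I_ne_zero ellRho
  -- order of `j`
  have hJ : (jFun ∘ ofComplex) = e4 ^ 3 * dl⁻¹ := by
    funext z
    simp [jFun, he4, hdl, div_eq_mul_inv]
  have oJ : analyticOrderAt (jFun ∘ ofComplex) ρ = 3 • analyticOrderAt e4 ρ := by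
    rw [hJ, analyticOrderAt_mul (a4.pow 3) adi, analyticOrderAt_pow a4, odi, add_zero]
  -- order of `j'`
  have hJ' : deriv (jFun ∘ ofComplex) =ᶠ[𝓝 ρ] (fun _ => κ) * (e4 ^ 2 * e6) * dl⁻¹ := by
    filter_upwards [hd ellRho] with z hz
    rw [hz]
    simp
  have oJ' : analyticOrderAt (deriv (jFun ∘ ofComplex)) ρ = 2 • analyticOrderAt e4 ρ := by
    rw [analyticOrderAt_congr hJ', analyticOrderAt_mul (analyticAt_const.mul ((a4.pow 2).mul a6)) adi,
      analyticOrderAt_mul analyticAt_const ((a4.pow 2).mul a6),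
      analyticOrderAt_mul (a4.pow 2) a6, analyticOrderAt_pow a4, odi, o6,
      analyticOrderAt_eq_zero_of_ne (g := fun _ => κ) hκ]
    simp
  have hJρ : (jFun ∘ ofComplex) ρ = 0 := by
    simp only [Function.comp_apply, hρ, ofComplex_apply]
    exact jFun_ellRho
  have key := aJ.analyticOrderAt_deriv_add_one
  rw [hJρ] at key
  simp only [sub_zero] at key
  rw [oJ', oJ] at key
  rw [ordAt, oJ]
  lift analyticOrderAt e4 ρ to ℕ using hn with n hn'
  have : 2 * n + 1 = 3 * n := by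
    have := key
    simp only [nsmul_eq_mul] at this
    exact_mod_cast this
  have hn1 : n = 1 := by omega
  rw [hn1]
  rfl

theorem ordAt_jFun_sub_I : ordAt (fun τ => jFun τ - 1728) UpperHalfPlane.I = 2 := by
  obtain ⟨κ, hκ, hd⟩ := exists_deriv_jFun
  set e4 : ℂ → ℂ := (ModularForm.E₄ : ℍ → ℂ) ∘ ofComplex with he4
  set e6 : ℂ → ℂ := (ModularForm.E₆ : ℍ → ℂ) ∘ ofComplex with he6
  set dl : ℂ → ℂ := (Δ : ℍ → ℂ) ∘ ofComplex with hdl
  set ρ : ℂ := ((UpperHalfPlane.I : ℍ) : ℂ) with hρ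
  have a4 : AnalyticAt ℂ e4 ρ := analyticAt_comp_ofComplex mdiff_E₄ _
  have a6 : AnalyticAt ℂ e6 ρ := analyticAt_comp_ofComplex mdiff_E₆ _
  have ad : AnalyticAt ℂ dl ρ := analyticAt_comp_ofComplex mdiff_discriminant _
  have aJ : AnalyticAt ℂ (jFun ∘ ofComplex) ρ := analyticAt_comp_ofComplex mdiff_jFun _
  have hdl0 : dl ρ ≠ 0 := by
    simp only [hdl, Function.comp_apply, hρ, ofComplex_apply]
    exact discriminant_ne_zero _
  have he40 : e4 ρ ≠ 0 := by
    simp only [he4, Function.comp_apply, hρ, ofComplex_apply]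
    exact E₄_I_ne_zero
  have adi : AnalyticAt ℂ (dl⁻¹) ρ := ad.inv hdl0
  have odi : analyticOrderAt (dl⁻¹) ρ = 0 :=
    analyticOrderAt_eq_zero_of_ne (by simpa using hdl0)
  have o4 : analyticOrderAt e4 ρ = 0 := analyticOrderAt_eq_zero_of_ne he40
  have hn : analyticOrderAt e6 ρ ≠ ⊤ :=
    analyticOrderAt_comp_ofComplex_ne_top mdiff_E₆ E₆_ellRho_ne_zero _
  -- order of `j - 1728`
  have hJ : ((fun τ => jFun τ - 1728) ∘ ofComplex) = e6 ^ 2 * dl⁻¹ := by
    funext z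
    simp [jFun_sub_1728, he6, hdl, div_eq_mul_inv]
  have oJ : analyticOrderAt ((fun τ => jFun τ - 1728) ∘ ofComplex) ρ =
      2 • analyticOrderAt e6 ρ := by
    rw [hJ, analyticOrderAt_mul (a6.pow 2) adi, analyticOrderAt_pow a6, odi, add_zero]
  -- order of `j'`
  have hJ' : deriv (jFun ∘ ofComplex) =ᶠ[𝓝 ρ] (fun _ => κ) * (e4 ^ 2 * e6) * dl⁻¹ := by
    filter_upwards [hd UpperHalfPlane.I] with z hz
    rw [hz]
    simp
  have oJ' : analyticOrderAt (deriv (jFun ∘ ofComplex)) ρ = analyticOrderAt e6 ρ := by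
    rw [analyticOrderAt_congr hJ', analyticOrderAt_mul (analyticAt_const.mul ((a4.pow 2).mul a6)) adi,
      analyticOrderAt_mul analyticAt_const ((a4.pow 2).mul a6),
      analyticOrderAt_mul (a4.pow 2) a6, analyticOrderAt_pow a4, odi, o4,
      analyticOrderAt_eq_zero_of_ne (g := fun _ => κ) hκ]
    simp
  have hJρ : (jFun ∘ ofComplex) ρ = 1728 := by
    simp only [Function.comp_apply, hρ, ofComplex_apply]
    exact jFun_I
  have key := aJ.analyticOrderAt_deriv_add_one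
  rw [hJρ] at key
  have hfun : (fun x => (jFun ∘ ofComplex) x - 1728) = ((fun τ => jFun τ - 1728) ∘ ofComplex) := by
    funext z
    simp
  rw [hfun, oJ', oJ] at key
  rw [ordAt, oJ]
  lift analyticOrderAt e6 ρ to ℕ using hn with n hn'
  have : n + 1 = 2 * n := by
    have := key
    simp only [nsmul_eq_mul] at this
    exact_mod_cast this
  have hn1 : n = 1 := by omega
  rw [hn1]
  rfl

end Fermat.Agent.S24Lib
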