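/-
S24 (project P1a), part MOD / GAL: two abstract Galois-theory lemmas
(statements as in helper3's stub `S24stubs/MOD/GaloisIndex.lean`).
-/
import Mathlib
import Fermat.Agent.Lib.Curve.GaloisPlaces

set_option autoImplicit false
set_option linter.unusedSectionVars false

namespace Fermat.Agent.S24Lib

open IntermediateField Fermat.Agent.Curve

variable {K : Type*} [Field K] [IsAlgClosed K] [CharZero K]
variable {L : Type*} [Field L] [Algebra K L]
variable {Γ : Type*} [Group Γ]

/-- `Γ` acts on `L/K` through `ρ` with finite image.  If `S ⊆ L` is fixed by `H`, every `γ` fixing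
`S` pointwise lies in `H`, and `K(S)` contains the fixed field of the whole image, then
`K(S)` is the fixed field of `ρ(H)`.  (Galois correspondence for `L / L^{ρ(Γ)}`.) -/
theorem adjoin_eq_fixedField_map (ρ : Γ →* (L ≃ₐ[K] L)) (hfin : Finite ρ.range)
    (H : Subgroup Γ) (S : Set L)
    (hS : ∀ γ ∈ H, ∀ s ∈ S, ρ γ s = s)
    (hH : ∀ γ : Γ, (∀ s ∈ S, ρ γ s = s) → γ ∈ H)
    (hfix : IntermediateField.fixedField ρ.range ≤ IntermediateField.adjoin K S) :
    IntermediateField.adjoin K S = IntermediateField.fixedField (H.map ρ) := by
  apply le_antisymm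
  · rw [IntermediateField.adjoin_le_iff]
    intro s hs
    rintro ⟨g, γ, hγ, rfl⟩
    exact hS γ hγ s hs
  · intro x hx
    have : IsGaloisGroup ρ.range (IntermediateField.fixedField ρ.range) L :=
      GaloisAux.isGaloisGroup_fixedField ρ.range
    have key := IsGaloisGroup.fixedPoints_fixingSubgroup ρ.range
      (IntermediateField.fixedField ρ.range) L (IntermediateField.extendScalars hfix)
    have hx' : x ∈ FixedPoints.intermediateField (F := IntermediateField.fixedField ρ.range)
        (fixingSubgroup ρ.range
          ((IntermediateField.extendScalars hfix :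
            IntermediateField (IntermediateField.fixedField ρ.range) L) : Set L)) := by
      rintro ⟨⟨g, γ, rfl⟩, hg⟩
      show ρ γ x = x
      have hγS : ∀ s ∈ S, ρ γ s = s := by
        intro s hs
        have := (_root_.mem_fixingSubgroup_iff _).mp hg s
          (show s ∈ IntermediateField.adjoin K S from IntermediateField.subset_adjoin K S hs)
        exact this
      exact hx ⟨ρ γ, γ, hH γ hγS, rfl⟩
    rw [key] at hx'
    exact hx'

/-- the degree of the fixed field of `ρ(H)` over `K(y) = L^{ρ(Γ)}` is the index of `H`
(for `ker ρ ≤ H`) -/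
theorem finrank_adjoin_fixedElt (ρ : Γ →* (L ≃ₐ[K] L)) (hfin : Finite ρ.range)
    (H : Subgroup Γ) (hker : ρ.ker ≤ H) (y : L)
    (hfix : IntermediateField.fixedField ρ.range = IntermediateField.adjoin K {y})
    (hy : ∀ g ∈ H.map ρ, g y = y) :
    Module.finrank (IntermediateField.adjoin K {fixedElt (H.map ρ) y hy})
      (IntermediateField.fixedField (H.map ρ)) = H.index := by
  set G := ρ.range with hG
  set H' := H.map ρ with hH'
  set B := IntermediateField.fixedField H' with hB
  set E0 := IntermediateField.fixedField G with hE0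
  have hle : H' ≤ G := Subgroup.map_le_range ρ H
  have : Finite H' :=
    Finite.of_injective (Subgroup.inclusion hle) (Subgroup.inclusion_injective _)
  have hE0B : E0 ≤ B := fun x hx g => hx ⟨g.1, hle g.2⟩
  -- the subfield `K(y)` of `B` is the comap of `E0`
  have hcomap : IntermediateField.adjoin K {fixedElt H' y hy} = E0.comap B.val := by
    have h1 : (IntermediateField.adjoin K {fixedElt H' y hy}).map B.val = E0 := by
      rw [IntermediateField.adjoin_map, Set.image_singleton, hfix]
      rfl
    rw [← h1, IntermediateField.comap_map]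
  rw [hcomap, IntermediateField.finrank_comap, IntermediateField.fieldRange_val]
  -- degrees
  have h1 := IntermediateField.relfinrank_mul_finrank_top hE0B
  rw [← GaloisAux.card_eq_finrank_fixedField H', ← GaloisAux.card_eq_finrank_fixedField G] at h1
  -- group theory
  have h2 : Nat.card (H'.subgroupOf G) * (H'.subgroupOf G).index = Nat.card G :=
    Subgroup.card_mul_index _
  have h3 : Nat.card (H'.subgroupOf G) = Nat.card H' :=
    Nat.card_congr (Subgroup.subgroupOfEquivOfLe hle).toEquiv
  have h4 : H'.subgroupOf G = H.map ρ.rangeRestrict := by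
    ext ⟨g, hg⟩
    rw [Subgroup.mem_subgroupOf, Subgroup.mem_map]
    constructor
    · rintro ⟨γ, hγ, hγg⟩
      exact ⟨γ, hγ, Subtype.ext hγg⟩
    · rintro ⟨γ, hγ, hγg⟩
      exact ⟨γ, hγ, congrArg Subtype.val hγg⟩
  have h5 : (H.map ρ.rangeRestrict).index = H.index :=
    Subgroup.index_map_eq H ρ.rangeRestrict_surjective (by rw [MonoidHom.ker_rangeRestrict]; exact hker)
  rw [h4, h5] at h2
  rw [h4] at h3
  rw [h3] at h2
  have hpos : 0 < Nat.card H' := Nat.card_pos
  have : IntermediateField.relfinrank E0 B * Nat.card H' = H.index * Nat.card H' := by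
    rw [h1, ← h2, mul_comm]
  exact Nat.eq_of_mul_eq_mul_right hpos this

end Fermat.Agent.S24Lib
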