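import Mathlib
import Fermat.Agent.Lib.S22.UpperTriangular
import Fermat.Agent.Lib.S24.JFun
import Fermat.Agent.Lib.S24.JExpansion

/-!
# Distinctness of the conjugates of `j(Nτ)` (P1 / AN-31, helper9)

* `upper_ratio_of_jFun_comp_eq`: if `j((aτ+b)/d) = j((a'τ+b')/d')` for all `τ` then `a d' = a' d`
  (growth at `i∞`);
* `mem_Gamma0_of_jFun_comp_eq`: if `j(N·gτ) = j(Nτ)` for all `τ` then `g ∈ Γ₀(N)`.
-/

set_option autoImplicit false

namespace Fermat.Agent.S24Lib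

open UpperHalfPlane ModularForm Matrix MatrixGroups Filter Topology
open scoped ModularForm Manifold
open Fermat.Agent.S22Lib (intGL)

/-- imaginary part of `(aτ+b)/d` -/
theorem im_intGL_upper_smul (a b d : ℤ) (hd : 0 < d)
    (hdet : 0 < (!![a, b; 0, d] : Matrix (Fin 2) (Fin 2) ℤ).det) (τ : ℍ) :
    (intGL !![a, b; 0, d] hdet • τ : ℍ).im = (a : ℝ) / (d : ℝ) * τ.im := by
  have hdR : (d : ℝ) ≠ 0 := by exact_mod_cast hd.ne'
  have h := Fermat.Agent.S22Lib.coe_intGL_upper_smul a b d hdet τ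
  have h2 : (intGL !![a, b; 0, d] hdet • τ : ℍ).im
      = (((a : ℂ) * (τ : ℂ) + (b : ℂ)) / (d : ℂ)).im := by
    rw [← h]; rfl
  rw [h2]
  have h3 : ((a : ℂ) * (τ : ℂ) + (b : ℂ)) / (d : ℂ)
      = (((a : ℝ) / (d : ℝ) : ℝ) : ℂ) * (τ : ℂ) + (((b : ℝ) / (d : ℝ) : ℝ) : ℂ) := by
    have hdC : (d : ℂ) ≠ 0 := by exact_mod_cast hd.ne'
    push_cast
    field_simp
  rw [h3, Complex.add_im, Complex.im_ofReal_mul, Complex.ofReal_im, add_zero, UpperHalfPlane.coe_im]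

theorem tendsto_intGL_upper_smul_atImInfty (a b d : ℤ) (ha : 0 < a) (hd : 0 < d)
    (hdet : 0 < (!![a, b; 0, d] : Matrix (Fin 2) (Fin 2) ℤ).det) :
    Tendsto (fun τ : ℍ => intGL !![a, b; 0, d] hdet • τ) atImInfty atImInfty := by
  rw [atImInfty, tendsto_comap_iff]
  have h : (im ∘ fun τ : ℍ => intGL !![a, b; 0, d] hdet • τ)
      = fun τ : ℍ => (a : ℝ) / (d : ℝ) * τ.im := funext (im_intGL_upper_smul a b d hd hdet)
  rw [h]
  have hpos : (0 : ℝ) < (a : ℝ) / (d : ℝ) := by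
    apply div_pos <;> exact_mod_cast (by assumption)
  exact tendsto_comap.const_mul_atTop hpos

/-- `j((aτ+b)/d) · q((aτ+b)/d) → 1` at `i∞` -/
theorem tendsto_jFun_comp_upper_mul_qParam (a b d : ℤ) (ha : 0 < a) (hd : 0 < d)
    (hdet : 0 < (!![a, b; 0, d] : Matrix (Fin 2) (Fin 2) ℤ).det) :
    Tendsto (fun τ : ℍ => jFun (intGL !![a, b; 0, d] hdet • τ) *
      Function.Periodic.qParam 1 ((intGL !![a, b; 0, d] hdet • τ : ℍ) : ℂ)) atImInfty (𝓝 1) :=
  tendsto_jFun_mul_qParam.comp (tendsto_intGL_upper_smul_atImInfty a b d ha hd hdet)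

theorem norm_qParam_intGL_upper_smul (a b d : ℤ) (hd : 0 < d)
    (hdet : 0 < (!![a, b; 0, d] : Matrix (Fin 2) (Fin 2) ℤ).det) (τ : ℍ) :
    ‖Function.Periodic.qParam 1 ((intGL !![a, b; 0, d] hdet • τ : ℍ) : ℂ)‖
      = Real.exp (-2 * Real.pi * ((a : ℝ) / (d : ℝ)) * τ.im) := by
  rw [Function.Periodic.norm_qParam, div_one]
  have : (((intGL !![a, b; 0, d] hdet • τ : ℍ) : ℂ)).im = (a : ℝ) / (d : ℝ) * τ.im :=
    im_intGL_upper_smul a b d hd hdet τ
  rw [this]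
  ring_nf

/-- an exponential `exp (c y)` tends to `1` at `+∞` only if `c = 0` -/
theorem eq_zero_of_tendsto_exp_mul {c : ℝ}
    (h : Tendsto (fun y : ℝ => Real.exp (c * y)) atTop (𝓝 1)) : c = 0 := by
  rcases lt_trichotomy c 0 with hc | hc | hc
  · exfalso
    have h1 : Tendsto (fun y : ℝ => Real.exp (c * y)) atTop (𝓝 0) :=
      Real.tendsto_exp_atBot.comp (tendsto_id.const_mul_atTop_of_neg hc)
    exact zero_ne_one (tendsto_nhds_unique h1 h)
  · exact hc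
  · exfalso
    have h1 : Tendsto (fun y : ℝ => Real.exp (c * y)) atTop atTop :=
      Real.tendsto_exp_atTop.comp (tendsto_id.const_mul_atTop hc)
    exact not_tendsto_nhds_of_tendsto_atTop h1 1 h

/-- **growth comparison**: `j((aτ+b)/d) = j((a'τ+b')/d')` for all `τ` forces `a/d = a'/d'` -/
theorem upper_ratio_of_jFun_comp_eq (a b d a' b' d' : ℤ) (ha : 0 < a) (hd : 0 < d)
    (ha' : 0 < a') (hd' : 0 < d')
    (hdet : 0 < (!![a, b; 0, d] : Matrix (Fin 2) (Fin 2) ℤ).det)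
    (hdet' : 0 < (!![a', b'; 0, d'] : Matrix (Fin 2) (Fin 2) ℤ).det)
    (h : ∀ τ : ℍ, jFun (intGL !![a, b; 0, d] hdet • τ) = jFun (intGL !![a', b'; 0, d'] hdet' • τ)) :
    a * d' = a' * d := by
  have h1 := tendsto_jFun_comp_upper_mul_qParam a b d ha hd hdet
  have h2 := tendsto_jFun_comp_upper_mul_qParam a' b' d' ha' hd' hdet'
  -- the quotient of the two tends to `1`
  have h3 := (h1.div h2 one_ne_zero).norm
  rw [div_one, norm_one] at h3
  set c : ℝ := -2 * Real.pi * ((a : ℝ) / (d : ℝ) - (a' : ℝ) / (d' : ℝ)) with hc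
  have h4 : Tendsto (fun τ : ℍ => Real.exp (c * τ.im)) atImInfty (𝓝 1) := by
    refine h3.congr' ?_
    have hne : ∀ᶠ τ : ℍ in atImInfty, jFun (intGL !![a', b'; 0, d'] hdet' • τ) *
        Function.Periodic.qParam 1 ((intGL !![a', b'; 0, d'] hdet' • τ : ℍ) : ℂ) ≠ 0 :=
      h2.eventually_ne one_ne_zero
    filter_upwards [hne] with τ hτ
    have hJ : jFun (intGL !![a', b'; 0, d'] hdet' • τ) ≠ 0 := left_ne_zero_of_mul hτ
    have hq : Function.Periodic.qParam 1 ((intGL !![a', b'; 0, d'] hdet' • τ : ℍ) : ℂ) ≠ 0 :=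
      right_ne_zero_of_mul hτ
    rw [Pi.div_apply, h τ, mul_div_mul_left _ _ hJ, norm_div,
      norm_qParam_intGL_upper_smul a b d hd hdet τ,
      norm_qParam_intGL_upper_smul a' b' d' hd' hdet' τ, ← Real.exp_sub, hc]
    congr 1
    ring
  have h5 : Tendsto (fun y : ℝ => Real.exp (c * y)) atTop (𝓝 1) := by
    have hrange : Set.range UpperHalfPlane.im ∈ (atTop : Filter ℝ) := by
      refine mem_of_superset (Ioi_mem_atTop 0) ?_
      intro y hy
      exact ⟨⟨⟨0, y⟩, hy⟩, rfl⟩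
    exact (tendsto_comap'_iff (m := fun y : ℝ => Real.exp (c * y)) hrange).mp h4
  have hc0 := eq_zero_of_tendsto_exp_mul h5
  have hpi : (-2 * Real.pi) ≠ 0 := by
    have := Real.pi_pos
    nlinarith
  rw [hc, mul_eq_zero, or_iff_right hpi, sub_eq_zero] at hc0
  have hdR : (d : ℝ) ≠ 0 := by exact_mod_cast hd.ne'
  have hd'R : (d' : ℝ) ≠ 0 := by exact_mod_cast hd'.ne'
  rw [div_eq_div_iff hdR hd'R] at hc0
  exact_mod_cast hc0

theorem intGL_congr {A B : Matrix (Fin 2) (Fin 2) ℤ} (hAB : A = B) (hA : 0 < A.det)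
    (hB : 0 < B.det) : intGL A hA = intGL B hB := by
  subst hAB
  rfl

/-- **distinctness** (AN-31): if `j(N·gτ) = j(Nτ)` for all `τ ∈ ℍ` then `g ∈ Γ₀(N)`. -/
theorem mem_Gamma0_of_jFun_comp_eq (N : ℕ) (hN : 0 < N)
    (hdet : 0 < (!![(N : ℤ), 0; 0, 1] : Matrix (Fin 2) (Fin 2) ℤ).det) (g : SL(2, ℤ))
    (h : ∀ τ : ℍ, jFun (intGL !![(N : ℤ), 0; 0, 1] hdet • (g • τ))
      = jFun (intGL !![(N : ℤ), 0; 0, 1] hdet • τ)) :
    g ∈ CongruenceSubgroup.Gamma0 N := by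
  have hNZ : (0 : ℤ) < (N : ℤ) := by exact_mod_cast hN
  set A : Matrix (Fin 2) (Fin 2) ℤ := !![(N : ℤ), 0; 0, 1] with hA
  have hgdet : 0 < (g : Matrix (Fin 2) (Fin 2) ℤ).det := by
    rw [g.det_coe]; exact one_pos
  have hMdet : 0 < (A * (g : Matrix (Fin 2) (Fin 2) ℤ)).det := by
    rw [Matrix.det_mul, g.det_coe, mul_one]; exact hdet
  obtain ⟨g', a, b, d, ha, hd, hM⟩ :=
    Fermat.Agent.S22Lib.exists_SL2Z_mul_eq_upper (A * (g : Matrix (Fin 2) (Fin 2) ℤ)) hMdet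
  have hUdet : 0 < (!![a, b; 0, d] : Matrix (Fin 2) (Fin 2) ℤ).det := by
    rw [Fermat.Agent.S22Lib.upper_det]; exact mul_pos ha hd
  have hg'det : 0 < (g' : Matrix (Fin 2) (Fin 2) ℤ).det := by
    rw [g'.det_coe]; exact one_pos
  have hprod : 0 < ((g' : Matrix (Fin 2) (Fin 2) ℤ) * !![a, b; 0, d]).det := by
    rw [← hM]; exact hMdet
  -- the action of `A * g`
  have hact : ∀ τ : ℍ, intGL A hdet • (g • τ) = g' • (intGL !![a, b; 0, d] hUdet • τ) := by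
    intro τ
    have e1 : ∀ (γ : SL(2, ℤ)) (hγ : 0 < (γ : Matrix (Fin 2) (Fin 2) ℤ).det),
        ((γ : GL (Fin 2) ℝ)) = intGL (γ : Matrix (Fin 2) (Fin 2) ℤ) hγ := by
      intro γ hγ
      apply Units.ext
      rw [Fermat.Agent.S22Lib.intGL_val]
      rfl
    rw [ModularGroup.sl_moeb, ModularGroup.sl_moeb, ← mul_smul, ← mul_smul,
      e1 g hgdet, e1 g' hg'det,
      ← Fermat.Agent.S22Lib.intGL_mul A _ hdet hgdet hMdet,
      ← Fermat.Agent.S22Lib.intGL_mul _ _ hg'det hUdet hprod]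
    congr 1
    exact intGL_congr hM _ _
  have hj : ∀ τ : ℍ, jFun (intGL !![a, b; 0, d] hUdet • τ)
      = jFun (intGL !![(N : ℤ), 0; 0, 1] hdet • τ) := by
    intro τ
    rw [← h τ, hact τ, jFun_smul]
  have hratio := upper_ratio_of_jFun_comp_eq a b d (N : ℤ) 0 1 ha hd hNZ one_pos hUdet hdet hj
  -- determinants
  have hdetM : a * d = (N : ℤ) := by
    have h1 := congrArg Matrix.det hM
    rw [Matrix.det_mul, g.det_coe, mul_one, Matrix.det_mul, g'.det_coe, one_mul,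
      Fermat.Agent.S22Lib.upper_det, Fermat.Agent.S22Lib.upper_det, mul_one] at h1
    exact h1.symm
  have hd1 : d = 1 := by
    rw [mul_one] at hratio
    rw [hratio] at hdetM
    have h2 : d * d = 1 := by
      have : (N : ℤ) * (d * d) = (N : ℤ) * 1 := by rw [mul_one]; linarith
      exact mul_left_cancel₀ hNZ.ne' this
    nlinarith
  -- compare the lower left entries
  have h10 := congrFun (congrFun hM 1) 0
  rw [hA, Matrix.mul_apply, Matrix.mul_apply, Fin.sum_univ_two, Fin.sum_univ_two] at h10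
  simp only [Matrix.of_apply, Matrix.cons_val_zero, Matrix.cons_val_one, Matrix.cons_val',
    Matrix.cons_val_fin_one, zero_mul, one_mul, zero_add, mul_zero, add_zero] at h10
  rw [CongruenceSubgroup.Gamma0_mem, ZMod.intCast_zmod_eq_zero_iff_dvd]
  have ha' : a = (N : ℤ) := by rw [mul_one] at hratio; rw [hratio, hd1, mul_one]
  refine ⟨g' 1 0, ?_⟩
  rw [h10, ha', mul_comm]

theorem diagN_det_pos (N : ℕ) (hN : 0 < N) :
    0 < (!![(N : ℤ), 0; 0, 1] : Matrix (Fin 2) (Fin 2) ℤ).det := by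
  rw [Fermat.Agent.S22Lib.upper_det, mul_one]
  exact_mod_cast hN

/-- converse of `mem_Gamma0_of_jFun_comp_eq`: `τ ↦ j(Nτ)` is `Γ₀(N)`-invariant -/
theorem jFun_comp_eq_of_mem_Gamma0 (N : ℕ)
    (hdet : 0 < (!![(N : ℤ), 0; 0, 1] : Matrix (Fin 2) (Fin 2) ℤ).det) (g : SL(2, ℤ))
    (hg : g ∈ CongruenceSubgroup.Gamma0 N) (τ : ℍ) :
    jFun (intGL !![(N : ℤ), 0; 0, 1] hdet • (g • τ))
      = jFun (intGL !![(N : ℤ), 0; 0, 1] hdet • τ) := by
  rw [CongruenceSubgroup.Gamma0_mem, ZMod.intCast_zmod_eq_zero_iff_dvd] at hg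
  obtain ⟨c, hc⟩ := hg
  set A : Matrix (Fin 2) (Fin 2) ℤ := !![(N : ℤ), 0; 0, 1] with hA
  have hgdet : 0 < (g : Matrix (Fin 2) (Fin 2) ℤ).det := by
    rw [g.det_coe]; exact one_pos
  have hdetg : g 0 0 * g 1 1 - g 0 1 * g 1 0 = 1 := by
    have := g.det_coe
    rwa [Matrix.det_fin_two] at this
  let g'' : SL(2, ℤ) := ⟨!![g 0 0, (N : ℤ) * g 0 1; c, g 1 1], by
    rw [Matrix.det_fin_two_of]
    rw [hc] at hdetg
    linarith⟩
  have hg''det : 0 < (g'' : Matrix (Fin 2) (Fin 2) ℤ).det := by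
    rw [g''.det_coe]; exact one_pos
  have hM : A * (g : Matrix (Fin 2) (Fin 2) ℤ) = (g'' : Matrix (Fin 2) (Fin 2) ℤ) * A := by
    ext i j
    fin_cases i <;> fin_cases j <;>
      simp [hA, g'', Matrix.mul_apply, Fin.sum_univ_two, hc, mul_comm]
  have hMdet : 0 < (A * (g : Matrix (Fin 2) (Fin 2) ℤ)).det := by
    rw [Matrix.det_mul, g.det_coe, mul_one]; exact hdet
  have hprod : 0 < ((g'' : Matrix (Fin 2) (Fin 2) ℤ) * A).det := by
    rw [← hM]; exact hMdet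
  have e1 : ∀ (γ : SL(2, ℤ)) (hγ : 0 < (γ : Matrix (Fin 2) (Fin 2) ℤ).det),
      ((γ : GL (Fin 2) ℝ)) = intGL (γ : Matrix (Fin 2) (Fin 2) ℤ) hγ := by
    intro γ hγ
    apply Units.ext
    rw [Fermat.Agent.S22Lib.intGL_val]
    rfl
  have hact : intGL A hdet • (g • τ) = g'' • (intGL A hdet • τ) := by
    rw [ModularGroup.sl_moeb, ModularGroup.sl_moeb, ← mul_smul, ← mul_smul,
      e1 g hgdet, e1 g'' hg''det,
      ← Fermat.Agent.S22Lib.intGL_mul A _ hdet hgdet hMdet,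
      ← Fermat.Agent.S22Lib.intGL_mul _ _ hg''det hdet hprod]
    congr 1
    exact intGL_congr hM _ _
  rw [hact, jFun_smul]

end Fermat.Agent.S24Lib
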