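/-
S24 (project P1a), part MOD: Galois theory of `ModField N` over `ℚ̄(j)`:
the fixed field of `SL(2, ℤ)` is `ℚ̄(j)`, `j` is transcendental, the kernel of the action lies in
`Γ₀(N)`, and the analytic function field `anField N` is the fixed field of `Γ₀(N)`.
-/
import Mathlib
import Fermat.Agent.Lib.S24.ModFieldDefs
import Fermat.Agent.Lib.S24.JDistinct
import Fermat.Agent.Lib.S24.JSurjective
import Fermat.Agent.Lib.S24.GaloisIndex

set_option autoImplicit false
set_option linter.unusedSectionVars false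
set_option linter.style.haveILetI false

namespace Fermat.Agent.S24Lib

open UpperHalfPlane Filter Topology Matrix MatrixGroups CongruenceSubgroup
open scoped Manifold
open Fermat.Agent.S22Lib (intGL)
open Fermat.Agent.ES (IsQLaurentable qLaurent)

local notation "Kbar" => AlgebraicClosure ℚ

variable (N : ℕ) [NeZero N]

/-- evaluation of a polynomial in `j` inside `modRing N` -/
theorem aeval_jR_apply (P : Polynomial Kbar) (τ : ℍ) :
    ((Polynomial.aeval (jR N) P : modRing N) : ℍ → ℂ) τ = (P.map iotaC).eval (jFun τ) := by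
  have h1 : ((Polynomial.aeval (jR N) P : modRing N) : ℍ → ℂ)
      = Polynomial.aeval (jFun : ℍ → ℂ) P :=
    Polynomial.aeval_subalgebra_coe P (modRing N) (jR N)
  rw [h1]
  have h2 := Polynomial.aeval_algHom_apply (Pi.evalAlgHom Kbar (fun _ : ℍ => ℂ) τ)
    (jFun : ℍ → ℂ) P
  have h3 : (Pi.evalAlgHom Kbar (fun _ : ℍ => ℂ) τ) (Polynomial.aeval (jFun : ℍ → ℂ) P)
      = (Polynomial.aeval (jFun : ℍ → ℂ) P) τ := rfl
  rw [← h3, ← h2]
  rw [Polynomial.aeval_def, Polynomial.eval₂_eq_eval_map]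
  rfl

/-- invariant elements of `modRing N` are polynomials in `j` -/
theorem mem_adjoin_jR_of_invariant (h : modRing N) (hinv : ∀ γ, modAct N γ h = h) :
    h ∈ Algebra.adjoin Kbar {jR N} := by
  obtain ⟨P, hP⟩ := modRing_invariant N h.2 (fun γ τ => by
    have h1 : (modAct N γ⁻¹ h : ℍ → ℂ) τ = (h : ℍ → ℂ) τ := by rw [hinv]
    rw [modAct_apply_apply, inv_inv] at h1
    exact h1)
  have : h = Polynomial.aeval (jR N) P := by
    apply Subtype.ext
    funext τ
    rw [hP τ, aeval_jR_apply]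
  rw [this]
  exact Polynomial.aeval_mem_adjoin_singleton _ _

theorem finite_range_modRep : Finite (modRep N).range := by
  haveI := finite_range_modAct N
  have hsurj : Function.Surjective (fun x : (modAct N).range =>
      (⟨fracAlgEquivHom (L := ModField N) x.1, by
        obtain ⟨γ, hγ⟩ := x.2
        exact ⟨γ, by rw [← hγ]; rfl⟩⟩ : (modRep N).range)) := by
    rintro ⟨_, γ, rfl⟩
    exact ⟨⟨modAct N γ, γ, rfl⟩, rfl⟩
  exact Finite.of_surjective _ hsurj

/-- the fixed field of `SL(2, ℤ)` on `ModField N` is `ℚ̄(j)` -/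
theorem fixedField_modRep :
    IntermediateField.fixedField (modRep N).range = IntermediateField.adjoin Kbar {jL N} :=
  fixedField_fracRep_range (L := ModField N) (modAct N) (finite_range_modAct N) (jR N)
    (modAct_jR N) (mem_adjoin_jR_of_invariant N)

theorem iotaC_injective : Function.Injective iotaC := iotaC.injective

theorem transcendental_jR : Transcendental Kbar (jR N) := by
  rw [Transcendental]
  intro hP
  obtain ⟨P, hP0, hP⟩ := hP
  apply hP0
  have h1 : ∀ z : ℂ, (P.map iotaC).eval z = 0 := by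
    intro z
    obtain ⟨τ, rfl⟩ := jFun_surjective z
    rw [← aeval_jR_apply N P τ, hP]
    rfl
  have h2 : P.map iotaC = 0 := Polynomial.funext (fun z => by rw [h1 z, Polynomial.eval_zero])
  exact (Polynomial.map_eq_zero_iff iotaC_injective).mp h2

theorem transcendental_jL : Transcendental Kbar (jL N) := by
  unfold jL
  rw [transcendental_algebraMap_iff (IsFractionRing.injective (modRing N) (ModField N))]
  exact transcendental_jR N

/-- `N` as a positive natural number -/
def pnatN : ℕ+ := ⟨N, Nat.pos_of_ne_zero (NeZero.ne N)⟩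

theorem pnatN_dvd : ((pnatN N : ℕ+) : ℕ) ∣ N := dvd_rfl

/-- distinctness: `j(N·γτ) = j(Nτ)` identically forces `γ ∈ Γ₀(N)` -/
theorem mem_Gamma0_of_jGenL_eq (γ : SL(2, ℤ))
    (h : jGenL N (pnatN_dvd N) γ = jGenL N (pnatN_dvd N) 1) : γ ∈ Gamma0 N := by
  have hN : 0 < N := Nat.pos_of_ne_zero (NeZero.ne N)
  have h1 : jGenR N (pnatN_dvd N) γ = jGenR N (pnatN_dvd N) 1 :=
    IsFractionRing.injective (modRing N) (ModField N) h
  have h2 : jGen (pnatN N) γ = jGen (pnatN N) 1 := congrArg Subtype.val h1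
  have hdet : 0 < (!![(N : ℤ), 0; 0, 1] : Matrix (Fin 2) (Fin 2) ℤ).det := diagN_det_pos N hN
  refine mem_Gamma0_of_jFun_comp_eq N hN hdet γ (fun τ => ?_)
  have h3 := congrFun h2 τ
  have hA : 0 < (diagMat ((pnatN N : ℕ+) : ℕ)).det := by
    rw [diagMat_det]; exact_mod_cast hN
  have e1 : jGen (pnatN N) γ τ = jMat (diagMat ((pnatN N : ℕ+) : ℕ)) hA (γ • τ) :=
    jMat_mul_SL _ hA γ τ
  have e2 : jGen (pnatN N) 1 τ = jMat (diagMat ((pnatN N : ℕ+) : ℕ)) hA ((1 : SL(2, ℤ)) • τ) :=
    jMat_mul_SL _ hA 1 τ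
  rw [e1, e2, one_smul] at h3
  exact h3

/-- the kernel of the action on `ModField N` is contained in `Γ₀(N)` -/
theorem ker_modRep_le_Gamma0 : (modRep N).ker ≤ Gamma0 N := by
  intro γ hγ
  have hγ' : modRep N γ⁻¹ = 1 := by
    rw [map_inv, MonoidHom.mem_ker.mp hγ, inv_one]
  apply mem_Gamma0_of_jGenL_eq
  have := modRep_jGenL N γ⁻¹ (pnatN_dvd N) 1
  rw [hγ', inv_inv, one_mul] at this
  exact this.symm

/-- the analytic function field of `X₀(N)` is the fixed field of `Γ₀(N)` -/
theorem anField_eq_fixedField :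
    anField N = IntermediateField.fixedField ((Gamma0 N).map (modRep N)) := by
  unfold anField
  refine adjoin_eq_fixedField_map (modRep N) (finite_range_modRep N) (Gamma0 N) (anGens N)
    ?_ ?_ ?_
  · rintro γ hγ _ ⟨d, hd, rfl⟩
    rw [modRep_jGenL, one_mul]
    have h0 : γ⁻¹ ∈ Gamma0 d := Gamma0_le_of_dvd hd (inv_mem hγ)
    have h1 := jGen_Gamma0_mul d h0 1
    rw [mul_one] at h1
    have h2 : jGenR N hd γ⁻¹ = jGenR N hd 1 := Subtype.ext h1
    unfold jGenL
    rw [h2]
  · intro γ hγ
    have h1 := hγ _ ⟨pnatN N, pnatN_dvd N, rfl⟩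
    rw [modRep_jGenL, one_mul] at h1
    have := mem_Gamma0_of_jGenL_eq N γ⁻¹ h1
    simpa using inv_mem this
  · rw [fixedField_modRep, IntermediateField.adjoin_le_iff, Set.singleton_subset_iff]
    exact jL_mem_anField N

end Fermat.Agent.S24Lib
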