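/-
S24 (project P1a), part MOD: the places of `ModField N` attached to points of the upper half
plane.
-/
import Mathlib
import Fermat.Agent.Lib.S24.ModGalois

set_option autoImplicit false
set_option linter.unusedSectionVars false
set_option linter.style.haveILetI false

namespace Fermat.Agent.S24Lib

open UpperHalfPlane Filter Topology Matrix MatrixGroups CongruenceSubgroup WithZero
open scoped Manifold
open AlgebraicCurve Fermat.Agent.Curve

local notation "Kbar" => AlgebraicClosure ℚ

variable (N : ℕ) [NeZero N]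

/-- the inclusion of `modRing N` into the ring of holomorphic functions -/
noncomputable def modRingToHol : modRing N →+* holH where
  toFun f := ⟨f, mdiff_of_mem_modRing N f.2⟩
  map_one' := rfl
  map_mul' _ _ := rfl
  map_zero' := rfl
  map_add' _ _ := rfl

theorem modRingToHol_injective : Function.Injective (modRingToHol N) := by
  intro f g h
  apply Subtype.ext
  exact congrArg (fun x : holH => (x : ℍ → ℂ)) h

/-- the order of vanishing at `τ₀` as a valuation on `modRing N` -/
noncomputable def pointValuation (τ₀ : ℍ) : Valuation (modRing N) ℤᵐ⁰ :=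
  (ordValuation τ₀).comap (modRingToHol N)

theorem pointValuation_apply (τ₀ : ℍ) {f : modRing N} (hf : f ≠ 0) :
    pointValuation N τ₀ f = exp (-((ordAt (f : ℍ → ℂ) τ₀).toNat : ℤ)) := by
  have h : modRingToHol N f ≠ 0 := by
    intro h0
    exact hf (modRingToHol_injective N (h0.trans (map_zero _).symm))
  show ordValuation τ₀ (modRingToHol N f) = _
  rw [ordValuation_apply h]
  rfl

theorem pointValuation_eq_zero (τ₀ : ℍ) (f : modRing N) (h : pointValuation N τ₀ f = 0) :
    f = 0 := by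
  have h1 : ordValuation τ₀ (modRingToHol N f) = 0 := h
  rw [ordValuation_eq_zero_iff] at h1
  exact modRingToHol_injective N (h1.trans (map_zero _).symm)

theorem pointValuation_algebraMap_le_one (τ₀ : ℍ) (c : Kbar) :
    pointValuation N τ₀ (algebraMap Kbar (modRing N) c) ≤ 1 := by
  by_cases hc : c = 0
  · rw [hc, map_zero, map_zero]
    exact zero_le
  have hne : algebraMap Kbar (modRing N) c ≠ 0 := by
    rw [Ne, map_eq_zero_iff _ (algebraMap Kbar (modRing N)).injective]
    exact hc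
  rw [pointValuation_apply N τ₀ hne]
  have h1 : ((algebraMap Kbar (modRing N) c : modRing N) : ℍ → ℂ) = fun _ => iotaC c := rfl
  rw [h1, ordAt_const ((map_ne_zero iotaC).mpr hc)]
  simp

/-- the valuation at a fixed point of `γ` is `γ`-invariant -/
theorem pointValuation_modAct (τ₀ : ℍ) {γ : SL(2, ℤ)} (hγ : γ • τ₀ = τ₀) (f : modRing N) :
    pointValuation N τ₀ (modAct N γ f) = pointValuation N τ₀ f := by
  by_cases hf : f = 0
  · rw [hf, map_zero]
  have hf' : modAct N γ f ≠ 0 := by
    rw [Ne, map_eq_zero_iff _ (modAct N γ).injective]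
    exact hf
  rw [pointValuation_apply N τ₀ hf, pointValuation_apply N τ₀ hf']
  have h1 : ((modAct N γ f : modRing N) : ℍ → ℂ) = fun z => (f : ℍ → ℂ) (γ⁻¹ • z) := rfl
  have h2 : γ⁻¹ • τ₀ = τ₀ := by
    rw [inv_smul_eq_iff, hγ]
  rw [h1, ordAt_comp_smul, h2]

/-- the element `j - a` of `modRing N` -/
noncomputable def jSubR (a : Kbar) : modRing N := jR N - algebraMap Kbar (modRing N) a

theorem jSubR_ne_zero (a : Kbar) : jSubR N a ≠ 0 := by
  intro h
  have h1 : jR N = algebraMap Kbar (modRing N) a := sub_eq_zero.mp h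
  exact transcendental_jR N (h1 ▸ isAlgebraic_algebraMap a)

theorem coe_jSubR (a : Kbar) : ((jSubR N a : modRing N) : ℍ → ℂ) = fun τ => jFun τ - iotaC a :=
  rfl

theorem algebraMap_jSubR (a : Kbar) :
    algebraMap (modRing N) (ModField N) (jSubR N a) = jL N - algebraMap Kbar (ModField N) a := by
  rw [jSubR, map_sub, ← IsScalarTower.algebraMap_apply]
  rfl

theorem ordAt_jSubR_pos (τ₀ : ℍ) (a : Kbar) (ha : iotaC a = jFun τ₀) :
    ordAt ((jSubR N a : modRing N) : ℍ → ℂ) τ₀ ≠ 0 := by
  rw [Ne, ordAt_eq_zero_iff (mdiff_of_mem_modRing N (jSubR N a).2), coe_jSubR]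
  simp [ha]

theorem pointValuation_jSubR_lt_one (τ₀ : ℍ) (a : Kbar) (ha : iotaC a = jFun τ₀) :
    pointValuation N τ₀ (jSubR N a) < 1 := by
  rw [pointValuation_apply N τ₀ (jSubR_ne_zero N a), ← exp_zero, exp_lt_exp]
  have h1 := ordAt_jSubR_pos N τ₀ a ha
  have h2 : ordAt ((jSubR N a : modRing N) : ℍ → ℂ) τ₀ ≠ ⊤ := by
    rw [Ne, ordAt_eq_top_iff (mdiff_of_mem_modRing N (jSubR N a).2)]
    intro h0
    exact jSubR_ne_zero N a (Subtype.ext h0)
  have h3 : (ordAt ((jSubR N a : modRing N) : ℍ → ℂ) τ₀).toNat ≠ 0 := by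
    rw [Ne, ENat.toNat_eq_zero]
    tauto
  omega

/-- the place of `ModField N` attached to the point `τ₀` (with `j(τ₀) = a ∈ ℚ̄`) -/
noncomputable def pointPlace (τ₀ : ℍ) (a : Kbar) (ha : iotaC a = jFun τ₀) :
    Place Kbar (ModField N) :=
  fracPlace (L := ModField N) (pointValuation N τ₀) (pointValuation_eq_zero N τ₀)
    (pointValuation_algebraMap_le_one N τ₀) (jSubR N a) (jSubR_ne_zero N a)
    (pointValuation_jSubR_lt_one N τ₀ a ha).ne

theorem pointPlace_ord_pos (τ₀ : ℍ) (a : Kbar) (ha : iotaC a = jFun τ₀) :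
    0 < (pointPlace N τ₀ a ha).ord (jL N - algebraMap Kbar (ModField N) a) := by
  rw [← algebraMap_jSubR]
  exact fracPlace_ord_pos _ _ _ _ _ _ (jSubR_ne_zero N a)
    (pointValuation_jSubR_lt_one N τ₀ a ha)

theorem pointPlace_ord_le (τ₀ : ℍ) (a : Kbar) (ha : iotaC a = jFun τ₀) (n : ℕ)
    (hn : ordAt (fun τ => jFun τ - iotaC a) τ₀ = n) :
    (pointPlace N τ₀ a ha).ord (jL N - algebraMap Kbar (ModField N) a) ≤ n := by
  rw [← algebraMap_jSubR]
  refine fracPlace_ord_le _ _ _ _ _ _ (jSubR_ne_zero N a) ?_ (Int.natCast_nonneg n)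
  rw [pointValuation_apply N τ₀ (jSubR_ne_zero N a), coe_jSubR, hn]
  simp

/-- elements of `SL(2, ℤ)` fixing `τ₀` fix the place attached to `τ₀` -/
theorem modRep_smul_pointPlace (τ₀ : ℍ) (a : Kbar) (ha : iotaC a = jFun τ₀)
    {γ : SL(2, ℤ)} (hγ : γ • τ₀ = τ₀) :
    modRep N γ • pointPlace N τ₀ a ha = pointPlace N τ₀ a ha := by
  refine smul_fracPlace_eq _ _ _ _ _ _ _ (fun f => ?_)
  exact fracValuation_invariant _ _ (modAct N γ) (pointValuation_modAct N τ₀ hγ) f

end Fermat.Agent.S24Lib
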