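/-
S24 (project P1a), part MOD: the stabilizers of the places of `ModField N` over
`j = 0`, `j = 1728`, `j = ∞` and a generic value of `j`.
-/
import Mathlib
import Fermat.Agent.Lib.S24.ModPoints
import Fermat.Agent.Lib.S24.ModInfty
import Fermat.Agent.Lib.S24.JOrders

set_option autoImplicit false
set_option linter.unusedSectionVars false
set_option linter.style.haveILetI false

namespace Fermat.Agent.S24Lib

open UpperHalfPlane Filter Topology Matrix MatrixGroups CongruenceSubgroup WithZero ModularGroup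
open scoped Manifold
open AlgebraicCurve Fermat.Agent.Curve

local notation "Kbar" => AlgebraicClosure ℚ

variable (N : ℕ) [NeZero N]

/-! ### The image of `SL(2, ℤ)` -/

theorem modAct_neg (γ : SL(2, ℤ)) : modAct N (-γ) = modAct N γ := by
  ext f : 2
  funext τ
  rw [modAct_apply_apply, modAct_apply_apply]
  have h : (-γ)⁻¹ = -γ⁻¹ := by
    rw [inv_neg]
  rw [h, ModularGroup.SL_neg_smul]

theorem modRep_neg (γ : SL(2, ℤ)) : modRep N (-γ) = modRep N γ := by
  show fracAlgEquivHom (L := ModField N) (modAct N (-γ)) = fracAlgEquivHom (modAct N γ)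
  rw [modAct_neg]

theorem modRep_neg_one : modRep N (-1) = 1 := by
  rw [modRep_neg, map_one]

theorem modRep_eq_one_of_mem_Gamma {γ : SL(2, ℤ)} (hγ : γ ∈ Gamma N) : modRep N γ = 1 := by
  have h := Gamma_le_ker_modAct N hγ
  rw [MonoidHom.mem_ker] at h
  show fracAlgEquivHom (L := ModField N) (modAct N γ) = 1
  rw [h, map_one]

theorem modRep_eq_one_of_level_one (h : N = 1) (γ : SL(2, ℤ)) : modRep N γ = 1 := by
  apply modRep_eq_one_of_mem_Gamma
  subst h
  rw [Gamma_one_top]
  exact Subgroup.mem_top γ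

theorem mem_Gamma0_of_modRep_eq_one {γ : SL(2, ℤ)} (h : modRep N γ = 1) : γ ∈ Gamma0 N :=
  ker_modRep_le_Gamma0 N (MonoidHom.mem_ker.mpr h)

theorem one_ne_zero_zmod (hN : 1 < N) : ((1 : ℤ) : ZMod N) ≠ 0 := by
  haveI : Fact (1 < N) := ⟨hN⟩
  simp

theorem S_notMem_Gamma0 (hN : 1 < N) : S ∉ Gamma0 N := by
  rw [Gamma0_mem]
  have : S 1 0 = 1 := by decide
  rw [this]
  exact one_ne_zero_zmod N hN

theorem ST_notMem_Gamma0 (hN : 1 < N) : S * T ∉ Gamma0 N := by
  rw [Gamma0_mem]
  have : (S * T) 1 0 = 1 := by decide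
  rw [this]
  exact one_ne_zero_zmod N hN

theorem orderOf_modRep_S (hN : 1 < N) : orderOf (modRep N S) = 2 := by
  haveI : Fact (Nat.Prime 2) := ⟨Nat.prime_two⟩
  refine orderOf_eq_prime ?_ ?_
  · rw [← map_pow, pow_two]
    have : S * S = -1 := by decide
    rw [this, modRep_neg_one]
  · intro h
    exact S_notMem_Gamma0 N hN (mem_Gamma0_of_modRep_eq_one N h)

theorem orderOf_modRep_ST (hN : 1 < N) : orderOf (modRep N (S * T)) = 3 := by
  haveI : Fact (Nat.Prime 3) := ⟨Nat.prime_three⟩
  refine orderOf_eq_prime ?_ ?_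
  · rw [← map_pow]
    have : (S * T) ^ 3 = -1 := by decide
    rw [this, modRep_neg_one]
  · intro h
    exact ST_notMem_Gamma0 N hN (mem_Gamma0_of_modRep_eq_one N h)

theorem S_mul_T_zpow_mul_S_inv_apply (k : ℤ) : (S * T ^ k * S⁻¹) 1 0 = -k := by
  rw [S_inv]
  simp [Matrix.SpecialLinearGroup.coe_mul, coe_T_zpow]

theorem orderOf_modRep_T : orderOf (modRep N T) = N := by
  have hN : 0 < N := Nat.pos_of_ne_zero (NeZero.ne N)
  rw [orderOf_eq_iff hN]
  constructor
  · rw [← map_pow]
    apply modRep_eq_one_of_mem_Gamma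
    have := ModularGroup_T_pow_mem_Gamma (N : ℤ) (N : ℤ) dvd_rfl
    rw [Int.natAbs_natCast] at this
    exact_mod_cast this
  · intro m hm hm0 h
    rw [← map_pow] at h
    -- conjugate by `S`
    have h1 : modRep N (S * T ^ m * S⁻¹) = 1 := by
      rw [map_mul, map_mul, h, mul_one, ← map_mul, mul_inv_cancel, map_one]
    have h2 := mem_Gamma0_of_modRep_eq_one N h1
    rw [Gamma0_mem] at h2
    have h3 : (S * T ^ m * S⁻¹) 1 0 = -(m : ℤ) := by
      have h4 : (T ^ m : SL(2, ℤ)) = T ^ (m : ℤ) := (zpow_natCast T m).symm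
      rw [h4]
      exact S_mul_T_zpow_mul_S_inv_apply m
    rw [h3, ZMod.intCast_zmod_eq_zero_iff_dvd] at h2
    have h5 : (N : ℤ) ∣ (m : ℤ) := (dvd_neg).mp h2
    have h6 : N ∣ m := by exact_mod_cast h5
    exact absurd (Nat.le_of_dvd hm0 h6) (not_le.mpr hm)

theorem card_map_zpowers (g : SL(2, ℤ)) :
    Nat.card ((Subgroup.zpowers g).map (modRep N)) = orderOf (modRep N g) := by
  rw [MonoidHom.map_zpowers, Nat.card_zpowers]

theorem finite_map_modRep (Δ : Subgroup SL(2, ℤ)) : Finite (Δ.map (modRep N)) := by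
  haveI := finite_range_modRep N
  exact Finite.of_injective (Subgroup.inclusion (Subgroup.map_le_range (modRep N) Δ))
    (Subgroup.inclusion_injective _)

/-! ### The generators of the fixed field -/

theorem adjoin_jL_sub (a : Kbar) :
    IntermediateField.adjoin Kbar {jL N - algebraMap Kbar (ModField N) a}
      = IntermediateField.adjoin Kbar {jL N} := by
  apply le_antisymm
  · rw [IntermediateField.adjoin_le_iff, Set.singleton_subset_iff]
    exact sub_mem (IntermediateField.mem_adjoin_simple_self Kbar _)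
      (IntermediateField.algebraMap_mem _ a)
  · rw [IntermediateField.adjoin_le_iff, Set.singleton_subset_iff]
    show jL N ∈ IntermediateField.adjoin Kbar {jL N - algebraMap Kbar (ModField N) a}
    have h := add_mem
      (IntermediateField.mem_adjoin_simple_self Kbar (jL N - algebraMap Kbar (ModField N) a))
      (IntermediateField.algebraMap_mem
        (IntermediateField.adjoin Kbar {jL N - algebraMap Kbar (ModField N) a}) a)
    rwa [sub_add_cancel] at h

theorem transcendental_jL_sub (a : Kbar) :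
    Transcendental Kbar (jL N - algebraMap Kbar (ModField N) a) := by
  intro h
  apply transcendental_jL N
  have h2 : jL N = (jL N - algebraMap Kbar (ModField N) a) + algebraMap Kbar (ModField N) a := by
    ring
  rw [h2]
  exact h.add (isAlgebraic_algebraMap a)

theorem fixedField_modRep_sub (a : Kbar) :
    IntermediateField.fixedField (modRep N).range
      = IntermediateField.adjoin Kbar {jL N - algebraMap Kbar (ModField N) a} := by
  rw [adjoin_jL_sub, fixedField_modRep]

theorem jL_ne_zero : jL N ≠ 0 := by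
  intro h
  apply transcendental_jL N
  rw [h]
  exact isAlgebraic_zero

theorem adjoin_jL_inv :
    IntermediateField.adjoin Kbar {(jL N)⁻¹} = IntermediateField.adjoin Kbar {jL N} := by
  apply le_antisymm
  · rw [IntermediateField.adjoin_le_iff, Set.singleton_subset_iff]
    exact inv_mem (IntermediateField.mem_adjoin_simple_self Kbar _)
  · rw [IntermediateField.adjoin_le_iff, Set.singleton_subset_iff]
    show jL N ∈ IntermediateField.adjoin Kbar {(jL N)⁻¹}
    have h := inv_mem (IntermediateField.mem_adjoin_simple_self Kbar (jL N)⁻¹)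
    rwa [inv_inv] at h

theorem transcendental_jL_inv : Transcendental Kbar (jL N)⁻¹ := by
  intro h
  exact transcendental_jL N (IsAlgebraic.inv_iff.mp h)

theorem fixedField_modRep_inv :
    IntermediateField.fixedField (modRep N).range
      = IntermediateField.adjoin Kbar {(jL N)⁻¹} := by
  rw [adjoin_jL_inv, fixedField_modRep]

/-! ### Comparing the ramification index with the size of a subgroup -/

/-- it suffices to bound the ramification index by the size of `ρ(Δ)` when `N > 1` -/
theorem ord_le_card_map (y : ModField N) (hy : Transcendental Kbar y)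
    (hfix : IntermediateField.fixedField (modRep N).range = IntermediateField.adjoin Kbar {y})
    (v₀ : Place Kbar (ModField N)) (hv₀ : 0 < v₀.ord y) (Δ : Subgroup SL(2, ℤ)) (n : ℕ)
    (hn : v₀.ord y ≤ n) (hΔ : 1 < N → n ≤ Nat.card (Δ.map (modRep N))) :
    v₀.ord y ≤ Nat.card (Δ.map (modRep N)) := by
  haveI := finite_range_modRep N
  haveI := finite_map_modRep N Δ
  rcases Nat.lt_or_ge 1 N with hN | hN
  · exact hn.trans (by exact_mod_cast hΔ hN)
  · have hN1 : N = 1 := le_antisymm hN (Nat.pos_of_ne_zero (NeZero.ne N))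
    have hstab := card_stabilizer_eq_ord (modRep N).range y hy hfix v₀ hv₀
    haveI : Subsingleton (modRep N).range := ⟨by
      rintro ⟨_, γ, rfl⟩ ⟨_, δ, rfl⟩
      apply Subtype.ext
      show modRep N γ = modRep N δ
      rw [modRep_eq_one_of_level_one N hN1 γ, modRep_eq_one_of_level_one N hN1 δ]⟩
    haveI : Subsingleton {g : (modRep N).range // (g : ModField N ≃ₐ[Kbar] ModField N) • v₀ = v₀} :=
      inferInstance
    have h1 : Nat.card {g : (modRep N).range //
        (g : ModField N ≃ₐ[Kbar] ModField N) • v₀ = v₀} ≤ 1 := Finite.card_le_one_iff_subsingleton.mpr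
      inferInstance
    have h2 : 0 < Nat.card (Δ.map (modRep N)) := Nat.card_pos
    rw [← hstab]
    exact_mod_cast h1.trans h2

/-! ### Points of the upper half plane -/

/-- the stabilizer of the place at `τ₀`, given a subgroup `Δ` of the stabilizer of `τ₀` whose
image is at least as large as the order of vanishing of `j - j(τ₀)` -/
theorem pointPlace_stabilizer (τ₀ : ℍ) (a : Kbar) (ha : iotaC a = jFun τ₀) (n : ℕ)
    (hn : ordAt (fun τ => jFun τ - iotaC a) τ₀ = n)
    (Δ : Subgroup SL(2, ℤ)) (hΔ : ∀ δ ∈ Δ, δ • τ₀ = τ₀)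
    (hcard : 1 < N → n ≤ Nat.card (Δ.map (modRep N))) (γ : SL(2, ℤ)) :
    modRep N γ • pointPlace N τ₀ a ha = pointPlace N τ₀ a ha
      ↔ ∃ δ ∈ Δ, modRep N γ = modRep N δ := by
  refine stabilizer_iff (modRep N) (finite_range_modRep N)
    (jL N - algebraMap Kbar (ModField N) a) (transcendental_jL_sub N a)
    (fixedField_modRep_sub N a) _ (pointPlace_ord_pos N τ₀ a ha) Δ
    (fun δ hδ => modRep_smul_pointPlace N τ₀ a ha (hΔ δ hδ)) ?_ γ
  exact ord_le_card_map N _ (transcendental_jL_sub N a) (fixedField_modRep_sub N a) _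
    (pointPlace_ord_pos N τ₀ a ha) Δ n (pointPlace_ord_le N τ₀ a ha n hn) hcard

theorem zpowers_smul_eq {g : SL(2, ℤ)} {τ₀ : ℍ} (h : g • τ₀ = τ₀) :
    ∀ δ ∈ Subgroup.zpowers g, δ • τ₀ = τ₀ := by
  intro δ hδ
  have : Subgroup.zpowers g ≤ MulAction.stabilizer SL(2, ℤ) τ₀ := by
    rw [Subgroup.zpowers_le]
    exact h
  exact this hδ

/-! ### The cusp `∞` -/

theorem jR_ne_zero : jR N ≠ 0 := by
  intro h
  apply transcendental_jR N
  rw [h]
  exact isAlgebraic_zero

theorem exp_natCast_ne_one : (exp (N : ℤ) : ℤᵐ⁰) ≠ 1 := by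
  rw [← exp_zero, Ne, exp_inj]
  exact_mod_cast NeZero.ne N

/-- the place of `ModField N` at the cusp `∞` -/
noncomputable def inftyPlace : Place Kbar (ModField N) :=
  fracPlace (L := ModField N) (inftyValuation N) (fun _ h => (inftyValuation_eq_zero_iff N).mp h)
    (inftyValuation_algebraMap_le_one N) (jR N) (jR_ne_zero N)
    (by rw [inftyValuation_jR]; exact exp_natCast_ne_one N)

theorem fracValuation_infty_jL_inv :
    fracValuation (L := ModField N) (inftyValuation N)
      (fun _ h => (inftyValuation_eq_zero_iff N).mp h) (jL N)⁻¹ = exp (-(N : ℤ)) := by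
  rw [map_inv₀, jL, fracValuation_algebraMap, inftyValuation_jR, WithZero.exp_neg]

theorem inftyPlace_ord_pos : 0 < (inftyPlace N).ord (jL N)⁻¹ := by
  rw [inftyPlace, fracPlace, placeOfValuation_ord_pos_iff _ _ _ _ (inv_ne_zero (jL_ne_zero N)),
    fracValuation_infty_jL_inv, ← exp_zero, exp_lt_exp]
  have : 0 < N := Nat.pos_of_ne_zero (NeZero.ne N)
  omega

theorem inftyPlace_ord_le : (inftyPlace N).ord (jL N)⁻¹ ≤ N := by
  rw [inftyPlace, fracPlace]
  exact placeOfValuation_ord_le _ _ _ _ (inv_ne_zero (jL_ne_zero N))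
    (fracValuation_infty_jL_inv N) (Int.natCast_nonneg N)

theorem modRep_T_smul_inftyPlace : modRep N T • inftyPlace N = inftyPlace N := by
  refine smul_fracPlace_eq _ _ _ _ _ _ _ (fun f => ?_)
  exact fracValuation_invariant _ _ (modAct N T) (inftyValuation_modAct_T N) f

theorem inftyPlace_stabilizer (γ : SL(2, ℤ)) :
    modRep N γ • inftyPlace N = inftyPlace N
      ↔ ∃ δ ∈ Subgroup.zpowers T, modRep N γ = modRep N δ := by
  refine stabilizer_iff (modRep N) (finite_range_modRep N)
    (jL N)⁻¹ (transcendental_jL_inv N) (fixedField_modRep_inv N) _ (inftyPlace_ord_pos N)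
    (Subgroup.zpowers T) ?_ ?_ γ
  · intro δ hδ
    have : Subgroup.zpowers T ≤ (MulAction.stabilizer (ModField N ≃ₐ[Kbar] ModField N)
        (inftyPlace N)).comap (modRep N) := by
      rw [Subgroup.zpowers_le]
      exact modRep_T_smul_inftyPlace N
    exact this hδ
  · rw [card_map_zpowers, orderOf_modRep_T]
    exact inftyPlace_ord_le N

/-! ### The four cases -/

theorem iotaC_ofNat : iotaC 1728 = 1728 := map_ofNat iotaC 1728

theorem generic_stabilizer (τ₀ : ℍ) (a : Kbar) (ha : iotaC a = jFun τ₀) (h0 : a ≠ 0)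
    (h1 : a ≠ 1728) (γ : SL(2, ℤ)) :
    modRep N γ • pointPlace N τ₀ a ha = pointPlace N τ₀ a ha
      ↔ ∃ δ ∈ (⊥ : Subgroup SL(2, ℤ)), modRep N γ = modRep N δ := by
  refine pointPlace_stabilizer N τ₀ a ha 1 ?_ ⊥ ?_ ?_ γ
  · rw [ha]
    refine ordAt_jFun_sub_of_ne τ₀ ?_ ?_
    · rw [← ha, Ne, map_eq_zero]
      exact h0
    · rw [← ha, ← iotaC_ofNat]
      exact fun h => h1 (iotaC.injective h)
  · intro δ hδ
    rw [Subgroup.mem_bot.mp hδ, one_smul]
  · intro _
    haveI := finite_map_modRep N ⊥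
    exact Nat.card_pos

theorem rho_stabilizer (γ : SL(2, ℤ)) :
    modRep N γ • pointPlace N ellRho 0 (by rw [map_zero, jFun_ellRho])
        = pointPlace N ellRho 0 (by rw [map_zero, jFun_ellRho])
      ↔ ∃ δ ∈ Subgroup.zpowers (S * T), modRep N γ = modRep N δ := by
  refine pointPlace_stabilizer N ellRho 0 _ 3 ?_ _ (zpowers_smul_eq ST_smul_ellRho) ?_ γ
  · have : (fun τ => jFun τ - iotaC 0) = jFun := by
      funext τ
      rw [map_zero, sub_zero]
    rw [this]
    exact ordAt_jFun_ellRho
  · intro hN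
    rw [card_map_zpowers, orderOf_modRep_ST N hN]

theorem I_stabilizer (γ : SL(2, ℤ)) :
    modRep N γ • pointPlace N UpperHalfPlane.I 1728 (by rw [iotaC_ofNat, jFun_I])
        = pointPlace N UpperHalfPlane.I 1728 (by rw [iotaC_ofNat, jFun_I])
      ↔ ∃ δ ∈ Subgroup.zpowers S, modRep N γ = modRep N δ := by
  refine pointPlace_stabilizer N UpperHalfPlane.I 1728 _ 2 ?_ _ (zpowers_smul_eq S_smul_I) ?_ γ
  · rw [iotaC_ofNat]
    exact ordAt_jFun_sub_I
  · intro hN
    rw [card_map_zpowers, orderOf_modRep_S N hN]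

end Fermat.Agent.S24Lib
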