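/-
S24 (project P1a), part MOD: counting the places of the function field of `X₀(N)` over the
values `0`, `1728`, `∞` and generic values of `j`, and the degree over `ℚ̄(j)`.
-/
import Mathlib
import Fermat.Prelude.Def_ModularCurve_GenusNumerics
import Fermat.Agent.Lib.Curve.Defs
import Fermat.Agent.Lib.S24.ModStab
import Fermat.Agent.Lib.S24.ModIso
import Fermat.Agent.Lib.S24.Comb2

set_option autoImplicit false
set_option linter.unusedSectionVars false
set_option linter.style.haveILetI false

namespace Fermat.Agent.S24Lib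

open UpperHalfPlane Matrix MatrixGroups CongruenceSubgroup ModularCurve AlgebraicCurve ModularGroup
open Fermat.Agent.Curve

local notation "Kbar" => AlgebraicClosure ℚ

/-! ### Transport of degrees along an isomorphism -/

theorem finrank_adjoin_congr {K L L' : Type*} [Field K] [Field L] [Field L'] [Algebra K L]
    [Algebra K L'] (e : L ≃ₐ[K] L') (x : L) :
    Module.finrank (IntermediateField.adjoin K {x}) L
      = Module.finrank (IntermediateField.adjoin K {e x}) L' := by
  have hmap : (IntermediateField.adjoin K {x}).map (e : L →ₐ[K] L')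
      = IntermediateField.adjoin K {e x} := by
    rw [IntermediateField.adjoin_map, Set.image_singleton]
    rfl
  let i : IntermediateField.adjoin K {x} ≃ₐ[K] IntermediateField.adjoin K {e x} :=
    ((IntermediateField.adjoin K {x}).equivMap (e : L →ₐ[K] L')).trans
      (IntermediateField.equivOfEq hmap)
  refine Algebra.finrank_eq_of_equiv_equiv i.toRingEquiv e.toRingEquiv ?_
  ext z
  rfl

variable (N : ℕ) [NeZero N]

/-- the fixed field of `Γ₀(N)` in `ModField N` -/
noncomputable abbrev gamma0Field : IntermediateField Kbar (ModField N) :=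
  IntermediateField.fixedField ((Gamma0 N).map (modRep N))

theorem exists_algEquiv_gamma0Field :
    ∃ Ψ : modularFunctionFieldBar N ≃ₐ[Kbar] gamma0Field N,
      ∀ x, ((Ψ x : gamma0Field N) : ModField N) = jL N ↔ x = jBar N := by
  obtain ⟨Ψ, hΨ⟩ := exists_algEquiv_anField N
  refine ⟨Ψ.trans (IntermediateField.equivOfEq (anField_eq_fixedField N)), fun x => ?_⟩
  have h1 : ∀ y : anField N, ((IntermediateField.equivOfEq (anField_eq_fixedField N) y :
      gamma0Field N) : ModField N) = (y : ModField N) := fun y => rfl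
  rw [AlgEquiv.trans_apply, h1, ← hΨ]
  constructor
  · intro h
    exact Ψ.injective (Subtype.ext h)
  · rintro rfl
    rfl

theorem modRep_fix_of_fixedField {y : ModField N}
    (hy : y ∈ IntermediateField.fixedField (modRep N).range) :
    ∀ g ∈ (Gamma0 N).map (modRep N), g y = y := by
  rintro g ⟨γ, -, rfl⟩
  exact hy ⟨modRep N γ, γ, rfl⟩

/-- the basic counting statement, transported to the Prelude's function field -/
theorem ncard_of_stabilizer (Ψ : modularFunctionFieldBar N ≃ₐ[Kbar] gamma0Field N)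
    (x : modularFunctionFieldBar N) (y : ModField N)
    (hxy : ((Ψ x : gamma0Field N) : ModField N) = y) (hy : Transcendental Kbar y)
    (hfix : IntermediateField.fixedField (modRep N).range = IntermediateField.adjoin Kbar {y})
    (v₀ : Place Kbar (ModField N)) (hv₀ : 0 < v₀.ord y) (Δ : Subgroup SL(2, ℤ))
    (hΔ : ∀ γ : SL(2, ℤ), modRep N γ • v₀ = v₀ ↔ ∃ δ ∈ Δ, modRep N γ = modRep N δ) :
    {v : Place Kbar (modularFunctionFieldBar N) | 0 < v.ord x}.ncard
      = Nat.card (MulAction.orbitRel.Quotient Δ (SL(2, ℤ) ⧸ Gamma0 N)) := by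
  have hcount := ncard_places_fixedField (modRep N) (finite_range_modRep N) (Gamma0 N)
    (ker_modRep_le_Gamma0 N) y hy hfix v₀ hv₀ Δ hΔ
  rw [← hcount]
  refine (ncard_setOf_place_congr Ψ _ _ (fun v => ?_)).symm
  have h1 : fixedElt ((Gamma0 N).map (modRep N)) y
      (modRep_fix_of_fixedField N (by
        rw [hfix]; exact IntermediateField.mem_adjoin_simple_self Kbar y)) = Ψ x :=
    Subtype.ext hxy.symm
  show 0 < (placeMap Ψ v).ord (fixedElt ((Gamma0 N).map (modRep N)) y _) ↔ 0 < v.ord x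
  rw [h1, placeMap_ord]

/-! ### The statements used by the final assembly -/

theorem transcendental_jBar (Ψ : modularFunctionFieldBar N ≃ₐ[Kbar] gamma0Field N)
    (hΨ : ((Ψ (jBar N) : gamma0Field N) : ModField N) = jL N) :
    Transcendental Kbar (jBar N) := by
  intro h
  apply transcendental_jL N
  have h1 : IsAlgebraic Kbar (Ψ (jBar N)) := h.algHom Ψ.toAlgHom
  have h2 := h1.algHom (gamma0Field N).val
  rw [← hΨ]
  exact h2

theorem finrank_jBar :
    Module.finrank (IntermediateField.adjoin Kbar {jBar N}) (modularFunctionFieldBar N)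
      = dedekindPsi N := by
  obtain ⟨Ψ, hΨ⟩ := exists_algEquiv_gamma0Field N
  have hΨj := (hΨ (jBar N)).mpr rfl
  have hfixj : ∀ g ∈ (Gamma0 N).map (modRep N), g (jL N) = jL N :=
    modRep_fix_of_fixedField N (by
      rw [fixedField_modRep]; exact IntermediateField.mem_adjoin_simple_self Kbar _)
  have h1 := finrank_adjoin_fixedElt (modRep N) (finite_range_modRep N) (Gamma0 N)
    (ker_modRep_le_Gamma0 N) (jL N) (fixedField_modRep N) hfixj
  have h2 : Ψ (jBar N) = fixedElt ((Gamma0 N).map (modRep N)) (jL N) hfixj := Subtype.ext hΨj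
  rw [finrank_adjoin_congr Ψ (jBar N), h2, h1, Subgroup.index, card_quotient_Gamma0]

theorem isFunctionFieldGen_jBar :
    IsFunctionFieldGen Kbar (modularFunctionFieldBar N) (jBar N) := by
  obtain ⟨Ψ, hΨ⟩ := exists_algEquiv_gamma0Field N
  refine ⟨transcendental_jBar N Ψ ((hΨ (jBar N)).mpr rfl), ?_⟩
  apply FiniteDimensional.of_finrank_pos
  rw [finrank_jBar]
  rw [← card_quotient_Gamma0]
  exact Nat.card_pos

theorem exists_jFun_eq (a : Kbar) : ∃ τ₀ : ℍ, iotaC a = jFun τ₀ := by
  obtain ⟨τ₀, h⟩ := jFun_surjective (iotaC a)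
  exact ⟨τ₀, h.symm⟩

theorem algEquiv_jBar_sub (Ψ : modularFunctionFieldBar N ≃ₐ[Kbar] gamma0Field N)
    (hΨ : ((Ψ (jBar N) : gamma0Field N) : ModField N) = jL N) (a : Kbar) :
    ((Ψ (jBar N - algebraMap Kbar (modularFunctionFieldBar N) a) : gamma0Field N) : ModField N)
      = jL N - algebraMap Kbar (ModField N) a := by
  rw [map_sub, AlgEquiv.commutes]
  show ((Ψ (jBar N) : gamma0Field N) : ModField N) - _ = _
  rw [hΨ]
  rfl

theorem card_orbits_bot :
    Nat.card (MulAction.orbitRel.Quotient (⊥ : Subgroup SL(2, ℤ)) (SL(2, ℤ) ⧸ Gamma0 N))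
      = dedekindPsi N := by
  rw [← card_quotient_Gamma0]
  refine Nat.card_congr (Equiv.ofBijective (Quotient.mk'' : SL(2, ℤ) ⧸ Gamma0 N →
    MulAction.orbitRel.Quotient (⊥ : Subgroup SL(2, ℤ)) (SL(2, ℤ) ⧸ Gamma0 N)) ⟨?_, ?_⟩).symm
  · intro p q h
    have h1 := Quotient.eq''.mp h
    rw [MulAction.orbitRel_apply] at h1
    obtain ⟨⟨g, hg⟩, rfl⟩ := h1
    rw [Subgroup.mem_bot] at hg
    subst hg
    exact one_smul _ q
  · exact Quotient.mk''_surjective

theorem ncard_zeros_jBar_sub (a : Kbar) (h0 : a ≠ 0) (h1 : a ≠ 1728) :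
    {v : Place Kbar (modularFunctionFieldBar N) |
        0 < v.ord (jBar N - algebraMap Kbar (modularFunctionFieldBar N) a)}.ncard
      = dedekindPsi N := by
  obtain ⟨Ψ, hΨ⟩ := exists_algEquiv_gamma0Field N
  have hΨj := (hΨ (jBar N)).mpr rfl
  obtain ⟨τ₀, ha⟩ := exists_jFun_eq a
  rw [ncard_of_stabilizer N Ψ _ _ (algEquiv_jBar_sub N Ψ hΨj a) (transcendental_jL_sub N a)
    (fixedField_modRep_sub N a) (pointPlace N τ₀ a ha) (pointPlace_ord_pos N τ₀ a ha) ⊥
    (generic_stabilizer N τ₀ a ha h0 h1), card_orbits_bot]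

theorem ncard_zeros_jBar :
    {v : Place Kbar (modularFunctionFieldBar N) |
        0 < v.ord (jBar N - algebraMap Kbar (modularFunctionFieldBar N) 0)}.ncard
      = Nat.card (MulAction.orbitRel.Quotient
          (Subgroup.zpowers (ModularGroup.S * ModularGroup.T)) (SL(2, ℤ) ⧸ Gamma0 N)) := by
  obtain ⟨Ψ, hΨ⟩ := exists_algEquiv_gamma0Field N
  have hΨj := (hΨ (jBar N)).mpr rfl
  exact ncard_of_stabilizer N Ψ _ _ (algEquiv_jBar_sub N Ψ hΨj 0) (transcendental_jL_sub N 0)
    (fixedField_modRep_sub N 0) _ (pointPlace_ord_pos N ellRho 0 _) _ (rho_stabilizer N)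

theorem ncard_zeros_jBar_sub_1728 :
    {v : Place Kbar (modularFunctionFieldBar N) |
        0 < v.ord (jBar N - algebraMap Kbar (modularFunctionFieldBar N) 1728)}.ncard
      = Nat.card (MulAction.orbitRel.Quotient
          (Subgroup.zpowers ModularGroup.S) (SL(2, ℤ) ⧸ Gamma0 N)) := by
  obtain ⟨Ψ, hΨ⟩ := exists_algEquiv_gamma0Field N
  have hΨj := (hΨ (jBar N)).mpr rfl
  exact ncard_of_stabilizer N Ψ _ _ (algEquiv_jBar_sub N Ψ hΨj 1728)
    (transcendental_jL_sub N 1728) (fixedField_modRep_sub N 1728) _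
    (pointPlace_ord_pos N UpperHalfPlane.I 1728 _) _ (I_stabilizer N)

theorem ncard_poles_jBar :
    {v : Place Kbar (modularFunctionFieldBar N) | v.ord (jBar N) < 0}.ncard
      = Nat.card (MulAction.orbitRel.Quotient
          (Subgroup.zpowers ModularGroup.T) (SL(2, ℤ) ⧸ Gamma0 N)) := by
  obtain ⟨Ψ, hΨ⟩ := exists_algEquiv_gamma0Field N
  have hΨj := (hΨ (jBar N)).mpr rfl
  have hset : {v : Place Kbar (modularFunctionFieldBar N) | v.ord (jBar N) < 0}
      = {v : Place Kbar (modularFunctionFieldBar N) | 0 < v.ord (jBar N)⁻¹} := by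
    ext v
    simp only [Set.mem_ofPred_eq]
    rw [Place.ord_inv]
    omega
  rw [hset]
  have hinv : ((Ψ (jBar N)⁻¹ : gamma0Field N) : ModField N) = (jL N)⁻¹ := by
    rw [map_inv₀]
    show ((Ψ (jBar N) : gamma0Field N) : ModField N)⁻¹ = _
    rw [hΨj]
  exact ncard_of_stabilizer N Ψ _ _ hinv (transcendental_jL_inv N) (fixedField_modRep_inv N) _
    (inftyPlace_ord_pos N) _ (inftyPlace_stabilizer N)

end Fermat.Agent.S24Lib
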