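import Fermat.Agent.Lib.ES.GroupBoundMain

/-!
# The genus of a permutation triple (S24, task COMB1)

For a transitive action of `G = ⟨a, b⟩` on a finite nonempty set `X`,
`#orb(a) + #orb(b) + #orb(ab) = |X| + 2 - 2g` for some natural number `g`:
* `≤ |X| + 2` is Scott's lemma (linear algebra on the permutation module);
* parity comes from the sign character.
-/

set_option autoImplicit false
set_option linter.unusedSectionVars false

open Module

namespace Fermat.Agent.S24Lib

open Fermat.Agent.ES

noncomputable section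

section Scott

variable {G : Type*} [Group G] {X : Type*} [MulAction G X] [Fintype X]

local notation "𝕍" => X → ℂ

lemma finrank_range_translSub (g : G) :
    finrank ℂ (LinearMap.range (translSub g : 𝕍 →ₗ[ℂ] 𝕍)) + orbCount X g = Fintype.card X := by
  have h := LinearMap.finrank_range_add_finrank_ker (translSub g : 𝕍 →ₗ[ℂ] 𝕍)
  rw [finrank_ker_translSub, Module.finrank_fintype_fun_eq_card] at h
  exact h

lemma orbCount_inv (g : G) : orbCount X g⁻¹ = orbCount X g := by
  unfold orbCount
  rw [Subgroup.zpowers_inv]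

lemma finrank_ker_sumFun_add_one_ge : Fintype.card X ≤ finrank ℂ (LinearMap.ker (sumFun X)) + 1 := by
  have h := finrank_le_finrank_inf_ker_add_one (⊤ : Submodule ℂ 𝕍) (sumFun X)
  rw [finrank_top, Module.finrank_fintype_fun_eq_card, top_inf_eq] at h
  exact h

/-- The coboundary map of Scott's lemma. -/
def scottBeta (a b : G) : 𝕍 →ₗ[ℂ] (𝕍 × 𝕍 × 𝕍) :=
  LinearMap.prod (translSub a) (LinearMap.prod (translSub b) (translSub (a * b)⁻¹))

/-- The second map of Scott's lemma. -/
def scottDelta (a b : G) : (𝕍 × 𝕍 × 𝕍) →ₗ[ℂ] 𝕍 :=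
  LinearMap.fst ℂ 𝕍 (𝕍 × 𝕍)
    + (transl a : 𝕍 →ₗ[ℂ] 𝕍) ∘ₗ (LinearMap.fst ℂ 𝕍 𝕍 ∘ₗ LinearMap.snd ℂ 𝕍 (𝕍 × 𝕍))
    + (transl (a * b) : 𝕍 →ₗ[ℂ] 𝕍) ∘ₗ (LinearMap.snd ℂ 𝕍 𝕍 ∘ₗ LinearMap.snd ℂ 𝕍 (𝕍 × 𝕍))

lemma scottDelta_apply (a b : G) (x y z : 𝕍) :
    scottDelta a b (x, y, z) = x + transl a y + transl (a * b) z := rfl

lemma scottBeta_apply (a b : G) (v : 𝕍) :
    scottBeta a b v = (translSub a v, translSub b v, translSub (a * b)⁻¹ v) := rfl

/-- The space `R₁ × R₂ × R₃`. -/
def scottR (a b : G) : Submodule ℂ (𝕍 × 𝕍 × 𝕍) :=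
  (LinearMap.range (translSub a : 𝕍 →ₗ[ℂ] 𝕍)).prod
    ((LinearMap.range (translSub b : 𝕍 →ₗ[ℂ] 𝕍)).prod
      (LinearMap.range (translSub (a * b)⁻¹ : 𝕍 →ₗ[ℂ] 𝕍)))

lemma finrank_scottR (a b : G) :
    finrank ℂ (scottR (X := X) a b) + (orbCount X a + orbCount X b + orbCount X (a * b))
      = 3 * Fintype.card X := by
  have h1 := finrank_range_translSub (X := X) a
  have h2 := finrank_range_translSub (X := X) b
  have h3 := finrank_range_translSub (X := X) (a * b)⁻¹
  rw [orbCount_inv] at h3
  rw [scottR, finrank_prodSub, finrank_prodSub]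
  omega

lemma range_scottBeta_le (a b : G) :
    LinearMap.range (scottBeta (X := X) a b) ≤ scottR a b ⊓ LinearMap.ker (scottDelta a b) := by
  rintro _ ⟨v, rfl⟩
  refine ⟨⟨⟨v, rfl⟩, ⟨v, rfl⟩, ⟨v, rfl⟩⟩, ?_⟩
  rw [SetLike.mem_coe, LinearMap.mem_ker, scottBeta_apply, scottDelta_apply]
  simp only [translSub_apply, map_sub, ← transl_mul_apply, mul_inv_cancel, transl_one,
    LinearMap.id_apply]
  abel

lemma ker_sumFun_le_map_scott [MulAction.IsPretransitive G X] (a b : G)
    (hgen : Subgroup.closure {a, b} = ⊤) :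
    LinearMap.ker (sumFun X) ≤ (scottR (X := X) a b).map (scottDelta a b) := by
  apply ker_sumFun_le (G := G)
  have ha : LinearMap.range (translSub a : 𝕍 →ₗ[ℂ] 𝕍) ≤ (scottR (X := X) a b).map (scottDelta a b) := by
    rintro _ ⟨v, rfl⟩
    refine ⟨(translSub a v, 0, 0), ⟨⟨v, rfl⟩, Submodule.zero_mem _, Submodule.zero_mem _⟩, ?_⟩
    rw [scottDelta_apply]; simp
  have hb : LinearMap.range (translSub b : 𝕍 →ₗ[ℂ] 𝕍) ≤ (scottR (X := X) a b).map (scottDelta a b) := by
    rintro _ ⟨v, rfl⟩
    have h1 : transl a (translSub b v) ∈ (scottR (X := X) a b).map (scottDelta a b) := by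
      refine ⟨(0, translSub b v, 0), ⟨Submodule.zero_mem _, ⟨v, rfl⟩, Submodule.zero_mem _⟩, ?_⟩
      rw [scottDelta_apply]; simp
    have h2 : translSub a (translSub b v) ∈ (scottR (X := X) a b).map (scottDelta a b) :=
      ha ⟨_, rfl⟩
    have h3 : translSub b v = transl a (translSub b v) - translSub a (translSub b v) := by
      rw [translSub_apply a]; abel
    rw [h3]
    exact Submodule.sub_mem _ h1 h2
  apply range_transl_sub_le_of_closure _ {a, b} hgen
  intro c hc
  rcases hc with h | h
  · rw [h]; exact ha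
  · rw [Set.mem_singleton_iff] at h
    rw [h]; exact hb

/-- **Scott's lemma** for permutation triples. -/
theorem scott_triple [MulAction.IsPretransitive G X] [Nonempty X] (a b : G)
    (hgen : Subgroup.closure {a, b} = ⊤) :
    orbCount X a + orbCount X b + orbCount X (a * b) ≤ Fintype.card X + 2 := by
  have h1 := finrank_scottR (X := X) a b
  have h2 := finrank_inf_ker_add_finrank_map (scottR (X := X) a b) (scottDelta a b)
  have h3 := Submodule.finrank_mono (range_scottBeta_le (X := X) a b)
  have h4 := Submodule.finrank_mono (ker_sumFun_le_map_scott (X := X) a b hgen)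
  have h5 := finrank_ker_sumFun_add_one_ge (X := X)
  have h6 := LinearMap.finrank_range_add_finrank_ker (scottBeta (X := X) a b)
  rw [Module.finrank_fintype_fun_eq_card] at h6
  have h7 : finrank ℂ (LinearMap.ker (scottBeta (X := X) a b)) ≤ 1 := by
    have hle : LinearMap.ker (scottBeta (X := X) a b) ≤ Submodule.span ℂ {(fun _ => (1 : ℂ) : 𝕍)} := by
      intro v hv
      rw [LinearMap.mem_ker, scottBeta_apply, Prod.mk_eq_zero, Prod.mk_eq_zero] at hv
      rw [Submodule.mem_span_singleton]
      obtain ⟨x₀⟩ := ‹Nonempty X›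
      refine ⟨v x₀, ?_⟩
      ext x
      have := eq_const_of_invariant (G := G) {a, b} hgen v (by
        intro c hc
        rcases hc with h | h
        · rw [h]; exact sub_eq_zero.mp hv.1
        · rw [Set.mem_singleton_iff] at h
          rw [h]; exact sub_eq_zero.mp hv.2.1) x x₀
      simp [this]
    calc finrank ℂ (LinearMap.ker (scottBeta (X := X) a b))
        ≤ finrank ℂ (Submodule.span ℂ {(fun _ => (1 : ℂ) : 𝕍)}) := Submodule.finrank_mono hle
      _ ≤ 1 := by
          have := finrank_span_le_card (R := ℂ) ({(fun _ => (1 : ℂ) : 𝕍)} : Set 𝕍)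
          simpa using this
  omega

end Scott

section Parity

open Equiv Equiv.Perm

variable {X : Type*} [Fintype X] [DecidableEq X]

/-- invariant separating the cycles of a permutation -/
def cycInv (σ : Perm X) (x : X) : (Function.fixedPoints σ) ⊕ {c : Perm X // c ∈ σ.cycleFactorsFinset} :=
  if h : σ x = x then Sum.inl ⟨x, h⟩
  else Sum.inr ⟨σ.cycleOf x, cycleOf_mem_cycleFactorsFinset_iff.mpr (mem_support.mpr h)⟩

lemma cycInv_eq_iff (σ : Perm X) (x y : X) : cycInv σ x = cycInv σ y ↔ σ.SameCycle x y := by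
  unfold cycInv
  by_cases hx : σ x = x <;> by_cases hy : σ y = y
  · simp only [dif_pos hx, dif_pos hy, Sum.inl.injEq]
    constructor
    · intro h
      have h' : x = y := congrArg Subtype.val h
      rw [h']
    · intro h
      obtain ⟨i, hi⟩ := h
      apply Subtype.ext
      show x = y
      rw [← hi]
      exact ((zpow_apply_eq_self_of_apply_eq_self hx i).symm)
  · simp only [dif_pos hx, dif_neg hy, reduceCtorEq, false_iff]
    intro h
    exact hy ((h.apply_eq_self_iff).mp hx)
  · simp only [dif_neg hx, dif_pos hy, reduceCtorEq, false_iff]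
    intro h
    exact hx ((h.apply_eq_self_iff).mpr hy)
  · simp only [dif_neg hx, dif_neg hy, Sum.inr.injEq, Subtype.mk.injEq]
    exact (sameCycle_iff_cycleOf_eq_of_mem_support (mem_support.mpr hx) (mem_support.mpr hy)).symm

lemma cycInv_surjective (σ : Perm X) : Function.Surjective (cycInv σ) := by
  rintro (⟨x, hx⟩ | ⟨c, hc⟩)
  · refine ⟨x, ?_⟩
    have hx' : σ x = x := hx
    simp [cycInv, hx']
  · have hcyc : c.IsCycle := (mem_cycleFactorsFinset_iff.mp hc).1
    obtain ⟨a, ha⟩ := hcyc.nonempty_support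
    have hca := cycle_is_cycleOf ha hc
    have hσa : σ a ≠ a := by
      have := mem_cycleFactorsFinset_support_le hc ha
      exact mem_support.mp this
    refine ⟨a, ?_⟩
    simp only [cycInv, dif_neg hσa, Sum.inr.injEq, Subtype.mk.injEq]
    exact hca.symm

/-- The orbits of a permutation are its fixed points and its nontrivial cycles. -/
def quotientSameCycleEquiv (σ : Perm X) :
    Quotient (SameCycle.setoid σ) ≃
      (Function.fixedPoints σ) ⊕ {c : Perm X // c ∈ σ.cycleFactorsFinset} :=
  Equiv.ofBijective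
    (Quotient.lift (cycInv σ) (fun x y (h : σ.SameCycle x y) => (cycInv_eq_iff σ x y).mpr h))
    ⟨by
      rintro ⟨x⟩ ⟨y⟩ h
      exact Quotient.sound ((cycInv_eq_iff σ x y).mp h),
     by
      intro z
      obtain ⟨x, rfl⟩ := cycInv_surjective σ z
      exact ⟨Quotient.mk _ x, rfl⟩⟩

lemma card_quotient_sameCycle (σ : Perm X) :
    Nat.card (Quotient (SameCycle.setoid σ)) + σ.cycleType.sum
      = Fintype.card X + Multiset.card σ.cycleType := by
  rw [Nat.card_congr (quotientSameCycleEquiv σ), Nat.card_eq_fintype_card, Fintype.card_sum,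
    card_fixedPoints, Fintype.card_coe]
  have h1 : σ.cycleFactorsFinset.card = Multiset.card σ.cycleType := by
    rw [cycleType_def, Multiset.card_map]; rfl
  have h2 := σ.sum_cycleType_le
  omega


variable {G : Type*} [Group G] [MulAction G X]

lemma orbitRel_zpowers_eq (g : G) :
    MulAction.orbitRel (Subgroup.zpowers g) X = SameCycle.setoid (MulAction.toPerm g : Perm X) := by
  ext x y
  rw [MulAction.orbitRel_apply, MulAction.mem_orbit_iff]
  change _ ↔ SameCycle (MulAction.toPerm g : Perm X) x y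
  rw [sameCycle_comm]
  constructor
  · rintro ⟨⟨_, n, rfl⟩, hn⟩
    refine ⟨n, ?_⟩
    rw [← hn]
    have : ((MulAction.toPerm g : Perm X) ^ n) = MulAction.toPerm (g ^ n) :=
      (map_zpow (MulAction.toPermHom G X) g n).symm
    rw [this]; rfl
  · rintro ⟨n, hn⟩
    refine ⟨⟨g ^ n, n, rfl⟩, ?_⟩
    rw [← hn]
    have : ((MulAction.toPerm g : Perm X) ^ n) = MulAction.toPerm (g ^ n) :=
      (map_zpow (MulAction.toPermHom G X) g n).symm
    rw [this]; rfl

lemma orbCount_add_sum_cycleType (g : G) :
    orbCount X g + (MulAction.toPerm g : Perm X).cycleType.sum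
      = Fintype.card X + Multiset.card (MulAction.toPerm g : Perm X).cycleType := by
  rw [← card_quotient_sameCycle]
  congr 1
  unfold orbCount MulAction.orbitRel.Quotient
  rw [orbitRel_zpowers_eq]

lemma neg_one_units_pow_eq_of_even_add (m n : ℕ) (h : Even (m + n)) :
    (-1 : ℤˣ) ^ m = (-1 : ℤˣ) ^ n := by
  have h1 : (-1 : ℤˣ) ^ (m + n) = 1 := h.neg_one_pow
  have h2 : (-1 : ℤˣ) ^ (n + n) = 1 := (Even.add_self n).neg_one_pow
  rw [pow_add] at h1 h2
  exact mul_right_cancel (h1.trans h2.symm)

lemma sign_toPerm_eq (g : G) :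
    Perm.sign (MulAction.toPerm g : Perm X) = (-1 : ℤˣ) ^ (Fintype.card X + orbCount X g) := by
  rw [sign_of_cycleType]
  have h := orbCount_add_sum_cycleType (X := X) g
  apply neg_one_units_pow_eq_of_even_add
  refine ⟨Fintype.card X + Multiset.card (MulAction.toPerm g : Perm X).cycleType, ?_⟩
  omega

lemma even_card_add_orbCounts (a b : G) :
    Even (Fintype.card X + (orbCount X a + orbCount X b + orbCount X (a * b))) := by
  have h : Perm.sign (MulAction.toPerm (a * b) : Perm X)
      = Perm.sign (MulAction.toPerm a : Perm X) * Perm.sign (MulAction.toPerm b : Perm X) := by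
    rw [← map_mul]
    congr 1
    exact map_mul (MulAction.toPermHom G X) a b
  rw [sign_toPerm_eq, sign_toPerm_eq, sign_toPerm_eq, ← pow_add] at h
  have h2 : (-1 : ℤˣ) ^ (Fintype.card X + orbCount X (a * b)
      + (Fintype.card X + orbCount X a + (Fintype.card X + orbCount X b))) = 1 := by
    rw [pow_add, h, ← pow_add, ← two_mul, pow_mul]
    simp
  rw [neg_one_pow_eq_one_iff_even (by decide)] at h2
  have h3 : Fintype.card X + orbCount X (a * b)
      + (Fintype.card X + orbCount X a + (Fintype.card X + orbCount X b))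
      = (Fintype.card X + (orbCount X a + orbCount X b + orbCount X (a * b)))
        + 2 * Fintype.card X := by ring
  rw [h3] at h2
  exact (Nat.even_add.mp h2).mpr (even_two_mul _)

end Parity

/-- **COMB1.** For a transitive action of `G = ⟨a, b⟩` on a finite nonempty set `X`:
`#orb(a) + #orb(b) + #orb(ab) = |X| + 2 - 2g` with `g : ℕ`. -/
theorem exists_genus_of_triple {G X : Type*} [Group G] [MulAction G X] [Finite X] [Nonempty X]
    [MulAction.IsPretransitive G X] (a b : G) (hgen : Subgroup.closure {a, b} = ⊤) :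
    ∃ g : ℕ, 2 * g + Nat.card (MulAction.orbitRel.Quotient (Subgroup.zpowers a) X)
        + Nat.card (MulAction.orbitRel.Quotient (Subgroup.zpowers b) X)
        + Nat.card (MulAction.orbitRel.Quotient (Subgroup.zpowers (a * b)) X)
      = Nat.card X + 2 := by
  classical
  have := Fintype.ofFinite X
  have h1 := scott_triple (X := X) a b hgen
  have h2 := even_card_add_orbCounts (X := X) a b
  change ∃ g : ℕ, 2 * g + orbCount X a + orbCount X b + orbCount X (a * b) = Nat.card X + 2
  rw [Nat.card_eq_fintype_card]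
  obtain ⟨k, hk⟩ := h2
  refine ⟨k + 1 - (orbCount X a + orbCount X b + orbCount X (a * b)), ?_⟩
  omega

end

end Fermat.Agent.S24Lib
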