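/-
P1b: the Riemann genus of the function field of `X₀(N)` over `ℚ̄` and the dimension of its space of
regular differentials are the classical genus formula (S24 + Riemann–Roch).
-/
import Fermat.Agent.S24
import Fermat.Agent.Lib.Curve.RiemannRoch

set_option autoImplicit false

namespace Fermat.Agent.S24Lib

open ModularCurve AlgebraicCurve Fermat.Agent.Curve

local notation "Kbar" => AlgebraicClosure ℚ

variable (N : ℕ) [NeZero N]

/-- the Riemann genus `dim A_F/(A(0)+F)` of the function field of `X₀(N)` is the genus formula -/
theorem genusR_eq_genusFormula :
    (genusR Kbar (modularFunctionFieldBar N) : ℚ) = genusFormula N := by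
  have hx := isFunctionFieldGen_jBar N
  have := hasCanonicalDivisor hx
  rw [← genus_eq_genusR hx]
  exact Fermat.Agent.S24.result N

/-- the space of regular differentials of the function field of `X₀(N)` has dimension
`genusFormula N` -/
theorem finrank_regularDifferentials_modular :
    (Module.finrank Kbar ↥(regularDifferentials (isFunctionFieldGen_jBar N)) : ℚ)
      = genusFormula N := by
  rw [finrank_regularDifferentials]
  exact genusR_eq_genusFormula N

end Fermat.Agent.S24Lib
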