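import Fermat.Agent.Lib.S24.ProjLineCard

/-!
# Orbits of `S` and `S * T` on `P¹(ℤ/N)` (P1 / S24-COMB2)
-/

set_option autoImplicit false

namespace Fermat.Agent.S24Lib

open Matrix MatrixGroups CongruenceSubgroup ModularCurve ModularGroup

section Fixed

variable {N : ℕ}

theorem S_smul_fst (v : Unimod (ZMod N)) : (S • v).1.1 = - v.1.2 := by
  simp [sl_smul_fst, ModularGroup.coe_S]

theorem S_smul_snd (v : Unimod (ZMod N)) : (S • v).1.2 = v.1.1 := by
  simp [sl_smul_snd, ModularGroup.coe_S]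

theorem ST_smul_fst (v : Unimod (ZMod N)) : ((S * T) • v).1.1 = - v.1.2 := by
  simp [sl_smul_fst, ModularGroup.coe_S, ModularGroup.coe_T]

theorem ST_smul_snd (v : Unimod (ZMod N)) : ((S * T) • v).1.2 = v.1.1 + v.1.2 := by
  simp [sl_smul_snd, ModularGroup.coe_S, ModularGroup.coe_T]

theorem T_zpow_smul_fst (k : ℤ) (v : Unimod (ZMod N)) :
    ((T ^ k) • v).1.1 = v.1.1 + k * v.1.2 := by
  simp [sl_smul_fst, ModularGroup.coe_T_zpow]

theorem T_zpow_smul_snd (k : ℤ) (v : Unimod (ZMod N)) :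
    ((T ^ k) • v).1.2 = v.1.2 := by
  simp [sl_smul_snd, ModularGroup.coe_T_zpow]

theorem neg_one_smul_P1 (x : P1 (ZMod N)) : (-1 : SL(2, ℤ)) • x = x := by
  obtain ⟨v, rfl⟩ := P1.mk_surjective x
  rw [P1.smul_mk, P1.mk_eq_mk_iff]
  refine ⟨-1, ?_⟩
  ext <;> simp

/-- the affine point `(x : 1)` -/
def Unimod.affine {R : Type*} [CommRing R] (x : R) : Unimod R := ⟨(x, 1), isCoprime_one_right⟩

@[simp] theorem Unimod.affine_fst {R : Type*} [CommRing R] (x : R) : (Unimod.affine x).1.1 = x := rfl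
@[simp] theorem Unimod.affine_snd {R : Type*} [CommRing R] (x : R) : (Unimod.affine x).1.2 = 1 := rfl

theorem P1.mk_affine_injective {R : Type*} [CommRing R] :
    Function.Injective (fun x : R => P1.mk (Unimod.affine x)) := by
  intro x y h
  obtain ⟨u, hu⟩ := P1.mk_eq_mk_iff.mp h
  have h1 : (u : R) * y = x := congrArg (fun w : Unimod R => w.1.1) hu
  have h2 : (u : R) * 1 = 1 := congrArg (fun w : Unimod R => w.1.2) hu
  rw [mul_one] at h2
  rw [← h1, h2, one_mul]

/-- a unimodular pair whose first entry is a multiple of the second is `(x : 1)` -/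
theorem P1.mk_eq_affine_of_eq_mul {R : Type*} [CommRing R] (v : Unimod R) (x : R)
    (h : v.1.1 = x * v.1.2) : P1.mk v = P1.mk (Unimod.affine x) := by
  obtain ⟨r, s, hrs⟩ := v.2
  have hu : v.1.2 * (r * x + s) = 1 := by rw [h] at hrs; linear_combination hrs
  rw [P1.mk_eq_mk_iff]
  refine ⟨Units.mkOfMulEqOne _ _ hu, ?_⟩
  ext
  · simp [h, mul_comm]
  · simp

theorem fixedBy_S_iff (x : P1 (ZMod N)) :
    x ∈ MulAction.fixedBy (P1 (ZMod N)) S ↔
      ∃ y : ZMod N, y ^ 2 + 1 = 0 ∧ x = P1.mk (Unimod.affine y) := by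
  rw [MulAction.mem_fixedBy]
  constructor
  · intro h
    obtain ⟨v, rfl⟩ := P1.mk_surjective x
    rw [P1.smul_mk, P1.mk_eq_mk_iff] at h
    obtain ⟨u, hu⟩ := h
    have h1 : (u : ZMod N) * v.1.1 = - v.1.2 := by
      rw [← S_smul_fst, ← hu]; rfl
    have h2 : (u : ZMod N) * v.1.2 = v.1.1 := by
      rw [← S_smul_snd, ← hu]; rfl
    obtain ⟨r, s, hrs⟩ := v.2
    refine ⟨u, ?_, P1.mk_eq_affine_of_eq_mul v u h2.symm⟩
    have hc : v.1.2 * (r * u + s) = 1 := by rw [← h2] at hrs; linear_combination hrs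
    have h3 : ((u : ZMod N) ^ 2 + 1) * v.1.2 = 0 := by
      linear_combination (u : ZMod N) * h2 + h1
    calc (u : ZMod N) ^ 2 + 1 = ((u : ZMod N) ^ 2 + 1) * (v.1.2 * (r * u + s)) := by
          rw [hc, mul_one]
      _ = 0 := by rw [← mul_assoc, h3, zero_mul]
  · rintro ⟨y, hy, rfl⟩
    rw [P1.smul_mk, P1.mk_eq_mk_iff]
    have hu : y * (-y) = 1 := by linear_combination -hy
    refine ⟨Units.mkOfMulEqOne _ _ hu, ?_⟩
    ext
    · rw [S_smul_fst]
      simp only [Unimod.smul_fst, Units.val_mkOfMulEqOne, Unimod.affine_fst, Unimod.affine_snd]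
      linear_combination hy
    · rw [S_smul_snd]
      simp

theorem fixedBy_ST_iff (x : P1 (ZMod N)) :
    x ∈ MulAction.fixedBy (P1 (ZMod N)) (S * T) ↔
      ∃ y : ZMod N, y ^ 2 + y + 1 = 0 ∧ x = P1.mk (Unimod.affine y) := by
  rw [MulAction.mem_fixedBy]
  constructor
  · intro h
    obtain ⟨v, rfl⟩ := P1.mk_surjective x
    rw [P1.smul_mk, P1.mk_eq_mk_iff] at h
    obtain ⟨u, hu⟩ := h
    have h1 : (u : ZMod N) * v.1.1 = - v.1.2 := by
      rw [← ST_smul_fst, ← hu]; rfl
    have h2 : (u : ZMod N) * v.1.2 = v.1.1 + v.1.2 := by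
      rw [← ST_smul_snd, ← hu]; rfl
    have h2' : v.1.1 = ((u : ZMod N) - 1) * v.1.2 := by linear_combination -h2
    obtain ⟨r, s, hrs⟩ := v.2
    refine ⟨u - 1, ?_, P1.mk_eq_affine_of_eq_mul v (u - 1) h2'⟩
    have hc : v.1.2 * (r * (u - 1) + s) = 1 := by rw [h2'] at hrs; linear_combination hrs
    have h3 : (((u : ZMod N) - 1) ^ 2 + ((u : ZMod N) - 1) + 1) * v.1.2 = 0 := by
      linear_combination (u : ZMod N) * h2 + h1
    calc ((u : ZMod N) - 1) ^ 2 + ((u : ZMod N) - 1) + 1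
        = (((u : ZMod N) - 1) ^ 2 + ((u : ZMod N) - 1) + 1) * (v.1.2 * (r * (u - 1) + s)) := by
          rw [hc, mul_one]
      _ = 0 := by rw [← mul_assoc, h3, zero_mul]
  · rintro ⟨y, hy, rfl⟩
    rw [P1.smul_mk, P1.mk_eq_mk_iff]
    have hu : (y + 1) * (-y) = 1 := by linear_combination -hy
    refine ⟨Units.mkOfMulEqOne _ _ hu, ?_⟩
    ext
    · rw [ST_smul_fst]
      simp only [Unimod.smul_fst, Units.val_mkOfMulEqOne, Unimod.affine_fst, Unimod.affine_snd]
      linear_combination hy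
    · rw [ST_smul_snd]
      simp

theorem card_fixedBy_S : Nat.card (MulAction.fixedBy (P1 (ZMod N)) S) = nuTwo N := by
  rw [nuTwo]
  symm
  refine Nat.card_congr (Equiv.ofBijective
    (fun y : {x : ZMod N // x ^ 2 + 1 = 0} =>
      (⟨P1.mk (Unimod.affine y.1), (fixedBy_S_iff _).mpr ⟨y.1, y.2, rfl⟩⟩ :
        MulAction.fixedBy (P1 (ZMod N)) S)) ⟨?_, ?_⟩)
  · intro y z h
    exact Subtype.ext (P1.mk_affine_injective (congrArg Subtype.val h))
  · rintro ⟨x, hx⟩
    obtain ⟨y, hy, rfl⟩ := (fixedBy_S_iff x).mp hx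
    exact ⟨⟨y, hy⟩, rfl⟩

theorem card_fixedBy_ST : Nat.card (MulAction.fixedBy (P1 (ZMod N)) (S * T)) = nuThree N := by
  rw [nuThree]
  symm
  refine Nat.card_congr (Equiv.ofBijective
    (fun y : {x : ZMod N // x ^ 2 + x + 1 = 0} =>
      (⟨P1.mk (Unimod.affine y.1), (fixedBy_ST_iff _).mpr ⟨y.1, y.2, rfl⟩⟩ :
        MulAction.fixedBy (P1 (ZMod N)) (S * T))) ⟨?_, ?_⟩)
  · intro y z h
    exact Subtype.ext (P1.mk_affine_injective (congrArg Subtype.val h))
  · rintro ⟨x, hx⟩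
    obtain ⟨y, hy, rfl⟩ := (fixedBy_ST_iff x).mp hx
    exact ⟨⟨y, hy⟩, rfl⟩

end Fixed

/-- Burnside's lemma for the cyclic group generated by an element of finite order. -/
theorem cyclic_burnside {G X : Type*} [Group G] [MulAction G X] [Finite X] (g : G)
    (hg : IsOfFinOrder g) :
    ∑ i ∈ Finset.range (orderOf g), Nat.card (MulAction.fixedBy X (g ^ i)) =
      Nat.card (MulAction.orbitRel.Quotient (Subgroup.zpowers g) X) * orderOf g := by
  classical
  have : Fintype (Subgroup.zpowers g) := Fintype.ofEquiv _ (finEquivZPowers hg)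
  have : Fintype X := Fintype.ofFinite X
  have key := MulAction.sum_card_fixedBy_eq_card_orbits_mul_card_group (Subgroup.zpowers g) X
  rw [← Nat.card_eq_fintype_card (α := Subgroup.zpowers g), Nat.card_zpowers,
    ← Nat.card_eq_fintype_card] at key
  change _ = Nat.card (MulAction.orbitRel.Quotient (Subgroup.zpowers g) X) * _ at key
  rw [← key, ← (finEquivZPowers hg).sum_comp,
    ← Fin.sum_univ_eq_sum_range (fun i => Nat.card (MulAction.fixedBy X (g ^ i)))]
  refine Finset.sum_congr rfl (fun i _ => ?_)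
  rw [← Nat.card_eq_fintype_card, finEquivZPowers_apply]
  rfl

theorem S_pow_two : S ^ 2 = (-1 : SL(2, ℤ)) := by decide
theorem S_pow_three : S ^ 3 = S⁻¹ := by decide
theorem S_pow_four : S ^ 4 = (1 : SL(2, ℤ)) := by decide

theorem orderOf_S : orderOf S = 4 := by
  refine orderOf_eq_of_pow_and_pow_div_prime (by norm_num) S_pow_four ?_
  intro p hp hp4
  have : p = 2 := by
    have : p ∣ 2 ^ 2 := by norm_num; exact hp4
    exact (Nat.prime_dvd_prime_iff_eq hp Nat.prime_two).mp (hp.dvd_of_dvd_pow this)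
  subst this
  norm_num
  rw [S_pow_two]
  decide

theorem ST_pow_two : (S * T) ^ 2 = -(S * T)⁻¹ := by decide
theorem ST_pow_three : (S * T) ^ 3 = (-1 : SL(2, ℤ)) := by decide
theorem ST_pow_four : (S * T) ^ 4 = -(S * T) := by decide
theorem ST_pow_five : (S * T) ^ 5 = (S * T)⁻¹ := by decide
theorem ST_pow_six : (S * T) ^ 6 = (1 : SL(2, ℤ)) := by decide

theorem orderOf_ST : orderOf (S * T) = 6 := by
  refine orderOf_eq_of_pow_and_pow_div_prime (by norm_num) ST_pow_six ?_
  intro p hp hp6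
  have h6 : (6 : ℕ) = 2 * 3 := by norm_num
  rw [h6, hp.dvd_mul] at hp6
  rcases hp6 with h | h
  · have : p = 2 := (Nat.prime_dvd_prime_iff_eq hp Nat.prime_two).mp h
    subst this
    norm_num
    rw [ST_pow_three]
    decide
  · have : p = 3 := (Nat.prime_dvd_prime_iff_eq hp Nat.prime_three).mp h
    subst this
    norm_num
    rw [ST_pow_two]
    decide


section Orbits

variable {N : ℕ}

theorem fixedBy_neg (g : SL(2, ℤ)) :
    MulAction.fixedBy (P1 (ZMod N)) (-g) = MulAction.fixedBy (P1 (ZMod N)) g := by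
  ext x
  rw [MulAction.mem_fixedBy, MulAction.mem_fixedBy, ← neg_one_mul, mul_smul, neg_one_smul_P1]

theorem card_fixedBy_one : Nat.card (MulAction.fixedBy (P1 (ZMod N)) (1 : SL(2, ℤ))) =
    Nat.card (P1 (ZMod N)) := by
  rw [MulAction.fixedBy_one_eq_univ]
  exact Nat.card_congr (Equiv.Set.univ _)

theorem card_fixedBy_neg_one : Nat.card (MulAction.fixedBy (P1 (ZMod N)) (-1 : SL(2, ℤ))) =
    Nat.card (P1 (ZMod N)) := by
  rw [fixedBy_neg, card_fixedBy_one]

theorem card_orbits_S_P1 [NeZero N] :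
    2 * Nat.card (MulAction.orbitRel.Quotient (Subgroup.zpowers S) (P1 (ZMod N))) =
      Nat.card (P1 (ZMod N)) + nuTwo N := by
  have hfin : IsOfFinOrder S := orderOf_pos_iff.mp (by rw [orderOf_S]; norm_num)
  have key := cyclic_burnside (X := P1 (ZMod N)) S hfin
  rw [orderOf_S] at key
  simp only [Finset.sum_range_succ, Finset.sum_range_zero, zero_add] at key
  rw [pow_zero, pow_one, S_pow_two, S_pow_three, MulAction.fixedBy_inv, card_fixedBy_neg_one,
    card_fixedBy_one, card_fixedBy_S] at key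
  omega

theorem card_orbits_ST_P1 [NeZero N] :
    3 * Nat.card (MulAction.orbitRel.Quotient (Subgroup.zpowers (S * T)) (P1 (ZMod N))) =
      Nat.card (P1 (ZMod N)) + 2 * nuThree N := by
  have hfin : IsOfFinOrder (S * T) := orderOf_pos_iff.mp (by rw [orderOf_ST]; norm_num)
  have key := cyclic_burnside (X := P1 (ZMod N)) (S * T) hfin
  rw [orderOf_ST] at key
  simp only [Finset.sum_range_succ, Finset.sum_range_zero, zero_add] at key
  rw [pow_zero, pow_one, ST_pow_two, ST_pow_three, ST_pow_four, ST_pow_five] at key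
  simp only [fixedBy_neg, MulAction.fixedBy_inv, card_fixedBy_one, card_fixedBy_ST] at key
  omega

end Orbits

end Fermat.Agent.S24Lib
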