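import Fermat.Agent.Lib.S24.ProjLine
import Fermat.Prelude.Def_ModularCurve_GenusNumerics

/-!
# The cardinality of `P¹(ℤ/N)` is the Dedekind psi function (P1 / S24-COMB2)
-/

set_option autoImplicit false

namespace Fermat.Agent.S24Lib

open Matrix MatrixGroups CongruenceSubgroup ModularCurve

section General

variable {R S : Type*} [CommRing R] [CommRing S]

theorem Unimod.stabilizer_eq_bot (v : Unimod R) : MulAction.stabilizer Rˣ v = ⊥ := by
  rw [eq_bot_iff]
  intro u hu
  rw [MulAction.mem_stabilizer_iff] at hu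
  obtain ⟨x, y, hxy⟩ := v.2
  have h1 : (u : R) * v.1.1 = v.1.1 := congrArg (fun w : Unimod R => w.1.1) hu
  have h2 : (u : R) * v.1.2 = v.1.2 := congrArg (fun w : Unimod R => w.1.2) hu
  rw [Subgroup.mem_bot]
  ext
  rw [Units.val_one]
  linear_combination -((u : R) * hxy) + x * h1 + y * h2 + hxy

theorem Unimod.card_eq [Finite R] :
    Nat.card (Unimod R) = Nat.card (P1 R) * Nat.card Rˣ := by
  rw [← Nat.card_prod]
  exact Nat.card_congr (MulAction.selfEquivOrbitsQuotientProd Unimod.stabilizer_eq_bot)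

/-- transport of unimodular pairs along a ring isomorphism -/
def Unimod.congr (e : R ≃+* S) : Unimod R ≃ Unimod S where
  toFun v := ⟨(e v.1.1, e v.1.2), v.2.map e.toRingHom⟩
  invFun v := ⟨(e.symm v.1.1, e.symm v.1.2), v.2.map e.symm.toRingHom⟩
  left_inv v := by ext <;> simp
  right_inv v := by ext <;> simp

/-- unimodular pairs over a product ring -/
def Unimod.prodEquiv : Unimod (R × S) ≃ Unimod R × Unimod S where
  toFun v := (⟨(v.1.1.1, v.1.2.1), v.2.map (RingHom.fst R S)⟩,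
    ⟨(v.1.1.2, v.1.2.2), v.2.map (RingHom.snd R S)⟩)
  invFun w := ⟨((w.1.1.1, w.2.1.1), (w.1.1.2, w.2.1.2)), by
    obtain ⟨x₁, y₁, h₁⟩ := w.1.2
    obtain ⟨x₂, y₂, h₂⟩ := w.2.2
    exact ⟨(x₁, x₂), (y₁, y₂), Prod.ext h₁ h₂⟩⟩
  left_inv v := by ext <;> rfl
  right_inv w := by ext <;> rfl

end General

theorem Unimod.card_mul {m n : ℕ} (h : m.Coprime n) :
    Nat.card (Unimod (ZMod (m * n))) = Nat.card (Unimod (ZMod m)) * Nat.card (Unimod (ZMod n)) := by
  rw [← Nat.card_prod]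
  exact Nat.card_congr ((Unimod.congr (ZMod.chineseRemainder h)).trans Unimod.prodEquiv)

theorem isUnit_iff_not_dvd_val {p k : ℕ} (hp : p.Prime) (hk : k ≠ 0) (a : ZMod (p ^ k)) :
    IsUnit a ↔ ¬ p ∣ a.val := by
  have : NeZero (p ^ k) := ⟨pow_ne_zero _ hp.ne_zero⟩
  conv_lhs => rw [← ZMod.natCast_zmod_val a]
  rw [ZMod.isUnit_iff_coprime, Nat.coprime_pow_right_iff (Nat.pos_of_ne_zero hk),
    Nat.coprime_comm, hp.coprime_iff_not_dvd]

theorem isCoprime_iff_isUnit_or {p k : ℕ} (hp : p.Prime) (hk : k ≠ 0) (a c : ZMod (p ^ k)) :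
    IsCoprime a c ↔ IsUnit a ∨ IsUnit c := by
  constructor
  · intro h
    by_contra hcon
    push Not at hcon
    rw [isUnit_iff_not_dvd_val hp hk, isUnit_iff_not_dvd_val hp hk, not_not, not_not] at hcon
    have : NeZero (p ^ k) := ⟨pow_ne_zero _ hp.ne_zero⟩
    exact Unimod.no_common_prime ⟨(a, c), h⟩ a.val c.val (ZMod.natCast_zmod_val _)
      (ZMod.natCast_zmod_val _) p hp (dvd_pow_self p hk) hcon.1 hcon.2
  · rintro (h | h)
    · obtain ⟨b, hb⟩ := h.exists_left_inv
      exact ⟨b, 0, by rw [hb, zero_mul, add_zero]⟩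
    · obtain ⟨b, hb⟩ := h.exists_left_inv
      exact ⟨0, b, by rw [hb, zero_mul, zero_add]⟩

theorem card_nonunits_add_totient (n : ℕ) [NeZero n] :
    Nat.card {a : ZMod n // ¬ IsUnit a} + n.totient = n := by
  have h1 : Nat.card {a : ZMod n // IsUnit a} = n.totient := by
    rw [← ZMod.card_units_eq_totient n, ← Nat.card_eq_fintype_card]
    refine Nat.card_congr (Equiv.ofBijective (fun a => a.2.unit) ⟨?_, ?_⟩).symm.symm
    · intro a b hab
      have := congrArg Units.val hab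
      simp only [IsUnit.unit_spec] at this
      exact Subtype.ext this
    · intro u
      exact ⟨⟨u, u.isUnit⟩, Units.ext rfl⟩
  have h2 := Nat.card_congr (Equiv.sumCompl (fun a : ZMod n => IsUnit a))
  rw [Nat.card_sum, h1, Nat.card_zmod] at h2
  omega

theorem Unimod.card_prime_pow {p k : ℕ} (hp : p.Prime) (hk : k ≠ 0) :
    Nat.card (Unimod (ZMod (p ^ k))) + (p ^ (k - 1)) ^ 2 = (p ^ k) ^ 2 := by
  have : NeZero (p ^ k) := ⟨pow_ne_zero _ hp.ne_zero⟩
  have h1 : Nat.card {a : ZMod (p ^ k) // ¬ IsUnit a} = p ^ (k - 1) := by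
    have := card_nonunits_add_totient (p ^ k)
    rw [Nat.totient_prime_pow hp (Nat.pos_of_ne_zero hk)] at this
    have h3 : p ^ k = p ^ (k - 1) * p := by
      rw [← pow_succ, Nat.sub_add_cancel (Nat.pos_of_ne_zero hk)]
    have hp1 : 1 ≤ p := hp.one_lt.le
    have h4 : p ^ (k - 1) * (p - 1) + p ^ (k - 1) = p ^ (k - 1) * p := by
      rw [← Nat.mul_succ, Nat.succ_eq_add_one, Nat.sub_add_cancel hp1]
    omega
  have e1 : Unimod (ZMod (p ^ k)) ≃
      {v : ZMod (p ^ k) × ZMod (p ^ k) // ¬ (¬ IsUnit v.1 ∧ ¬ IsUnit v.2)} :=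
    Equiv.subtypeEquivRight (fun v => by
      rw [isCoprime_iff_isUnit_or hp hk]; tauto)
  have e2 : {v : ZMod (p ^ k) × ZMod (p ^ k) // (¬ IsUnit v.1 ∧ ¬ IsUnit v.2)} ≃
      {a : ZMod (p ^ k) // ¬ IsUnit a} × {a : ZMod (p ^ k) // ¬ IsUnit a} :=
    Equiv.subtypeProdEquivProd (p := fun a : ZMod (p ^ k) => ¬ IsUnit a)
      (q := fun a : ZMod (p ^ k) => ¬ IsUnit a)
  have h2 := Nat.card_congr
    (Equiv.sumCompl (fun v : ZMod (p ^ k) × ZMod (p ^ k) => ¬ IsUnit v.1 ∧ ¬ IsUnit v.2))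
  rw [Nat.card_sum, Nat.card_congr e2, Nat.card_prod, h1, ← Nat.card_congr e1, Nat.card_prod,
    Nat.card_zmod] at h2
  rw [sq, sq]
  omega

/-- the indicator of squarefree numbers as an arithmetic function -/
def sqfInd : ArithmeticFunction ℕ :=
  ⟨fun n => if Squarefree n then 1 else 0, by simp⟩

theorem sqfInd_apply (n : ℕ) : sqfInd n = if Squarefree n then 1 else 0 := rfl

theorem sqfInd_isMultiplicative : sqfInd.IsMultiplicative := by
  refine ⟨by simp [sqfInd_apply], ?_⟩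
  intro m n hmn
  simp only [sqfInd_apply, Nat.squarefree_mul hmn]
  by_cases h1 : Squarefree m <;> by_cases h2 : Squarefree n <;> simp [h1, h2]

theorem dedekindPsi_eq (N : ℕ) : dedekindPsi N = (sqfInd * ArithmeticFunction.id) N := by
  rw [ArithmeticFunction.mul_apply,
    Nat.sum_divisorsAntidiagonal (f := fun i j => sqfInd i * ArithmeticFunction.id j),
    dedekindPsi, Finset.sum_filter]
  refine Finset.sum_congr rfl (fun d _ => ?_)
  simp only [sqfInd_apply, ArithmeticFunction.id_apply]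
  split_ifs <;> simp

theorem dedekindPsi_mul {m n : ℕ} (h : m.Coprime n) :
    dedekindPsi (m * n) = dedekindPsi m * dedekindPsi n := by
  simp only [dedekindPsi_eq]
  exact (sqfInd_isMultiplicative.mul ArithmeticFunction.isMultiplicative_id).map_mul_of_coprime h

theorem dedekindPsi_prime_pow {p k : ℕ} (hp : p.Prime) (hk : k ≠ 0) :
    dedekindPsi (p ^ k) = p ^ k + p ^ (k - 1) := by
  obtain ⟨j, rfl⟩ := Nat.exists_eq_succ_of_ne_zero hk
  rw [dedekindPsi, Finset.sum_filter, Nat.sum_divisors_prime_pow hp, Finset.sum_range_succ',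
    Finset.sum_range_succ']
  have h0 : ∀ i ∈ Finset.range j,
      (if Squarefree (p ^ (i + 1 + 1)) then p ^ (j + 1) / p ^ (i + 1 + 1) else 0) = 0 := by
    intro i _
    rw [if_neg]
    rw [Nat.squarefree_pow_iff hp.ne_one (by omega)]
    omega
  rw [Finset.sum_eq_zero h0]
  simp only [zero_add, pow_zero, pow_one, squarefree_one, if_true, Nat.div_one,
    hp.squarefree, Nat.succ_sub_one, Nat.succ_eq_add_one]
  rw [pow_succ, Nat.mul_div_cancel _ hp.pos]
  ring

theorem card_units_zmod (n : ℕ) [NeZero n] : Nat.card (ZMod n)ˣ = n.totient := by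
  rw [Nat.card_eq_fintype_card, ZMod.card_units_eq_totient]

theorem card_P1_zmod (N : ℕ) (hN : N ≠ 0) : Nat.card (P1 (ZMod N)) = dedekindPsi N := by
  induction N using Nat.recOnPosPrimePosCoprime with
  | zero => exact absurd rfl hN
  | one =>
    rw [dedekindPsi_one]
    have : Subsingleton (Unimod (ZMod 1)) := ⟨fun v w => by ext <;> exact Subsingleton.elim _ _⟩
    have : Subsingleton (P1 (ZMod 1)) := P1.mk_surjective.subsingleton
    have : Nonempty (P1 (ZMod 1)) := ⟨P1.inftyPt 1⟩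
    exact Nat.card_unique
  | prime_pow p k hp hk =>
    have : NeZero (p ^ k) := ⟨pow_ne_zero _ hp.ne_zero⟩
    have h1 := Unimod.card_prime_pow hp hk.ne'
    rw [Unimod.card_eq, card_units_zmod, Nat.totient_prime_pow hp hk] at h1
    rw [dedekindPsi_prime_pow hp hk.ne']
    have h3 : p ^ k = p ^ (k - 1) * p := by
      rw [← pow_succ, Nat.sub_add_cancel hk]
    have hpos : 0 < p ^ (k - 1) * (p - 1) :=
      Nat.mul_pos (pow_pos hp.pos _) (Nat.sub_pos_of_lt hp.one_lt)
    apply Nat.eq_of_mul_eq_mul_right hpos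
    obtain ⟨q, rfl⟩ : ∃ q, p = q + 1 := ⟨p - 1, (Nat.sub_add_cancel hp.one_lt.le).symm⟩
    rw [h3] at h1 ⊢
    simp only [Nat.add_sub_cancel] at h1 ⊢
    nlinarith [h1]
  | coprime a b ha hb hab iha ihb =>
    have ha0 : a ≠ 0 := by omega
    have hb0 : b ≠ 0 := by omega
    have : NeZero a := ⟨ha0⟩
    have : NeZero b := ⟨hb0⟩
    have : NeZero (a * b) := ⟨hN⟩
    have h1 := Unimod.card_mul hab
    rw [Unimod.card_eq, Unimod.card_eq, Unimod.card_eq, card_units_zmod, card_units_zmod,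
      card_units_zmod, Nat.totient_mul hab, iha ha0, ihb hb0] at h1
    rw [dedekindPsi_mul hab]
    have hpos : 0 < a.totient * b.totient :=
      Nat.mul_pos (Nat.totient_pos.mpr (Nat.pos_of_ne_zero ha0))
        (Nat.totient_pos.mpr (Nat.pos_of_ne_zero hb0))
    apply Nat.eq_of_mul_eq_mul_right hpos
    rw [h1]
    ring

end Fermat.Agent.S24Lib
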