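import Mathlib
import Fermat.Prelude.Def_ModularCurve_JqCoeff
import Fermat.Agent.Lib.S22.UpperTriangular
import Fermat.Agent.Lib.S24.JFun
import Fermat.Agent.Lib.S24.JSurjective
import Fermat.Agent.Lib.S24.JPolynomial
import Fermat.Agent.Lib.S24.JExpansion
import Fermat.Agent.Lib.S24.JUpper
import Fermat.Agent.Lib.S24.JOrdDef
import Fermat.Agent.Lib.S24.JDeriv
import Fermat.Agent.Lib.S24.JOrders

/-!
# Complex analysis of the `j`-function (S24, analytic part): umbrella file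

* AN1 `JFun.lean`: `jFun`, `mdiff_jFun`, `jFun_smul`, `jFun_eq_zero_iff`, `jFun_eq_1728_iff`
* AN2 `JSurjective.lean`: `jFun_surjective`
* AN3 `JOrdDef.lean`, `JDeriv.lean`, `JOrders.lean`: `ordAt`, `ellRho`, `ordAt_jFun_sub_of_ne`,
  `ST_smul_ellRho`, `jFun_ellRho`, `ordAt_jFun_ellRho`, `S_smul_I`, `jFun_I`, `ordAt_jFun_sub_I`
* AN4 `JExpansion.lean`, `JUpper.lean`: `qExpansion_E₄`, `qExpansion_discriminant`,
  `tendsto_jFun_mul_qParam`, `qExpansion_comp_upper`, `comp_upper_props`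
* AN5 `JPolynomial.lean`: `exists_polynomial_jFun`
-/
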