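import Fermat.Agent.Lib.S24.OrbitsST

/-!
# Orbits of `T` on `P¹(ℤ/N)`: the cusps of `Γ₀(N)` (P1 / S24-COMB2)
-/

set_option autoImplicit false

namespace Fermat.Agent.S24Lib

open Matrix MatrixGroups CongruenceSubgroup ModularCurve ModularGroup

/-- the integer core of the classification of cusps -/
theorem cusp_core {d e A B : ℤ} (hA : IsCoprime A d) (hB : IsCoprime B d)
    (hAB : (Int.gcd d e : ℤ) ∣ B - A) :
    ∃ t k : ℤ, (1 + t * e) * A + k * d = B ∧ IsCoprime (1 + t * e) (d * e) := by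
  obtain ⟨x, y, hxy⟩ := hA
  obtain ⟨x', y', hxy'⟩ := hB
  obtain ⟨m, hm⟩ := hAB
  have hbez := Int.gcd_eq_gcd_ab d e
  set r := Int.gcdA d e
  set s := Int.gcdB d e
  generalize (Int.gcd d e : ℤ) = g at hm hbez
  have h1 : (1 + s * m * x * e) * A + (r * m + e * s * m * y) * d = B := by
    have : B - A = (d * r + e * s) * m := by rw [hm, hbez]
    linear_combination -this + (e * s * m) * hxy
  refine ⟨s * m * x, r * m + e * s * m * y, h1, ?_⟩
  apply IsCoprime.mul_right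
  · refine ⟨x' * A, x' * (r * m + e * s * m * y) + y', ?_⟩
    linear_combination x' * h1 + hxy'
  · exact ⟨1, -(s * m * x), by ring⟩

variable {N : ℕ}

/-- the quotient map to the set of `T`-orbits -/
def cuspMk (v : Unimod (ZMod N)) :
    MulAction.orbitRel.Quotient (Subgroup.zpowers T) (P1 (ZMod N)) :=
  Quotient.mk'' (P1.mk v)

theorem cuspMk_surjective : Function.Surjective (cuspMk (N := N)) := by
  intro q
  obtain ⟨x, rfl⟩ := Quotient.mk''_surjective q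
  obtain ⟨v, rfl⟩ := P1.mk_surjective x
  exact ⟨v, rfl⟩

theorem cuspMk_eq_iff (v w : Unimod (ZMod N)) :
    cuspMk v = cuspMk w ↔ ∃ (k : ℤ) (u : (ZMod N)ˣ), u • v = T ^ k • w := by
  unfold cuspMk MulAction.orbitRel.Quotient
  rw [Quotient.eq'']
  rw [MulAction.orbitRel_apply, MulAction.mem_orbit_iff]
  constructor
  · rintro ⟨⟨h, hh⟩, hv⟩
    obtain ⟨k, rfl⟩ := Subgroup.mem_zpowers_iff.mp hh
    change T ^ k • P1.mk w = P1.mk v at hv
    rw [P1.smul_mk, P1.mk_eq_mk_iff] at hv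
    exact ⟨k, hv⟩
  · rintro ⟨k, u, hu⟩
    refine ⟨⟨T ^ k, Subgroup.mem_zpowers_iff.mpr ⟨k, rfl⟩⟩, ?_⟩
    change T ^ k • P1.mk w = P1.mk v
    rw [P1.smul_mk, P1.mk_eq_mk_iff]
    exact ⟨u, hu⟩

/-- the gcd attached to a divisor -/
abbrev cuspGcd (N d : ℕ) : ℕ := Nat.gcd d (N / d)

/-- the index set for cusps of `Γ₀(N)` -/
def CuspIdx (N : ℕ) : Type := Σ d : {d : ℕ // d ∈ N.divisors}, (ZMod (cuspGcd N d))ˣ

instance (d : {d : ℕ // d ∈ N.divisors}) : NeZero (cuspGcd N d) :=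
  ⟨Nat.gcd_ne_zero_left (Nat.pos_of_mem_divisors d.2).ne'⟩

theorem card_cuspIdx : Nat.card (CuspIdx N) = cuspCount N := by
  unfold CuspIdx
  rw [Nat.card_sigma, cuspCount,
    ← Finset.sum_attach N.divisors (fun d => Nat.totient (Nat.gcd d (N / d)))]
  refine Finset.sum_congr rfl (fun d _ => ?_)
  rw [Nat.card_eq_fintype_card, ZMod.card_units_eq_totient]

theorem exists_cuspNum (i : CuspIdx N) :
    ∃ B : ℕ, B.Coprime i.1 ∧ ((B : ℕ) : ZMod (cuspGcd N i.1)) = i.2 := by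
  have hd : NeZero (i.1 : ℕ) := ⟨(Nat.pos_of_mem_divisors i.1.2).ne'⟩
  have hdvd : cuspGcd N i.1 ∣ (i.1 : ℕ) := Nat.gcd_dvd_left _ _
  obtain ⟨b', hb'⟩ := ZMod.unitsMap_surjective hdvd i.2
  refine ⟨(b' : ZMod i.1).val, ZMod.val_coe_unit_coprime b', ?_⟩
  rw [← hb', ZMod.unitsMap_val, ZMod.natCast_val]

/-- a numerator for the normal form of a cusp -/
noncomputable def cuspNum (i : CuspIdx N) : ℕ := (exists_cuspNum i).choose

theorem cuspNum_coprime (i : CuspIdx N) : (cuspNum i).Coprime i.1 :=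
  (exists_cuspNum i).choose_spec.1

theorem cuspNum_cast (i : CuspIdx N) : ((cuspNum i : ℕ) : ZMod (cuspGcd N i.1)) = i.2 :=
  (exists_cuspNum i).choose_spec.2

/-- the normal form of a cusp -/
noncomputable def cuspRep (i : CuspIdx N) : Unimod (ZMod N) :=
  ⟨((cuspNum i : ZMod N), ((i.1 : ℕ) : ZMod N)), by
    have h := (Nat.isCoprime_iff_coprime.mpr (cuspNum_coprime i)).map (Int.castRingHom (ZMod N))
    simpa using h⟩

@[simp] theorem cuspRep_fst (i : CuspIdx N) : (cuspRep i).1.1 = (cuspNum i : ZMod N) := rfl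
@[simp] theorem cuspRep_snd (i : CuspIdx N) : (cuspRep i).1.2 = ((i.1 : ℕ) : ZMod N) := rfl

theorem dvd_of_unit_mul_eq [NeZero N] {d d' : ℕ} (hd : d ∣ N) (u : ZMod N)
    (h : u * (d : ZMod N) = (d' : ZMod N)) : d ∣ d' := by
  rw [← ZMod.natCast_zmod_val u, ← Nat.cast_mul, ZMod.natCast_eq_natCast_iff] at h
  exact (h.dvd_iff hd).mp (Dvd.intro_left _ rfl)

theorem cast_unit_eq_one [NeZero N] {d g : ℕ} (hd : d ∣ N) (hg : g ∣ N / d) (u : ZMod N)
    (h : u * (d : ZMod N) = (d : ZMod N)) : ((u.val : ℕ) : ZMod g) = 1 := by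
  have hN : N ≠ 0 := NeZero.ne N
  have hd0 : d ≠ 0 := fun h0 => hN (by rw [h0, zero_dvd_iff] at hd; exact hd)
  rw [← ZMod.natCast_zmod_val u, ← Nat.cast_mul, ZMod.natCast_eq_natCast_iff] at h
  have h2 : u.val * d ≡ 1 * d [MOD (N / d) * d] := by
    rw [Nat.div_mul_cancel hd, one_mul]; exact h
  have h3 := (Nat.ModEq.mul_right_cancel' hd0 h2).of_dvd hg
  have h4 := (ZMod.natCast_eq_natCast_iff _ _ _).mpr h3
  rw [h4, Nat.cast_one]

theorem cuspRep_injective [NeZero N] (i j : CuspIdx N)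
    (h : cuspMk (cuspRep i) = cuspMk (cuspRep j)) : i = j := by
  rw [cuspMk_eq_iff] at h
  obtain ⟨k, u, hu⟩ := h
  have h1 : (u : ZMod N) * (cuspNum i : ZMod N) =
      (cuspNum j : ZMod N) + (k : ZMod N) * ((j.1 : ℕ) : ZMod N) := by
    have := congrArg (fun w : Unimod (ZMod N) => w.1.1) hu
    simp only [Unimod.smul_fst, T_zpow_smul_fst, cuspRep_fst, cuspRep_snd] at this
    exact this
  have h2 : (u : ZMod N) * ((i.1 : ℕ) : ZMod N) = ((j.1 : ℕ) : ZMod N) := by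
    have := congrArg (fun w : Unimod (ZMod N) => w.1.2) hu
    simp only [Unimod.smul_snd, T_zpow_smul_snd, cuspRep_snd] at this
    exact this
  have hBi := cuspNum_cast i
  have hBj := cuspNum_cast j
  generalize cuspNum i = B at h1 hBi
  generalize cuspNum j = B' at h1 hBj
  obtain ⟨⟨d, hd⟩, b⟩ := i
  obtain ⟨⟨d', hd'⟩, b'⟩ := j
  simp only at h1 h2 hBi hBj
  have hdN := Nat.dvd_of_mem_divisors hd
  have hd'N := Nat.dvd_of_mem_divisors hd'
  have e1 : d ∣ d' := dvd_of_unit_mul_eq hdN _ h2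
  have e2 : d' ∣ d := by
    refine dvd_of_unit_mul_eq hd'N ((u⁻¹ : (ZMod N)ˣ) : ZMod N) ?_
    rw [← h2, ← mul_assoc, Units.inv_mul, one_mul]
  obtain rfl : d = d' := Nat.dvd_antisymm e1 e2
  refine Sigma.ext rfl (heq_of_eq (Units.ext ?_))
  rw [← hBi, ← hBj]
  have hgN : cuspGcd N d ∣ N := (Nat.gcd_dvd_left _ _).trans hdN
  have hu1 := cast_unit_eq_one hdN (Nat.gcd_dvd_right d (N / d)) _ h2
  have h3 := congrArg (ZMod.castHom hgN (ZMod (cuspGcd N d))) h1
  simp only [map_mul, map_add, map_natCast, map_intCast] at h3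
  have h4 : ((d : ℕ) : ZMod (cuspGcd N d)) = 0 :=
    (ZMod.natCast_eq_zero_iff _ _).mpr (Nat.gcd_dvd_left _ _)
  rw [h4, mul_zero, add_zero, ZMod.castHom_apply, ← ZMod.natCast_val, hu1, one_mul] at h3
  exact h3

theorem cuspRep_surjective [NeZero N] (v : Unimod (ZMod N)) :
    ∃ i : CuspIdx N, cuspMk v = cuspMk (cuspRep i) := by
  have hN : N ≠ 0 := NeZero.ne N
  obtain ⟨d, hdN, u₀, hu₀, hc⟩ := ZMod.eq_unit_mul_divisor v.1.2
  set w₀ : (ZMod N)ˣ := hu₀.unit with hw₀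
  have hw₀c : (w₀ : ZMod N) = u₀ := hu₀.unit_spec
  -- the rescaled pair `(a', d)`
  set v' : Unimod (ZMod N) := w₀⁻¹ • v with hv'
  have hv'2 : v'.1.2 = (d : ZMod N) := by
    rw [hv', Unimod.smul_snd, hc, ← hw₀c, ← mul_assoc, Units.inv_mul, one_mul]
  set A : ℕ := v'.1.1.val with hA
  have hA1 : (A : ZMod N) = v'.1.1 := ZMod.natCast_zmod_val _
  have hAd : A.Coprime d := by
    apply Nat.coprime_of_dvd
    intro p hp hpA hpd
    exact Unimod.no_common_prime v' A d hA1 hv'2.symm p hp (hpd.trans hdN) hpA hpd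
  have hdmem : d ∈ N.divisors := Nat.mem_divisors.mpr ⟨hdN, hN⟩
  have hAg : A.Coprime (cuspGcd N d) := hAd.coprime_dvd_right (Nat.gcd_dvd_left _ _)
  set i : CuspIdx N := ⟨⟨d, hdmem⟩, ZMod.unitOfCoprime A hAg⟩ with hi
  refine ⟨i, ?_⟩
  have hB1 : (cuspNum i).Coprime d := cuspNum_coprime i
  have hB2 : ((cuspNum i : ℕ) : ZMod (cuspGcd N d)) = (A : ZMod (cuspGcd N d)) := by
    have := cuspNum_cast i
    rw [hi] at this
    simp only [ZMod.coe_unitOfCoprime] at this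
    exact this
  have hrep1 : (cuspRep i).1.1 = (cuspNum i : ZMod N) := rfl
  have hrep2 : (cuspRep i).1.2 = (d : ZMod N) := rfl
  generalize cuspNum i = B at hB1 hB2 hrep1
  -- integer core
  have hAB : ((Int.gcd (d : ℤ) ((N / d : ℕ) : ℤ) : ℕ) : ℤ) ∣ (B : ℤ) - (A : ℤ) := by
    rw [Int.gcd_natCast_natCast]
    have h := (ZMod.intCast_eq_intCast_iff_dvd_sub (A : ℤ) (B : ℤ) (cuspGcd N d)).mp (by
      push_cast; exact hB2.symm)
    exact h
  obtain ⟨t, k, hcore, hcop⟩ := cusp_core (d := (d : ℤ)) (e := ((N / d : ℕ) : ℤ))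
    (Nat.isCoprime_iff_coprime.mpr hAd) (Nat.isCoprime_iff_coprime.mpr hB1) hAB
  have hde : (d : ℤ) * ((N / d : ℕ) : ℤ) = (N : ℤ) := by
    rw [← Nat.cast_mul, Nat.mul_div_cancel' hdN]
  rw [hde] at hcop
  -- the unit `1 + t * (N / d)` mod `N`
  have hwu : IsUnit (((1 + t * ((N / d : ℕ) : ℤ) : ℤ)) : ZMod N) := by
    have h := hcop.map (Int.castRingHom (ZMod N))
    simp only [eq_intCast, Int.cast_natCast, ZMod.natCast_self] at h
    exact isCoprime_zero_right.mp h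
  set w : (ZMod N)ˣ := hwu.unit with hw
  have hwc : (w : ZMod N) = ((1 + t * ((N / d : ℕ) : ℤ) : ℤ) : ZMod N) := hwu.unit_spec
  rw [cuspMk_eq_iff]
  refine ⟨-k, w * w₀⁻¹, ?_⟩
  have hcore' := congrArg (Int.cast : ℤ → ZMod N) hcore
  simp only [Int.cast_add, Int.cast_mul, Int.cast_one, Int.cast_natCast] at hcore'
  have hde' : ((d : ℕ) : ZMod N) * ((N / d : ℕ) : ZMod N) = 0 := by
    rw [← Nat.cast_mul, Nat.mul_div_cancel' hdN, ZMod.natCast_self]
  rw [mul_smul, ← hv']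
  ext
  · rw [Unimod.smul_fst, T_zpow_smul_fst, hrep1, hrep2, hwc, ← hA1]
    simp only [Int.cast_add, Int.cast_mul, Int.cast_one, Int.cast_natCast, Int.cast_neg]
    linear_combination hcore'
  · rw [Unimod.smul_snd, T_zpow_smul_snd, hrep2, hwc, hv'2]
    simp only [Int.cast_add, Int.cast_mul, Int.cast_one, Int.cast_natCast]
    linear_combination (t : ZMod N) * hde'

theorem card_orbits_T_P1 [NeZero N] :
    Nat.card (MulAction.orbitRel.Quotient (Subgroup.zpowers T) (P1 (ZMod N))) = cuspCount N := by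
  rw [← card_cuspIdx]
  symm
  refine Nat.card_congr (Equiv.ofBijective (fun i : CuspIdx N => cuspMk (cuspRep i)) ⟨?_, ?_⟩)
  · intro i j h
    exact cuspRep_injective i j h
  · intro q
    obtain ⟨v, rfl⟩ := cuspMk_surjective q
    obtain ⟨i, hi⟩ := cuspRep_surjective v
    exact ⟨i, hi.symm⟩

end Fermat.Agent.S24Lib
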