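import Mathlib

/-!
# The projective line over `ZMod N` and the action of `SL(2, ℤ)` (P1 / S24-COMB2)

`Unimod R` is the set of unimodular pairs `(a, c)` in `R²`, `P1 R` its quotient by the scaling
action of `Rˣ`.  The group `SL(2, ℤ)` acts on `P1 (ZMod N)` through its first-column action, the
action is transitive and the stabiliser of `(1 : 0)` is `Γ₀(N)`.
-/

set_option autoImplicit false

namespace Fermat.Agent.S24Lib

open Matrix MatrixGroups CongruenceSubgroup

/-! ## Unimodular pairs -/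

/-- Unimodular pairs over a commutative ring. -/
def Unimod (R : Type*) [CommRing R] : Type _ := {v : R × R // IsCoprime v.1 v.2}

namespace Unimod

variable {R : Type*} [CommRing R]

instance [Fintype R] [DecidableEq R] : Finite (Unimod R) := by
  unfold Unimod; infer_instance

@[ext] theorem ext {v w : Unimod R} (h1 : v.1.1 = w.1.1) (h2 : v.1.2 = w.1.2) : v = w :=
  Subtype.ext (Prod.ext h1 h2)

instance : SMul Rˣ (Unimod R) where
  smul u v := ⟨(u * v.1.1, u * v.1.2), by
    obtain ⟨x, y, h⟩ := v.2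
    refine ⟨x * (↑u⁻¹ : R), y * (↑u⁻¹ : R), ?_⟩
    have hu : (↑u⁻¹ : R) * u = 1 := Units.inv_mul u
    linear_combination h + (x * v.1.1 + y * v.1.2) * hu⟩

@[simp] theorem smul_fst (u : Rˣ) (v : Unimod R) : (u • v).1.1 = u * v.1.1 := rfl
@[simp] theorem smul_snd (u : Rˣ) (v : Unimod R) : (u • v).1.2 = u * v.1.2 := rfl

instance : MulAction Rˣ (Unimod R) where
  one_smul v := by ext <;> simp
  mul_smul u u' v := by ext <;> simp [mul_assoc]

end Unimod

/-- The projective line over a commutative ring (unimodular pairs up to units). -/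
def P1 (R : Type*) [CommRing R] : Type _ := MulAction.orbitRel.Quotient Rˣ (Unimod R)

namespace P1

variable {R : Type*} [CommRing R]

/-- The class of a unimodular pair. -/
def mk (v : Unimod R) : P1 R := Quotient.mk'' v

theorem mk_eq_mk_iff {v w : Unimod R} : mk v = mk w ↔ ∃ u : Rˣ, u • w = v := by
  unfold mk P1 MulAction.orbitRel.Quotient
  rw [Quotient.eq'']
  exact MulAction.orbitRel_apply.trans MulAction.mem_orbit_iff

theorem mk_surjective : Function.Surjective (mk : Unimod R → P1 R) := Quotient.mk''_surjective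

instance [Fintype R] [DecidableEq R] : Finite (P1 R) :=
  Finite.of_surjective mk mk_surjective

end P1

/-! ## The action of `SL(2, ℤ)` -/

section Action

variable (N : ℕ)

/-- first-column action of `SL(2, ℤ)` on unimodular pairs mod `N` -/
instance : SMul SL(2, ℤ) (Unimod (ZMod N)) where
  smul g v := ⟨(((g 0 0 : ℤ) : ZMod N) * v.1.1 + ((g 0 1 : ℤ) : ZMod N) * v.1.2,
      ((g 1 0 : ℤ) : ZMod N) * v.1.1 + ((g 1 1 : ℤ) : ZMod N) * v.1.2), by
    obtain ⟨x, y, h⟩ := v.2
    have hdet : ((g 0 0 : ℤ) : ZMod N) * ((g 1 1 : ℤ) : ZMod N)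
        - ((g 0 1 : ℤ) : ZMod N) * ((g 1 0 : ℤ) : ZMod N) = 1 := by
      have := g.det_coe
      rw [Matrix.det_fin_two] at this
      have h2 := congrArg (Int.cast : ℤ → ZMod N) this
      push_cast at h2
      exact h2
    refine ⟨x * ((g 1 1 : ℤ) : ZMod N) - y * ((g 1 0 : ℤ) : ZMod N),
      y * ((g 0 0 : ℤ) : ZMod N) - x * ((g 0 1 : ℤ) : ZMod N), ?_⟩
    linear_combination h + (x * v.1.1 + y * v.1.2) * hdet⟩

variable {N}

@[simp] theorem sl_smul_fst (g : SL(2, ℤ)) (v : Unimod (ZMod N)) :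
    (g • v).1.1 = ((g 0 0 : ℤ) : ZMod N) * v.1.1 + ((g 0 1 : ℤ) : ZMod N) * v.1.2 := rfl

@[simp] theorem sl_smul_snd (g : SL(2, ℤ)) (v : Unimod (ZMod N)) :
    (g • v).1.2 = ((g 1 0 : ℤ) : ZMod N) * v.1.1 + ((g 1 1 : ℤ) : ZMod N) * v.1.2 := rfl

instance : MulAction SL(2, ℤ) (Unimod (ZMod N)) where
  one_smul v := by ext <;> simp
  mul_smul g h v := by
    ext
    · simp only [sl_smul_fst, sl_smul_snd, Matrix.SpecialLinearGroup.coe_mul, Matrix.mul_apply,
        Fin.sum_univ_two]
      push_cast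
      ring
    · simp only [sl_smul_fst, sl_smul_snd, Matrix.SpecialLinearGroup.coe_mul, Matrix.mul_apply,
        Fin.sum_univ_two]
      push_cast
      ring

instance : SMulCommClass SL(2, ℤ) (ZMod N)ˣ (Unimod (ZMod N)) where
  smul_comm g u v := by
    ext
    · simp only [sl_smul_fst, Unimod.smul_fst, Unimod.smul_snd]; ring
    · simp only [sl_smul_snd, Unimod.smul_fst, Unimod.smul_snd]; ring

/-- the induced action on the projective line -/
instance : SMul SL(2, ℤ) (P1 (ZMod N)) where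
  smul g := Quotient.map' (fun v => g • v) (by
    intro v w h
    obtain ⟨u, hu⟩ := MulAction.orbitRel_apply.mp h
    refine MulAction.orbitRel_apply.mpr ⟨u, ?_⟩
    change u • g • w = g • v
    have hu' : u • w = v := hu
    rw [← smul_comm, hu'])

theorem P1.smul_mk (g : SL(2, ℤ)) (v : Unimod (ZMod N)) : g • P1.mk v = P1.mk (g • v) := rfl

instance : MulAction SL(2, ℤ) (P1 (ZMod N)) where
  one_smul x := by
    obtain ⟨v, rfl⟩ := P1.mk_surjective x
    rw [P1.smul_mk, one_smul]
  mul_smul g h x := by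
    obtain ⟨v, rfl⟩ := P1.mk_surjective x
    simp only [P1.smul_mk, mul_smul]

end Action

/-! ## Transitivity and the stabiliser of `(1 : 0)` -/

section Transitive

variable {N : ℕ}

/-- a unimodular pair mod `N` has no common prime factor with `N` -/
theorem Unimod.no_common_prime (v : Unimod (ZMod N)) (a c : ℕ) (ha : (a : ZMod N) = v.1.1)
    (hc : (c : ZMod N) = v.1.2) (p : ℕ) (hp : p.Prime) (hpN : p ∣ N) (hpa : p ∣ a) (hpc : p ∣ c) :
    False := by
  obtain ⟨x, y, hxy⟩ := v.2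
  have := Fact.mk hp
  have h1 := congrArg (ZMod.castHom hpN (ZMod p)) hxy
  simp only [map_add, map_mul, map_one] at h1
  have ha' : ZMod.castHom hpN (ZMod p) v.1.1 = 0 := by
    rw [← ha, map_natCast]; exact (ZMod.natCast_eq_zero_iff _ _).mpr hpa
  have hc' : ZMod.castHom hpN (ZMod p) v.1.2 = 0 := by
    rw [← hc, map_natCast]; exact (ZMod.natCast_eq_zero_iff _ _).mpr hpc
  rw [ha', hc'] at h1
  simp at h1

theorem exists_coprime_lift [NeZero N] (v : Unimod (ZMod N)) :
    ∃ a c : ℤ, IsCoprime a c ∧ (a : ZMod N) = v.1.1 ∧ (c : ZMod N) = v.1.2 := by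
  set a₀ := v.1.1.val with ha₀
  have ha₀' : (a₀ : ZMod N) = v.1.1 := ZMod.natCast_zmod_val _
  obtain ⟨c', hc'pos, hc'⟩ : ∃ c' : ℕ, 0 < c' ∧ (c' : ZMod N) = v.1.2 := by
    by_cases h : v.1.2.val = 0
    · refine ⟨N, NeZero.pos N, ?_⟩
      rw [ZMod.natCast_self]; exact ((ZMod.val_eq_zero _).mp h).symm
    · exact ⟨v.1.2.val, Nat.pos_of_ne_zero h, ZMod.natCast_zmod_val _⟩
  have key := Unimod.no_common_prime v a₀ c' ha₀' hc'
  set t := ∏ p ∈ c'.primeFactors.filter (fun p => ¬ p ∣ a₀), p with ht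
  refine ⟨((a₀ + t * N : ℕ) : ℤ), (c' : ℤ), ?_, ?_, ?_⟩
  · rw [Nat.isCoprime_iff_coprime]
    apply Nat.coprime_of_dvd
    intro p hp hpa hpc
    by_cases hpa₀ : p ∣ a₀
    · have h2 : p ∣ t * N := (Nat.dvd_add_right hpa₀).mp hpa
      rcases (Nat.Prime.dvd_mul hp).mp h2 with h3 | h3
      · rw [ht, Prime.dvd_finsetProd_iff hp.prime] at h3
        obtain ⟨q, hq, hpq⟩ := h3
        rw [Finset.mem_filter, Nat.mem_primeFactors] at hq
        have : p = q := (Nat.prime_dvd_prime_iff_eq hp hq.1.1).mp hpq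
        exact hq.2 (this ▸ hpa₀)
      · exact key p hp h3 hpa₀ hpc
    · have hpt : p ∣ t := by
        rw [ht]
        apply Finset.dvd_prod_of_mem
        rw [Finset.mem_filter, Nat.mem_primeFactors]
        exact ⟨⟨hp, hpc, hc'pos.ne'⟩, hpa₀⟩
      exact hpa₀ ((Nat.dvd_add_left (Dvd.dvd.mul_right hpt N)).mp hpa)
  · push_cast
    rw [ZMod.natCast_self, mul_zero, add_zero, ha₀']
  · push_cast
    exact hc'

/-- the base point `(1 : 0)` -/
def Unimod.e0 (R : Type*) [CommRing R] : Unimod R := ⟨(1, 0), isCoprime_one_left⟩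

@[simp] theorem Unimod.e0_fst (R : Type*) [CommRing R] : (Unimod.e0 R).1.1 = 1 := rfl
@[simp] theorem Unimod.e0_snd (R : Type*) [CommRing R] : (Unimod.e0 R).1.2 = 0 := rfl

theorem exists_smul_e0_eq [NeZero N] (v : Unimod (ZMod N)) :
    ∃ g : SL(2, ℤ), g • Unimod.e0 (ZMod N) = v := by
  obtain ⟨a, c, hac, ha, hc⟩ := exists_coprime_lift v
  obtain ⟨g, hg⟩ := IsCoprime.exists_SL2_col hac 0
  refine ⟨g, ?_⟩
  ext
  · simp [hg.1, ha]
  · simp [hg.2, hc]

instance [NeZero N] : MulAction.IsPretransitive SL(2, ℤ) (P1 (ZMod N)) := by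
  refine ⟨fun x y => ?_⟩
  obtain ⟨v, rfl⟩ := P1.mk_surjective x
  obtain ⟨w, rfl⟩ := P1.mk_surjective y
  obtain ⟨g, hg⟩ := exists_smul_e0_eq v
  obtain ⟨h, hh⟩ := exists_smul_e0_eq w
  refine ⟨h * g⁻¹, ?_⟩
  rw [P1.smul_mk, ← hg, ← hh, mul_smul, inv_smul_smul]

/-- the base point of the projective line -/
def P1.inftyPt (N : ℕ) : P1 (ZMod N) := P1.mk (Unimod.e0 (ZMod N))

theorem stabilizer_inftyPt : MulAction.stabilizer SL(2, ℤ) (P1.inftyPt N) = Gamma0 N := by
  ext g
  rw [MulAction.mem_stabilizer_iff, Gamma0_mem, P1.inftyPt, P1.smul_mk, P1.mk_eq_mk_iff]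
  constructor
  · rintro ⟨u, hu⟩
    have h2 := congrArg (fun v : Unimod (ZMod N) => v.1.2) hu
    simp at h2
    exact h2.symm
  · intro h
    have hdet : ((g 0 0 : ℤ) : ZMod N) * ((g 1 1 : ℤ) : ZMod N)
        - ((g 0 1 : ℤ) : ZMod N) * ((g 1 0 : ℤ) : ZMod N) = 1 := by
      have := g.det_coe
      rw [Matrix.det_fin_two] at this
      have h2 := congrArg (Int.cast : ℤ → ZMod N) this
      push_cast at h2
      exact h2
    rw [h, mul_zero, sub_zero] at hdet
    refine ⟨Units.mkOfMulEqOne _ _ hdet, ?_⟩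
    ext
    · simp
    · simp [h]

/-- the orbit map of the base point, on cosets of `Γ₀(N)` -/
def cosetToP1 (N : ℕ) : SL(2, ℤ) ⧸ Gamma0 N → P1 (ZMod N) :=
  Quotient.lift (fun g : SL(2, ℤ) => g • P1.inftyPt N) (by
    intro g h hgh
    have h1 : g⁻¹ * h ∈ Gamma0 N := QuotientGroup.leftRel_apply.mp hgh
    rw [← stabilizer_inftyPt, MulAction.mem_stabilizer_iff, mul_smul, inv_smul_eq_iff] at h1
    exact h1.symm)

theorem cosetToP1_mk (g : SL(2, ℤ)) :
    cosetToP1 N (QuotientGroup.mk g : SL(2, ℤ) ⧸ Gamma0 N) = g • P1.inftyPt N := rfl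

theorem cosetToP1_smul (g : SL(2, ℤ)) (q : SL(2, ℤ) ⧸ Gamma0 N) :
    cosetToP1 N (g • q) = g • cosetToP1 N q := by
  induction q using QuotientGroup.induction_on with
  | H h => rw [MulAction.Quotient.smul_mk, cosetToP1_mk, cosetToP1_mk, smul_eq_mul, mul_smul]

theorem cosetToP1_injective : Function.Injective (cosetToP1 N) := by
  intro q r h
  induction q using QuotientGroup.induction_on with
  | H g =>
  induction r using QuotientGroup.induction_on with
  | H k =>
  rw [cosetToP1_mk, cosetToP1_mk] at h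
  rw [QuotientGroup.eq, ← stabilizer_inftyPt, MulAction.mem_stabilizer_iff, mul_smul,
    inv_smul_eq_iff]
  exact h.symm

theorem cosetToP1_surjective [NeZero N] : Function.Surjective (cosetToP1 N) := by
  intro x
  obtain ⟨g, hg⟩ := MulAction.exists_smul_eq SL(2, ℤ) (P1.inftyPt N) x
  exact ⟨QuotientGroup.mk g, hg⟩

theorem cosetToP1_bijective [NeZero N] : Function.Bijective (cosetToP1 N) :=
  ⟨cosetToP1_injective, cosetToP1_surjective⟩

/-- orbit counts of a subgroup are transported by an equivariant bijection -/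
theorem card_orbitRel_quotient_congr {G X Y : Type*} [Group G] [MulAction G X] [MulAction G Y]
    (f : X → Y) (hf : Function.Bijective f) (hfe : ∀ (g : G) (x : X), f (g • x) = g • f x)
    (H : Subgroup G) :
    Nat.card (MulAction.orbitRel.Quotient H X) = Nat.card (MulAction.orbitRel.Quotient H Y) := by
  apply Nat.card_congr
  refine Quotient.congr (Equiv.ofBijective f hf) (fun a b => ?_)
  simp only [MulAction.orbitRel_apply, MulAction.mem_orbit_iff, Equiv.ofBijective_apply]
  constructor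
  · rintro ⟨h, rfl⟩
    exact ⟨h, (hfe h b).symm⟩
  · rintro ⟨h, hh⟩
    refine ⟨h, hf.1 ?_⟩
    rw [← hh]
    exact hfe h b

theorem card_orbits_coset_eq [NeZero N] (g : SL(2, ℤ)) :
    Nat.card (MulAction.orbitRel.Quotient (Subgroup.zpowers g) (SL(2, ℤ) ⧸ Gamma0 N)) =
      Nat.card (MulAction.orbitRel.Quotient (Subgroup.zpowers g) (P1 (ZMod N))) :=
  card_orbitRel_quotient_congr (cosetToP1 N) cosetToP1_bijective cosetToP1_smul _

theorem card_coset_eq [NeZero N] : Nat.card (SL(2, ℤ) ⧸ Gamma0 N) = Nat.card (P1 (ZMod N)) :=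
  Nat.card_congr (Equiv.ofBijective _ cosetToP1_bijective)

end Transitive

end Fermat.Agent.S24Lib
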